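import Fermat.Agent.Flat.Subquotient

/-!
# Finite Galois modules with coordinate systems at every place over a prime

The class contains the modules with a finite flat model and is closed under subobjects,
quotients, products and powers.
-/

set_option autoImplicit false

noncomputable section

open Module FermatAgent.GaloisBasic
open scoped TensorProduct

namespace FermatAgent.Flat

variable {X Y : Type} [AddCommGroup X] [AddCommGroup Y]

/-- The group with the action of a homomorphism into its endomorphisms. -/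
def EndMod (_ρ : GQ →* AddMonoid.End X) : Type := X

instance (ρ : GQ →* AddMonoid.End X) : AddCommGroup (EndMod ρ) := inferInstanceAs (AddCommGroup X)

instance (ρ : GQ →* AddMonoid.End X) : DistribMulAction GQ (EndMod ρ) where
  smul σ x := (ρ σ (show X from x) : X)
  one_smul x := by show (ρ 1) x = x; rw [map_one]; rfl
  mul_smul σ τ x := by show ρ (σ * τ) x = ρ σ (ρ τ x); rw [map_mul]; rfl
  smul_zero σ := map_zero (ρ σ)
  smul_add σ x y := map_add (ρ σ) x y

/-- The action has coordinate systems at every place over `p`. -/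
def IsFlatAct (p : ℕ) (ρ : GQ →* AddMonoid.End X) : Prop :=
  Finite X ∧ ∀ A : ValuationSubring Qbar, A.LiesOverPrime p →
    ∃ (L : IntermediateField ℚ Qbar) (Φ : Set (EndMod ρ → Qbar)),
      FiniteDimensional ℚ L ∧ IsGalois ℚ L ∧ IsCoordSystem L A Φ

/-- The action on a level of an adic representation, as additive endomorphisms. -/
def levelEnd {A : Type} [CommRing A] [IsLocalRing A] (ρ : GaloisRepAdic A) (I : Ideal A) :
    GQ →* AddMonoid.End (ρ.V ⧸ (I • (⊤ : Submodule A ρ.V))) where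
  toFun σ := (ρ.levelAction I σ).toAddMonoidHom
  map_one' := by
    refine AddMonoidHom.ext fun x => ?_
    obtain ⟨x, rfl⟩ := Submodule.mkQ_surjective _ x
    show ρ.levelAction I 1 (Submodule.Quotient.mk x) = _
    simp [GaloisRepAdic.levelAction]
    rfl
  map_mul' σ τ := by
    refine AddMonoidHom.ext fun x => ?_
    obtain ⟨x, rfl⟩ := Submodule.mkQ_surjective _ x
    show ρ.levelAction I (σ * τ) (Submodule.Quotient.mk x) =
      ρ.levelAction I σ (ρ.levelAction I τ (Submodule.Quotient.mk x))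
    simp [GaloisRepAdic.levelAction]

/-- The action on functions, componentwise. -/
def compAct (Y : Type) [AddCommGroup Y] [DistribMulAction GQ Y] (J : Type) :
    GQ →* AddMonoid.End (J → Y) where
  toFun g := AddMonoidHom.mk' (fun f j => g • f j) fun _ _ => funext fun _ => smul_add g _ _
  map_one' := AddMonoidHom.ext fun _ => funext fun _ => one_smul GQ _
  map_mul' g h := AddMonoidHom.ext fun _ => funext fun _ => mul_smul g h _

/-- A finite set lies in a finite Galois extension. -/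
theorem exists_galois_of_finite {s : Set Qbar} (hs : s.Finite) :
    ∃ L : IntermediateField ℚ Qbar, FiniteDimensional ℚ L ∧ IsGalois ℚ L ∧ s ⊆ L := by
  have : Finite s := hs.to_subtype
  set E : IntermediateField ℚ Qbar := IntermediateField.adjoin ℚ s
  have : Normal ℚ (IntermediateField.normalClosure ℚ E Qbar) := normalClosure.normal ℚ E Qbar
  have : IsGalois ℚ (IntermediateField.normalClosure ℚ E Qbar) := ⟨⟩
  have : FiniteDimensional ℚ E :=
    IntermediateField.finiteDimensional_adjoin fun x _ =>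
      (Algebra.IsAlgebraic.isAlgebraic x).isIntegral
  refine ⟨IntermediateField.normalClosure ℚ E Qbar, inferInstance,
    inferInstance, fun x hx => E.le_normalClosure (IntermediateField.subset_adjoin ℚ s hx)⟩

variable {p : ℕ} {ρ : GQ →* AddMonoid.End X} {ρ' : GQ →* AddMonoid.End Y}

namespace IsFlatAct

/-- Subobjects. -/
theorem restrict (h : IsFlatAct p ρ) (ι : Y →+ X) (hι : Function.Injective ι)
    (heq : ∀ σ y, ι (ρ' σ y) = ρ σ (ι y)) : IsFlatAct p ρ' := by
  have := h.1
  refine ⟨Finite.of_injective ι hι, fun A hA => ?_⟩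
  obtain ⟨L, Φ, h1, h2, h3⟩ := h.2 A hA
  exact ⟨L, _, h1, h2, IsCoordSystem.restrict (M' := EndMod ρ') h3 ι hι heq⟩

/-- Quotients. -/
theorem quotient [Fact p.Prime] (h : IsFlatAct p ρ) (π : X →+ Y) (hπ : Function.Surjective π)
    (heq : ∀ σ x, π (ρ σ x) = ρ' σ (π x)) : IsFlatAct p ρ' := by
  have := h.1
  refine ⟨Finite.of_surjective π hπ, fun A hA => ?_⟩
  obtain ⟨L, Φ, h1, h2, h3⟩ := h.2 A hA
  have : Finite (EndMod ρ) := h.1
  obtain ⟨Ψ, h4⟩ := IsCoordSystem.quotient (M' := EndMod ρ') hA h3 π hπ heq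
  exact ⟨L, Ψ, h1, h2, h4⟩

/-- Powers. -/
theorem pi {ι : Type} [Finite ι] (h : IsFlatAct p ρ) (ρι : GQ →* AddMonoid.End (ι → X))
    (hρι : ∀ σ (f : ι → X) i, ρι σ f i = ρ σ (f i)) : IsFlatAct p ρι := by
  have := h.1
  refine ⟨inferInstance, fun A hA => ?_⟩
  obtain ⟨L, Φ, h1, h2, h3⟩ := h.2 A hA
  refine ⟨L, _, h1, h2, IsCoordSystem.restrict (M' := EndMod ρι) (IsCoordSystem.pi (ι := ι) h3)
    (AddMonoidHom.id (ι → X)) Function.injective_id fun σ f => funext fun i => hρι σ f i⟩

/-- Binary products. -/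
theorem prod (h : IsFlatAct p ρ) (h' : IsFlatAct p ρ') (ρq : GQ →* AddMonoid.End (X × Y))
    (hρq : ∀ σ z, ρq σ z = (ρ σ z.1, ρ' σ z.2)) : IsFlatAct p ρq := by
  have := h.1; have := h'.1
  refine ⟨inferInstance, fun A hA => ?_⟩
  obtain ⟨L, Φ, hL, hLG, hΦ⟩ := h.2 A hA
  obtain ⟨L', Ψ, hL', hLG', hΨ⟩ := h'.2 A hA
  let π₁ : EndMod ρq →+ EndMod ρ := AddMonoidHom.fst X Y
  let π₂ : EndMod ρq →+ EndMod ρ' := AddMonoidHom.snd X Y
  have e1 : ∀ (σ : GQ) z, π₁ (σ • z) = σ • π₁ z := fun σ z => congrArg Prod.fst (hρq σ z)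
  have e2 : ∀ (σ : GQ) z, π₂ (σ • z) = σ • π₂ z := fun σ z => congrArg Prod.snd (hρq σ z)
  have : Normal ℚ ↥(L ⊔ L') :=
    @IntermediateField.normal_sup ℚ Qbar _ _ _ L L' hLG.to_normal hLG'.to_normal
  have : IsGalois ℚ ↥(L ⊔ L') := ⟨⟩
  have a1 := hΦ.mono (L' := L ⊔ L') le_sup_left
  have a2 := hΨ.mono (L' := L ⊔ L') le_sup_right
  refine ⟨L ⊔ L', (fun φ => φ ∘ π₁) '' Φ ∪ (fun φ => φ ∘ π₂) '' Ψ, inferInstance, inferInstance,
    IsCoordSystem.of_pullback (fun σ hσ z => Prod.ext ((e1 σ z).trans (a1.fixedM σ hσ (π₁ z)))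
      ((e2 σ z).trans (a2.fixedM σ hσ (π₂ z)))) (fun z w hzw => ?_) ?_⟩
  · by_cases h1 : π₁ z = π₁ w
    · obtain ⟨φ, hφ, hne⟩ := hΨ.separated (π₂ z) (π₂ w) fun h2 => hzw (Prod.ext h1 h2)
      exact ⟨_, Or.inr ⟨φ, hφ, rfl⟩, hne⟩
    · obtain ⟨φ, hφ, hne⟩ := hΦ.separated _ _ h1
      exact ⟨_, Or.inl ⟨φ, hφ, rfl⟩, hne⟩
  · rintro _ (⟨φ, hφ, rfl⟩ | ⟨φ, hφ, rfl⟩)
    · exact ⟨_, _, _, Φ, π₁, a1, e1, fun f hf => Or.inl ⟨f, hf, rfl⟩, φ, hφ, rfl⟩
    · exact ⟨_, _, _, Ψ, π₂, a2, e2, fun f hf => Or.inr ⟨f, hf, rfl⟩, φ, hφ, rfl⟩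

end IsFlatAct

/-- A quotient of the image of a map to a flat module which is compatible with Galois. -/
theorem isFlatAct_of_range [Fact p.Prime] {B : Type} [AddCommGroup B]
    {ρY : GQ →* AddMonoid.End Y} (hY : IsFlatAct p ρY) {ρ : GQ →* AddMonoid.End X}
    (q : B →+ Y) (tot : B →+ X) (htot : Function.Surjective tot) (hker : ∀ b, q b = 0 → tot b = 0)
    (gB : GQ → B → B) (hqg : ∀ g b, q (gB g b) = ρY g (q b))
    (heq : ∀ g b, ρ g (tot b) = tot (gB g b)) : IsFlatAct p ρ := by
  have := hY.1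
  let ρq : GQ →* AddMonoid.End q.range :=
    { toFun g := AddMonoidHom.mk' (fun x => ⟨ρY g x.1, by
          obtain ⟨b, hb⟩ := x.2
          exact ⟨gB g b, by rw [hqg, hb]⟩⟩)
        fun x y => Subtype.ext (map_add (ρY g) x.1 y.1)
      map_one' := AddMonoidHom.ext fun x => Subtype.ext (by
        show ρY 1 x.1 = x.1
        rw [map_one]; rfl)
      map_mul' g h := AddMonoidHom.ext fun x => Subtype.ext (by
        show ρY (g * h) x.1 = ρY g (ρY h x.1)
        rw [map_mul]; rfl) }
  have hq : IsFlatAct p ρq := hY.restrict q.range.subtype Subtype.val_injective fun _ _ => rfl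
  choose pre hpre using fun x : q.range => x.2
  have hwd : ∀ b x, q b = x.1 → tot (pre x) = tot b := fun b x hb => by
    rw [← sub_eq_zero, ← map_sub]
    exact hker _ (by rw [map_sub, hpre, hb, sub_self])
  let π : q.range →+ X := AddMonoidHom.mk' (fun x => tot (pre x)) fun x y =>
    (hwd (pre x + pre y) (x + y) (by rw [map_add, hpre, hpre]; rfl)).trans (map_add tot _ _)
  refine hq.quotient π (fun x => ?_) fun g x => ?_
  · obtain ⟨b, rfl⟩ := htot x
    exact ⟨⟨q b, b, rfl⟩, hwd b _ rfl⟩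
  · show tot (pre _) = ρ g (tot (pre x))
    rw [heq]
    refine hwd _ _ ?_
    rw [hqg, hpre]
    rfl

section Model

variable [Fact p.Prime]

local notation "Rp" => GaloisRep.ratLocalizedAt p

/-- A finite flat model gives coordinate systems. -/
theorem isFlatAct_of_model [Finite X] {H : Type} [CommRing H] [HopfAlgebra Rp H]
    [Module.Finite Rp H] (e : WithConv (H →ₐ[Rp] Qbar) ≃ X) (hadd : ∀ f g, e (f * g) = e f + e g)
    (hσ : ∀ (σ : GQ) (f g : WithConv (H →ₐ[Rp] Qbar)),
      (∀ h : H, g h = σ (f h)) → e g = ρ σ (e f)) : IsFlatAct p ρ := by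
  refine ⟨inferInstance, fun A hA => ?_⟩
  let val : H → EndMod ρ → Qbar := fun h x => (e.symm x).ofConv h
  obtain ⟨G, hG⟩ := (Module.Finite.fg_top : (⊤ : Submodule Rp H).FG)
  have hfin : (⋃ g ∈ G, Set.range (val g)).Finite :=
    G.finite_toSet.biUnion fun g _ => by
      have : Finite (EndMod ρ) := ‹Finite X›
      exact Set.finite_range _
  obtain ⟨L, hL, hLG, hsub⟩ := exists_galois_of_finite hfin
  have hequiv : ∀ (σ : GQ) x h, val h (σ • x) = σ (val h x) := by
    intro σ x h
    let g : WithConv (H →ₐ[Rp] Qbar) :=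
      WithConv.toConv ((σ.toAlgHom.restrictScalars Rp).comp (e.symm x).ofConv)
    have h1 : e g = ρ σ (e (e.symm x)) := hσ σ (e.symm x) g fun _ => rfl
    rw [e.apply_symm_apply] at h1
    show (e.symm (ρ σ x)).ofConv h = _
    rw [← h1, e.symm_apply_apply]
    rfl
  have hinv : ∀ (σ : GQ) h, tw σ (val h) = val h := fun σ h => funext fun x => by
    rw [tw_apply, hequiv, ← AlgEquiv.mul_apply, mul_inv_cancel, AlgEquiv.one_apply]
  refine ⟨L, Set.range val, hL, hLG, fun σ hσ' x => ?_, fun σ _ φ hφ => ?_, ?_, ?_,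
    fun σ _ φ hφ => ?_, fun σ _ φ hφ => ?_, ?_⟩
  · apply e.symm.injective
    refine WithConv.ofConv_injective (AlgHom.toLinearMap_injective ?_)
    refine LinearMap.ext_on hG fun g hg => ?_
    show val g (σ • x) = val g x
    rw [hequiv]
    exact (IntermediateField.mem_fixingSubgroup_iff L σ).mp hσ' _
      (hsub (Set.mem_biUnion hg ⟨x, rfl⟩))
  · obtain ⟨h, rfl⟩ := hφ; exact hinv σ h
  · rintro _ ⟨h, rfl⟩ x
    have h1 : IsIntegral Rp (val h x) := (Algebra.IsIntegral.isIntegral h).map (e.symm x).ofConv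
    obtain ⟨P, hP, hP0⟩ := h1
    let j : Rp →+* A := (algebraMap Rp Qbar).codRestrict A.toSubring (algebraMap_mem_place hA)
    have h2 : IsIntegral A (val h x) :=
      ⟨P.map j, hP.map j, by
        rw [Polynomial.eval₂_map]
        exact hP0⟩
    obtain ⟨a, ha⟩ := IsIntegrallyClosed.isIntegral_iff.mp h2
    rw [← ha]
    exact a.2
  · intro x y hxy
    by_contra hall
    push Not at hall
    exact hxy (e.symm.injective (WithConv.ofConv_injective
      (AlgHom.ext fun h => hall (val h) ⟨h, rfl⟩)))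
  · obtain ⟨h, rfl⟩ := hφ; exact hinv σ h
  · obtain ⟨h, rfl⟩ := hφ
    rw [hinv σ h]
    exact Algebra.subset_adjoin ⟨h, rfl⟩
  · rintro _ ⟨h, rfl⟩
    have key : ∀ z : H ⊗[Rp] H, (fun q : EndMod ρ × EndMod ρ =>
        LinearMap.mul' Rp Qbar (TensorProduct.map (e.symm q.1).ofConv.toLinearMap
          (e.symm q.2).ofConv.toLinearMap z)) ∈ Algebra.adjoin A
          (pullAlg A Qbar Prod.fst '' Set.range val ∪
            pullAlg A Qbar Prod.snd '' Set.range val) := by
      intro z
      induction z using TensorProduct.induction_on with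
      | zero => simp only [map_zero]; exact zero_mem _
      | tmul a b =>
        simp only [TensorProduct.map_tmul, LinearMap.mul'_apply]
        exact mul_mem (Algebra.subset_adjoin (Or.inl ⟨_, ⟨a, rfl⟩, rfl⟩))
          (Algebra.subset_adjoin (Or.inr ⟨_, ⟨b, rfl⟩, rfl⟩))
      | add a b ha hb => simp only [map_add]; exact add_mem ha hb
    have hsum : (fun q : EndMod ρ × EndMod ρ => val h (q.1 + q.2)) = fun q =>
        LinearMap.mul' Rp Qbar (TensorProduct.map (e.symm q.1).ofConv.toLinearMap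
          (e.symm q.2).ofConv.toLinearMap (Coalgebra.comul (R := Rp) h)) := funext fun q => by
      have h1 : e.symm (q.1 + q.2) = e.symm q.1 * e.symm q.2 := by
        apply e.injective
        rw [e.apply_symm_apply, hadd, e.apply_symm_apply, e.apply_symm_apply]
        rfl
      show (e.symm (q.1 + q.2)).ofConv h = _
      rw [h1]
      rfl
    rw [hsum]
    exact key _

end Model

end FermatAgent.Flat
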