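import Fermat.Agent.Flat.Equivariant
import Fermat.Agent.Curve.Hurwitz

/-!
# Every residual place lifts to a place fixed by inertia
-/

set_option autoImplicit false

noncomputable section

open AlgebraicCurve Module FermatAgent.Curve
open SemilinearAut (baseAut)

namespace FermatAgent.Flat

/-- Semilinear automorphisms commute with divisors of functions. -/
theorem smul_divisorOf {K F : Type*} [Field K] [Field F] [Algebra K F] [IsFF K F]
    (g : SemilinearAut K F) (f : F) : g • (divisorOf f : Divisor K F) = divisorOf (g • f) :=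
  Finsupp.ext fun v => by
    rw [SemilinearAut.divisor_smul_apply, divisorOf_apply, divisorOf_apply,
      ← SemilinearAut.ord_smul g (g⁻¹ • v) f, smul_inv_smul]

variable {K : Type*} [Field K] {A : ValuationSubring K} {k : Type*} [Field k] {ρ : A →+* k}
  {F Fb : Type*} [Field F] [Algebra K F] [Field Fb] [Algebra k Fb] [IsFF K F] [IsFF k Fb]
  [IsAlgClosed K] [IsAlgClosed k] {S : ConstRed A ρ F Fb} (Θ : Coef S)

/-- A residual place lifts to a place fixed by all the given automorphisms. -/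
theorem exists_fixed_place (hgen : rGenus K F ≤ rGenus k Fb) (G : Set (SemilinearAut K F))
    (hG : ∀ g ∈ G, Compatible Θ g) (hA : ∀ g ∈ G, ∀ a : A, baseAut g (a : K) ∈ A)
    (hρ : ∀ g ∈ G, ∀ (a : A) (h : baseAut g (a : K) ∈ A), ρ ⟨_, h⟩ = ρ a)
    (τ : k → A) (hτ : ∀ a, ρ (τ a) = a) (hτ0 : τ 0 = 0)
    (hτfix : ∀ g ∈ G, ∀ a, baseAut g (τ a : K) = τ a)
    (hB : ∀ g ∈ G, g • Θ.B = Θ.B) (hBdeg : 0 < Divisor.degree Θ.B) (Q : Place k Fb) :
    ∃ P : Place K F, S.r P = Q ∧ ∀ g ∈ G, g • P = P := by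
  classical
  obtain ⟨c, hc⟩ := S.exists_threshold hgen
  obtain ⟨c', hc'⟩ := exists_isThreshold (K := k) (F := Fb)
  set n : ℕ := (max c (c' + 2)).toNat
  set E : Divisor K F := n • Θ.B
  have hEdeg : max c (c' + 2) ≤ Divisor.degree E := by
    rw [map_nsmul, nsmul_eq_mul]
    exact (Int.self_le_toNat _).trans (le_mul_of_one_le_right (Int.natCast_nonneg _) hBdeg)
  obtain ⟨-, hE⟩ := hc E ((le_max_left _ _).trans hEdeg)
  have hex : Exact Θ E (rrDim E) := ⟨rfl, hE, n, le_rfl⟩
  obtain ⟨C, hC, hCτ⟩ := exists_funl Θ (fun _ : Unit => E) (fun _ => hex) τ hτ hτ0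
  obtain ⟨s, hs, hδ⟩ := exists_normalised Θ hex (hC ())
  have hwt : ∀ g ∈ G, ∀ i, ∀ e ∈ C.E, baseAut g (C.wt i e : K) = C.wt i e := fun g hg i e _ => by
    obtain ⟨a, ha⟩ := hCτ i e
    rw [← ha]; exact hτfix g hg a
  have hgE : ∀ g ∈ G, g • E = E := fun g hg => by rw [smul_comm g, hB g hg]
  have hsfix : ∀ g ∈ G, ∀ i, g • (s i : F) = s i := fun g hg i =>
    smul_normalised (hG g hg) (hwt g hg) (hgE g hg) hex (hC ()) (hs i) fun j => by
      rw [hδ]; split_ifs <;> simp
  have hQle : Finsupp.mapDomain S.r E - Finsupp.single Q 1 ≤ Finsupp.mapDomain S.r E := fun v => by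
    simp only [Finsupp.sub_apply, Finsupp.single_apply]; split_ifs <;> omega
  obtain ⟨z, hz, hz0, hzQ⟩ := exists_ord_eq_neg hc'
    (G := Finsupp.mapDomain S.r E - Finsupp.single Q 1)
    (by rw [degree_sub_single, S.degree_mapDomain]; have := le_max_right c (c' + 2); omega) Q
  have hzE := riemannRochSpace_le_of_le hQle hz
  set f : S.O := ∑ i, S.cst (τ (C.appb Θ i z)) * s i
  have hfred : S.red f = z := by
    simp only [f, map_sum, S.red_cst_mul, hτ]
    exact (red_eq_sum_normalised Θ hex.2.2 (hC ()) hs hδ hzE).symm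
  have hff : (f : F) = ∑ i, (τ (C.appb Θ i z) : K) • (s i : F) := by
    simp only [f, AddSubmonoidClass.coe_finsetSum, MulMemClass.coe_mul, ConstRed.coe_cst,
      Algebra.smul_def]
  have hfE : (f : F) ∈ riemannRochSpace E := hff ▸
    Submodule.sum_mem _ fun i _ => Submodule.smul_mem _ _ (hs i)
  have hgf : ∀ g ∈ G, g • (f : F) = f := fun g hg => by
    rw [hff, Finset.smul_sum]
    refine Finset.sum_congr rfl fun i _ => ?_
    rw [Algebra.smul_def, smul_mul', SemilinearAut.smul_algebraMap, hτfix g hg, hsfix g hg]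
  have hf0 : (f : F) ≠ 0 := fun h => hz0 (by
    rw [← hfred, show f = 0 from Subtype.ext h, map_zero])
  set Z : Divisor K F := divisorOf (f : F) + E
  have hZ0 : 0 ≤ Z := fun v => by
    have := (mem_riemannRochSpace_iff_ne_zero hf0).1 hfE v
    simp only [Z, Finsupp.add_apply, Finsupp.zero_apply, divisorOf_apply] at this ⊢
    omega
  have hZQ : Finsupp.mapDomain S.r Z Q = 1 := by
    rw [Finsupp.mapDomain_add, S.mapDomain_r f (hfred ▸ hz0), hfred, Finsupp.add_apply,
      divisorOf_apply, hzQ, Finsupp.sub_apply, Finsupp.single_eq_same]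
    omega
  obtain ⟨P, hPQ, hPZ⟩ : ∃ P : Place K F, S.r P = Q ∧ Z P ≠ 0 := by
    by_contra hall
    push Not at hall
    rw [Finsupp.mapDomain, Finsupp.sum_apply, Finsupp.sum, Finset.sum_eq_zero] at hZQ
    · exact zero_ne_one hZQ
    · intro P _
      rw [Finsupp.single_apply]
      split_ifs with h
      · exact hall P h
      · rfl
  refine ⟨P, hPQ, fun g hg => ?_⟩
  by_contra hne
  have hgr := r_smul_eq (hG g hg) (hA g hg) (hB g hg) (hρ g hg) hgen hBdeg P
  have hgZ : Z (g • P) = Z P := by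
    have h1 : g • Z = Z := by
      simp only [Z, smul_add, smul_divisorOf, hgf g hg, hgE g hg]
    conv_lhs => rw [← h1]
    exact SemilinearAut.divisor_smul_apply_smul g Z P
  have hle : Finsupp.single P 1 + Finsupp.single (g • P) 1 ≤ Z := fun v => by
    have h0 : 0 ≤ Z v := hZ0 v
    have hP1 : 0 < Z P := lt_of_le_of_ne (hZ0 P) (Ne.symm hPZ)
    simp only [Finsupp.add_apply, Finsupp.single_apply]
    split_ifs with h1 h2 h2
    · exact absurd (h2.trans h1.symm) hne
    · subst h1; omega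
    · subst h2; omega
    · omega
  have h := mapDomain_mono S.r hle Q
  rw [hZQ, Finsupp.mapDomain_add, Finsupp.mapDomain_single, Finsupp.mapDomain_single, hgr, hPQ,
    Finsupp.add_apply, Finsupp.single_eq_same] at h
  omega

end FermatAgent.Flat
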