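import Mathlib.RingTheory.HopfAlgebra.Basic
import Mathlib.RingTheory.Bialgebra.Convolution
import Mathlib.RingTheory.TensorProduct.Finite
import Mathlib.LinearAlgebra.TensorProduct.Basis
import Mathlib.RingTheory.Flat.Basic
import Mathlib.LinearAlgebra.FiniteDimensional.Lemmas

/-!
# Hopf orders in the algebra of functions on a finite group

`exists_hopf_aux`: let `S` be an `R`-algebra of functions from a finite abelian group `M` to a field
`K`, with a basis of `Nat.card M` elements independent over `K`, containing with `f` its composite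
with negation, with `f (x + y)` bilinear in the basis and `f 0` in `R`. Then `S` is a finite flat
cocommutative Hopf algebra whose group of `K`-points is `M`. The coalgebra identities are checked as
functions on `M × M` and `M × (M × M)`, into which the tensor powers of `S` embed.
-/

set_option autoImplicit false

noncomputable section

open TensorProduct Module

namespace FermatAgent.Flat

/-- Precomposition as an algebra map. -/
def pullAlg (R K : Type*) [CommRing R] [CommRing K] [Algebra R K] {X Y : Type*} (φ : Y → X) :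
    (X → K) →ₐ[R] (Y → K) where
  toFun f := f ∘ φ
  map_one' := rfl
  map_mul' _ _ := rfl
  map_zero' := rfl
  map_add' _ _ := rfl
  commutes' _ := rfl

/-- Products of two independent families are independent as functions of two variables. -/
theorem linearIndependent_prod {K : Type*} [Field K] {X Y ι κ : Type*} [Fintype ι] [Fintype κ]
    {f : ι → X → K} {g : κ → Y → K} (hf : LinearIndependent K f) (hg : LinearIndependent K g) :
    LinearIndependent K (fun p : ι × κ => fun q : X × Y => f p.1 q.1 * g p.2 q.2) := by
  rw [Fintype.linearIndependent_iff]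
  intro c hc p
  have h1 : ∀ y, ∀ i, ∑ j, c (i, j) * g j y = 0 := fun y => by
    refine Fintype.linearIndependent_iff.1 hf (fun i => ∑ j, c (i, j) * g j y) (funext fun x => ?_)
    have h := congrFun hc (x, y)
    simp only [Finset.sum_apply, Pi.smul_apply, smul_eq_mul, Pi.zero_apply,
      Fintype.sum_prod_type] at h ⊢
    rw [← h]
    refine Finset.sum_congr rfl fun i _ => ?_
    rw [Finset.sum_mul]
    exact Finset.sum_congr rfl fun j _ => by ring
  refine Fintype.linearIndependent_iff.1 hg (fun j => c (p.1, j)) (funext fun y => ?_) p.2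
  simpa [Finset.sum_apply] using h1 y p.1

theorem injective_of_basis {R K : Type*} [CommRing R] [Field K] [Algebra R K]
    (hRK : Function.Injective (algebraMap R K)) {V W ι : Type*} [AddCommMonoid V] [Module R V]
    [AddCommMonoid W] [Module R W] [Module K W] [IsScalarTower R K W] [Fintype ι]
    (b : Basis ι R V) (φ : V →ₗ[R] W) (h : LinearIndependent K (fun i => φ (b i))) :
    Function.Injective φ := fun u v huv => by
  rw [← b.sum_repr u, ← b.sum_repr v, map_sum, map_sum] at huv
  simp only [map_smul, ← algebraMap_smul K (b.repr _ _) (φ _)] at huv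
  have h0 := Fintype.linearIndependent_iffₛ.1 h _ _ huv
  rw [← b.sum_repr u, ← b.sum_repr v]
  exact Finset.sum_congr rfl fun i _ => by rw [hRK (h0 i)]

/-- The formula for pullback. -/
@[simp] theorem pullAlg_apply (R : Type*) {K : Type*} [CommRing R] [CommRing K] [Algebra R K]
    {X Y : Type*} (φ : Y → X) (f : X → K) (y : Y) : pullAlg R K φ f y = f (φ y) := rfl

/-- Algebra maps out of an order of functions are evaluations. -/
theorem bijective_eval {R K M ι : Type} [CommRing R] [Field K] [Algebra R K] [Finite M]
    [Fintype ι] (S : Subalgebra R (M → K)) (b : Basis ι R S)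
    (hli : LinearIndependent K (fun i => (b i : M → K))) (hcard : Fintype.card ι = Nat.card M) :
    Function.Bijective fun x : M =>
      WithConv.toConv ((Pi.evalAlgHom R (fun _ : M => K) x).comp S.val) := by
  classical
  have := Fintype.ofFinite M
  let bK : Basis ι K (M → K) :=
    basisOfLinearIndependentOfCardEqFinrank' (fun i => (b i : M → K)) hli (by
      rw [hcard, Module.finrank_pi, Nat.card_eq_fintype_card])
  have hbK : ∀ i, bK i = (b i : M → K) := fun i => by simp [bK]
  set pt : M → WithConv (↥S →ₐ[R] K) := fun x =>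
    WithConv.toConv ((Pi.evalAlgHom R (fun _ : M => K) x).comp S.val)
  have hpt : ∀ x (h : S), (pt x).ofConv h = (h : M → K) x := fun x h => rfl
  have hspan : ∀ f : M → K, ∃ c : ι → K, ∑ i, c i • (b i : M → K) = f := fun f =>
    ⟨fun i => bK.repr f i, by simp only [← hbK]; exact bK.sum_repr f⟩
  refine ⟨fun x y h => ?_, fun ψ => ?_⟩
  · obtain ⟨c, hc⟩ := hspan (Pi.single x 1)
    have h1 : (Pi.single x (1 : K) : M → K) x = (Pi.single x (1 : K) : M → K) y := by
      simp only [← hc, Finset.sum_apply, Pi.smul_apply]
      exact Finset.sum_congr rfl fun i _ => by rw [← hpt x (b i), h, hpt]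
    by_contra hne
    rw [Pi.single_eq_same, Pi.single_eq_of_ne (Ne.symm hne)] at h1
    exact one_ne_zero h1
  · let Φ : (M → K) →ₗ[K] K := bK.constr K fun i => ψ.ofConv (b i)
    have hΦ : ∀ h : S, Φ (h : M → K) = ψ.ofConv h := by
      have : (Φ.restrictScalars R).comp S.val.toLinearMap =
          ψ.ofConv.toLinearMap := b.ext fun i => by
        show Φ (b i : M → K) = _
        rw [← hbK]
        exact bK.constr_basis K _ i
      exact fun h => LinearMap.congr_fun this h
    have hmul : ∀ f g : M → K, Φ (f * g) = Φ f * Φ g := fun f g => by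
      obtain ⟨c, rfl⟩ := hspan f
      obtain ⟨d, rfl⟩ := hspan g
      simp only [Finset.sum_mul, Finset.mul_sum, map_sum, smul_mul_assoc, mul_smul_comm, map_smul,
        smul_eq_mul]
      refine Finset.sum_congr rfl fun i _ => Finset.sum_congr rfl fun j _ => ?_
      have : ∀ i j, Φ ((b i : M → K) * (b j : M → K)) = Φ (b i : M → K) * Φ (b j : M → K) :=
        fun i j => by rw [← MulMemClass.coe_mul, hΦ, hΦ, hΦ, map_mul]
      rw [this]; ring
    have hone : Φ 1 = 1 := by
      rw [show (1 : M → K) = ((1 : S) : M → K) from rfl, hΦ, map_one]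
    obtain ⟨x, hx⟩ : ∃ x, Φ (Pi.single x 1) ≠ 0 := by
      by_contra hall
      push Not at hall
      refine one_ne_zero (hone.symm.trans ?_)
      rw [← Finset.univ_sum_single (1 : M → K), map_sum]
      exact Finset.sum_eq_zero fun x _ => hall x
    refine ⟨x, WithConv.ofConv_injective (AlgHom.ext fun h => ?_)⟩
    rw [hpt, ← hΦ]
    have h1 : (h : M → K) * Pi.single x 1 = (h : M → K) x • Pi.single x 1 := funext fun y => by
      by_cases hy : y = x <;> simp [hy]
    have h2 := hmul (h : M → K) (Pi.single x 1)
    rw [h1, map_smul, smul_eq_mul] at h2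
    exact mul_right_cancel₀ hx h2

section Order

variable {R K M : Type} [CommRing R] [Field K] [Algebra R K] (S : Subalgebra R (M → K))

/-- Products of two functions of the order, as functions of two variables. -/
private def pairAlg : (↥S ⊗[R] ↥S) →ₐ[R] (M × M → K) :=
  Algebra.TensorProduct.lift ((pullAlg R K Prod.fst).comp S.val)
    ((pullAlg R K Prod.snd).comp S.val) fun _ _ => Commute.all _ _

/-- Products of three functions of the order, as functions of three variables. -/
private def tripleAlg : (↥S ⊗[R] (↥S ⊗[R] ↥S)) →ₐ[R] (M × (M × M) → K) :=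
  Algebra.TensorProduct.lift ((pullAlg R K Prod.fst).comp S.val)
    ((pullAlg R K Prod.snd).comp (pairAlg S)) fun _ _ => Commute.all _ _

private lemma pairAlg_tmul (f g : S) (p : M × M) :
    pairAlg S (f ⊗ₜ g) p = (f : M → K) p.1 * (g : M → K) p.2 := by simp [pairAlg]

private lemma tripleAlg_tmul (f : S) (t : ↥S ⊗[R] ↥S) (p : M × (M × M)) :
    tripleAlg S (f ⊗ₜ t) p = (f : M → K) p.1 * pairAlg S t p.2 := by simp [tripleAlg]

variable {S}

/-- The products separate tensors. -/
private lemma pairAlg_injective {ι : Type} [Fintype ι] (hRK : Function.Injective (algebraMap R K))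
    (b : Basis ι R S) (hli : LinearIndependent K (fun i => (b i : M → K))) :
    Function.Injective (pairAlg S) ∧ Function.Injective (tripleAlg S) := by
  constructor
  · refine injective_of_basis (K := K) hRK (b.tensorProduct b) (pairAlg S).toLinearMap ?_
    convert linearIndependent_prod hli hli using 1 <;> [skip; rfl]
    funext p q
    rw [AlgHom.toLinearMap_apply, Basis.tensorProduct_apply']
    exact pairAlg_tmul S _ _ _
  · refine injective_of_basis (K := K) hRK (b.tensorProduct (b.tensorProduct b))
      (tripleAlg S).toLinearMap ?_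
    convert linearIndependent_prod hli (linearIndependent_prod hli hli) using 1 <;> [skip; rfl]
    funext p q
    rw [AlgHom.toLinearMap_apply, Basis.tensorProduct_apply', Basis.tensorProduct_apply',
      tripleAlg_tmul, pairAlg_tmul]

variable [AddCommGroup M]

/-- The comultiplication, from the addition formulas. -/
private lemma exists_comul {ι : Type} [Fintype ι] (b : Basis ι R S)
    (hinj : Function.Injective (pairAlg S))
    (hadd : ∀ f ∈ S, ∃ c : ι → ι → R, ∀ x y : M,
      f (x + y) = ∑ i, ∑ j, c i j • ((b i : M → K) x * (b j : M → K) y)) :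
    ∃ Δ : ↥S →ₐ[R] ↥S ⊗[R] ↥S,
      ∀ (h : S) (p : M × M), pairAlg S (Δ h) p = (h : M → K) (p.1 + p.2) := by
  have hex : ∀ h : S, ∃ t, pairAlg S t = fun p => (h : M → K) (p.1 + p.2) := fun h => by
    obtain ⟨c, hc⟩ := hadd _ h.2
    refine ⟨∑ i, ∑ j, c i j • (b i ⊗ₜ[R] b j), funext fun p => ?_⟩
    rw [hc, map_sum, Finset.sum_apply]
    refine Finset.sum_congr rfl fun i _ => ?_
    rw [map_sum, Finset.sum_apply]
    exact Finset.sum_congr rfl fun j _ => by rw [map_smul, Pi.smul_apply, pairAlg_tmul]
  choose μ hμ using hex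
  exact ⟨
    { toFun := μ
      map_one' := hinj (by rw [hμ, map_one]; rfl)
      map_mul' := fun x y => hinj (by rw [hμ, map_mul, hμ, hμ]; rfl)
      map_zero' := hinj (by rw [hμ, map_zero]; rfl)
      map_add' := fun x y => hinj (by rw [hμ, map_add, hμ, hμ]; rfl)
      commutes' := fun r => hinj (by rw [hμ, AlgHom.commutes]; rfl) },
    fun h p => congrFun (hμ h) p⟩

/-- The counit is evaluation at zero. -/
private lemma exists_counit (hRK : Function.Injective (algebraMap R K))
    (hzero : ∀ f ∈ S, ∃ r : R, algebraMap R K r = f 0) :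
    ∃ ε : ↥S →ₐ[R] R, ∀ h : S, algebraMap R K (ε h) = (h : M → K) 0 := by
  choose ε0 hε0 using fun h : S => hzero _ h.2
  exact ⟨
    { toFun := ε0
      map_one' := hRK (by rw [hε0, map_one]; rfl)
      map_mul' := fun x y => hRK (by rw [hε0, map_mul, hε0, hε0]; rfl)
      map_zero' := hRK (by rw [hε0, map_zero]; rfl)
      map_add' := fun x y => hRK (by rw [hε0, map_add, hε0, hε0]; rfl)
      commutes' := fun r => hRK (by rw [hε0]; rfl) }, hε0⟩

/-- The two iterated comultiplications in coordinates. -/
private lemma tripleAlg_map_comul {Δ : ↥S →ₐ[R] ↥S ⊗[R] ↥S}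
    (hΔ : ∀ (h : S) (p : M × M), pairAlg S (Δ h) p = (h : M → K) (p.1 + p.2))
    (t : ↥S ⊗[R] ↥S) (x y z : M) :
    tripleAlg S (TensorProduct.assoc R S S S
        (Algebra.TensorProduct.map Δ (AlgHom.id R S) t)) (x, y, z) = pairAlg S t (x + y, z) ∧
    tripleAlg S (Algebra.TensorProduct.map (AlgHom.id R S) Δ t) (x, y, z) =
      pairAlg S t (x, y + z) := by
  have hassoc : ∀ (t : ↥S ⊗[R] ↥S) (f : S), tripleAlg S (TensorProduct.assoc R S S S (t ⊗ₜ f))
      (x, y, z) = pairAlg S t (x, y) * (f : M → K) z := by
    intro t f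
    induction t using TensorProduct.induction_on with
    | zero => simp
    | tmul g g' =>
      rw [TensorProduct.assoc_tmul, tripleAlg_tmul, pairAlg_tmul, pairAlg_tmul, mul_assoc]
    | add t t' h h' => rw [add_tmul, map_add, map_add, map_add, Pi.add_apply, h, h', Pi.add_apply,
        add_mul]
  induction t using TensorProduct.induction_on with
  | zero => simp
  | tmul g g' =>
    rw [Algebra.TensorProduct.map_tmul, Algebra.TensorProduct.map_tmul, AlgHom.id_apply,
      AlgHom.id_apply, hassoc, tripleAlg_tmul, hΔ, hΔ, pairAlg_tmul, pairAlg_tmul]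
    exact ⟨rfl, rfl⟩
  | add t t' h h' => simp only [map_add, Pi.add_apply, h.1, h'.1, h.2, h'.2, and_self]

/-- The counit on either factor, in coordinates. -/
private lemma lid_rid_map_counit {ε : ↥S →ₐ[R] R}
    (hε : ∀ h : S, algebraMap R K (ε h) = (h : M → K) 0) (t : ↥S ⊗[R] ↥S) (x : M) :
    ((TensorProduct.lid R S (Algebra.TensorProduct.map ε (AlgHom.id R S) t) : S) : M → K) x =
        pairAlg S t (0, x) ∧
    ((TensorProduct.rid R S (Algebra.TensorProduct.map (AlgHom.id R S) ε t) : S) : M → K) x =
        pairAlg S t (x, 0) := by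
  induction t using TensorProduct.induction_on with
  | zero => simp
  | tmul g g' =>
    rw [Algebra.TensorProduct.map_tmul, Algebra.TensorProduct.map_tmul, AlgHom.id_apply,
      AlgHom.id_apply, TensorProduct.lid_tmul, TensorProduct.rid_tmul, pairAlg_tmul, pairAlg_tmul,
      ← hε, ← hε, mul_comm ((g : M → K) x)]
    exact ⟨Algebra.smul_def _ _, Algebra.smul_def _ _⟩
  | add t t' h h' =>
    simp only [map_add, Pi.add_apply, AddMemClass.coe_add, h.1, h'.1, h.2, h'.2, and_self]

/-- The inverse on either factor, in coordinates. -/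
private lemma mul_map_neg {α : ↥S →ₗ[R] ↥S}
    (hα : ∀ (h : S) (x : M), (α h : M → K) x = (h : M → K) (-x)) (t : ↥S ⊗[R] ↥S) (x : M) :
    ((LinearMap.mul' R S (α.rTensor S t) : S) : M → K) x = pairAlg S t (-x, x) ∧
    ((LinearMap.mul' R S (α.lTensor S t) : S) : M → K) x = pairAlg S t (x, -x) := by
  induction t using TensorProduct.induction_on with
  | zero => simp
  | tmul g g' =>
    rw [LinearMap.rTensor_tmul, LinearMap.lTensor_tmul, LinearMap.mul'_apply,
      LinearMap.mul'_apply, pairAlg_tmul, pairAlg_tmul, MulMemClass.coe_mul, MulMemClass.coe_mul,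
      Pi.mul_apply, Pi.mul_apply, hα, hα]
    exact ⟨rfl, rfl⟩
  | add t t' h h' =>
    simp only [map_add, Pi.add_apply, AddMemClass.coe_add, h.1, h'.1, h.2, h'.2, and_self]

omit [AddCommGroup M] in
/-- Exchanging the factors exchanges the variables. -/
private lemma pairAlg_comm (t : ↥S ⊗[R] ↥S) (x y : M) :
    pairAlg S (TensorProduct.comm R S S t) (x, y) = pairAlg S t (y, x) := by
  induction t using TensorProduct.induction_on with
  | zero => simp
  | tmul g g' => rw [TensorProduct.comm_tmul, pairAlg_tmul, pairAlg_tmul, mul_comm]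
  | add t t' h h' =>
    rw [LinearEquiv.map_add, map_add (pairAlg S), map_add (pairAlg S), Pi.add_apply, Pi.add_apply,
      h, h']

omit [AddCommGroup M] in
/-- Evaluations at two points multiply to the evaluation at the pair. -/
private lemma lift_eval (x y : M) (t : ↥S ⊗[R] ↥S) :
    Algebra.TensorProduct.lift ((Pi.evalAlgHom R (fun _ : M => K) x).comp S.val)
      ((Pi.evalAlgHom R (fun _ : M => K) y).comp S.val) (fun _ _ => Commute.all _ _) t =
      pairAlg S t (x, y) := by
  induction t using TensorProduct.induction_on with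
  | zero => simp
  | tmul g g' => rw [Algebra.TensorProduct.lift_tmul, pairAlg_tmul]; rfl
  | add t t' h h' => rw [map_add, map_add, Pi.add_apply, h, h']

end Order

/-- An order of functions stable under the group law is a Hopf algebra with those points. -/
theorem exists_hopf_aux {R K M ι : Type} [CommRing R] [Field K] [Algebra R K]
    (hRK : Function.Injective (algebraMap R K)) [AddCommGroup M] [Finite M] [Fintype ι]
    (S : Subalgebra R (M → K)) (b : Basis ι R S)
    (hli : LinearIndependent K (fun i => (b i : M → K))) (hcard : Fintype.card ι = Nat.card M)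
    (hadd : ∀ f ∈ S, ∃ c : ι → ι → R, ∀ x y : M,
      f (x + y) = ∑ i, ∑ j, c i j • ((b i : M → K) x * (b j : M → K) y))
    (hneg : ∀ f ∈ S, (fun x => f (-x)) ∈ S)
    (hzero : ∀ f ∈ S, ∃ r : R, algebraMap R K r = f 0) :
    ∃ (H : Type) (_ : CommRing H) (_ : HopfAlgebra R H), Module.Finite R H ∧ Module.Flat R H ∧
      Coalgebra.IsCocomm R H ∧
      ∃ (ev : H → S) (e : WithConv (H →ₐ[R] K) ≃ M), (∀ f g, e (f * g) = e f + e g) ∧
        ∀ (f : WithConv (H →ₐ[R] K)) (h : H), f.ofConv h = (ev h : M → K) (e f) := by
  classical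
  obtain ⟨h2inj, h3inj⟩ := pairAlg_injective hRK b hli
  obtain ⟨Δ, hΔ⟩ := exists_comul b h2inj hadd
  obtain ⟨ε, hε⟩ := exists_counit hRK hzero
  let B : Bialgebra R S := Bialgebra.ofAlgHom Δ ε
    (AlgHom.ext fun h => h3inj (funext fun ⟨x, y, z⟩ => by
      show tripleAlg S (TensorProduct.assoc R S S S
          (Algebra.TensorProduct.map Δ (AlgHom.id R S) (Δ h))) (x, y, z) =
        tripleAlg S (Algebra.TensorProduct.map (AlgHom.id R S) Δ (Δ h)) (x, y, z)
      rw [(tripleAlg_map_comul hΔ _ x y z).1, (tripleAlg_map_comul hΔ _ x y z).2, hΔ, hΔ,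
        add_assoc]))
    (AlgHom.ext fun h => (TensorProduct.lid R S).injective (Subtype.ext (funext fun x => by
      show ((TensorProduct.lid R S (Algebra.TensorProduct.map ε (AlgHom.id R S) (Δ h)) : S) :
        M → K) x = ((TensorProduct.lid R S ((1 : R) ⊗ₜ h) : S) : M → K) x
      rw [(lid_rid_map_counit hε _ x).1, hΔ, zero_add, TensorProduct.lid_tmul, one_smul])))
    (AlgHom.ext fun h => (TensorProduct.rid R S).injective (Subtype.ext (funext fun x => by
      show ((TensorProduct.rid R S (Algebra.TensorProduct.map (AlgHom.id R S) ε (Δ h)) : S) :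
        M → K) x = ((TensorProduct.rid R S (h ⊗ₜ (1 : R)) : S) : M → K) x
      rw [(lid_rid_map_counit hε _ x).2, hΔ, add_zero, TensorProduct.rid_tmul, one_smul])))
  let αl : ↥S →ₗ[R] ↥S :=
    { toFun := fun h => ⟨fun x => (h : M → K) (-x), hneg _ h.2⟩
      map_add' := fun _ _ => rfl
      map_smul' := fun _ _ => rfl }
  let Hs : HopfAlgebra R S :=
    { B with
      antipode := αl
      mul_antipode_rTensor_comul := LinearMap.ext fun h => Subtype.ext (funext fun x => by
        show ((LinearMap.mul' R S (αl.rTensor S (Δ h)) : S) : M → K) x = algebraMap R K (ε h)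
        rw [(mul_map_neg (α := αl) (fun _ _ => rfl) _ x).1, hΔ, neg_add_cancel, hε])
      mul_antipode_lTensor_comul := LinearMap.ext fun h => Subtype.ext (funext fun x => by
        show ((LinearMap.mul' R S (αl.lTensor S (Δ h)) : S) : M → K) x = algebraMap R K (ε h)
        rw [(mul_map_neg (α := αl) (fun _ _ => rfl) _ x).2, hΔ, add_neg_cancel, hε]) }
  have : Module.Free R S := Module.Free.of_basis b
  refine ⟨↥S, inferInstance, Hs, Module.Finite.of_basis b, inferInstance,
    ⟨LinearMap.ext fun h => h2inj (funext fun ⟨x, y⟩ => ?_)⟩, ?_⟩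
  · show pairAlg S (TensorProduct.comm R S S (Δ h)) (x, y) = pairAlg S (Δ h) (x, y)
    rw [pairAlg_comm, hΔ, hΔ, add_comm]
  -- points
  let pt : M → WithConv (↥S →ₐ[R] K) := fun x =>
    WithConv.toConv ((Pi.evalAlgHom R (fun _ : M => K) x).comp S.val)
  have hpt : ∀ x (h : S), (pt x).ofConv h = (h : M → K) x := fun x h => rfl
  let e := Equiv.ofBijective pt (bijective_eval S b hli hcard)
  have hmulpt : ∀ x y, pt x * pt y = pt (x + y) := fun x y =>
    WithConv.ofConv_injective (AlgHom.ext fun h => by
      rw [AlgHom.convMul_apply, hpt, ← hΔ h (x, y)]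
      exact lift_eval x y (Δ h))
  refine ⟨id, e.symm, fun f g => ?_, fun f h => ?_⟩
  · apply e.injective
    rw [e.apply_symm_apply]
    conv_lhs => rw [← e.apply_symm_apply f, ← e.apply_symm_apply g]
    exact hmulpt _ _
  · conv_lhs => rw [← e.apply_symm_apply f]
    rfl

end FermatAgent.Flat
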