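import Fermat.Agent.Flat.Frame
import Fermat.Agent.Flat.Hopf

/-!
# The group law is polynomial in the coordinates

For a frame (`Frame`) of a finite group `M` of divisor classes, the coordinates of `-(x + y)` and of
`x + y` lie in the algebra `pairAlg` generated by the coordinates of `x` and of `y` (`neg_add_mem`,
`add_mem`). The method is a chord construction on Riemann–Roch spaces in charts: the functions
cutting out the third point have coefficients in `pairAlg` (`exists_cutting`), and the coordinates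
of that point are obtained from a colon of two families of spaces.
-/

set_option autoImplicit false

noncomputable section

open AlgebraicCurve Module FermatAgent.Curve

namespace FermatAgent.Flat

variable {K : Type*} [Field K] {A : ValuationSubring K} {k : Type*} [Field k] {ρ : A →+* k}
  {F Fb : Type*} [Field F] [Algebra K F] [Field Fb] [Algebra k Fb] [IsFF K F] [IsFF k Fb]
  [IsAlgClosed K] [IsAlgClosed k] {S : ConstRed A ρ F Fb} {Θ : Coef S}
  {X : Type*} [Finite X] {H : Subalgebra A (X → K)}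

omit [IsAlgClosed K] [IsAlgClosed k] in
/-- A surjective reduction has a set-theoretic section sending `0` to `0`. -/
theorem exists_section (hs : Function.Surjective ρ) :
    ∃ τ : k → A, (∀ a, ρ (τ a) = a) ∧ τ 0 = 0 := by
  classical
  choose τ hτ using hs
  refine ⟨fun a => if a = 0 then 0 else τ a, fun a => ?_, if_pos rfl⟩
  simp only
  split_ifs with h
  · rw [h, map_zero]
  · exact hτ a

/-- Products of generators generate. -/
theorem hasGens_add {c : ℤ} (hc : IsThreshold k Fb c) {G G' : X → Divisor K F}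
    (hdeg : ∀ x, c + 1 ≤ Divisor.degree (G x))
    (hdiff : ∀ x, c ≤ Divisor.degree (G' x) - Divisor.degree (G x))
    (hG : HasGens Θ H G) (hG' : HasGens Θ H G') : HasGens Θ H fun x => G x + G' x := by
  obtain ⟨hl, n, u, hu, huH, hus⟩ := hG
  obtain ⟨hl', n', u', hu', huH', hus'⟩ := hG'
  refine ⟨fun x => (hl x).add (hl' x), n * n',
    fun l x => u (finProdFinEquiv.symm l).1 x * u' (finProdFinEquiv.symm l).2 x,
    fun l x => ?_, fun l => ?_, fun x => ?_⟩
  · rw [MulMemClass.coe_mul]
    exact mul_mem_riemannRochSpace (hu _ x) (hu' _ x)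
  · simp only [MulMemClass.coe_mul]
    exact (huH _).mul Θ H (huH' _)
  · rw [Finsupp.mapDomain_add]
    refine (span_mul_eq hc ?_ ?_).trans ?_
    · rw [S.degree_mapDomain]; exact hdeg x
    · rw [S.degree_mapDomain, S.degree_mapDomain]; exact hdiff x
    rw [Submodule.span_le]
    rintro _ ⟨a, ha, b, hb, rfl⟩
    have h := Submodule.mul_mem_mul (hus x ha) (hus' x hb)
    rw [Submodule.span_mul_span] at h
    refine Submodule.span_mono ?_ h
    rintro _ ⟨_, ⟨i, rfl⟩, _, ⟨j, rfl⟩, rfl⟩
    exact ⟨finProdFinEquiv (i, j), by simp⟩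

omit [IsAlgClosed K] [IsAlgClosed k] in
/-- Multiples of a fixed space by a family of functions. -/
theorem hasGens_mul_const {u : X → S.O} (hu : IsHS Θ H fun x => (u x : F))
    (hne : ∀ x, S.red (u x) ≠ 0) {G : Divisor K F} (hGlow : Θ.Low G)
    (hlow : ∀ x, Θ.Low (G - divisorOf (u x : F)))
    (hG : rrDim (Finsupp.mapDomain S.r G) = rrDim G) :
    HasGens Θ H fun x => G - divisorOf (u x : F) := by
  obtain ⟨-, n, b, hb, hbH, hbs⟩ := hasGens_const Θ (H := H) hGlow hG
  refine ⟨hlow, n, fun l x => u x * b l x, fun l x => ?_, fun l => ?_, fun x z hz => ?_⟩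
  · simp only [MulMemClass.coe_mul, sub_eq_neg_add]
    refine mul_mem_riemannRochSpace ?_ (hb l x)
    rw [mem_riemannRochSpace]
    exact fun v => Or.inr (by simp)
  · simp only [MulMemClass.coe_mul]
    exact hu.mul Θ H (hbH l)
  · rcases eq_or_ne z 0 with rfl | hz0
    · exact zero_mem _
    rw [Finsupp.mapDomain_sub, S.mapDomain_r _ (hne x),
      mem_riemannRochSpace_iff_ne_zero hz0] at hz
    have hw : z / S.red (u x) ∈ riemannRochSpace (Finsupp.mapDomain S.r G) := by
      rw [mem_riemannRochSpace_iff_ne_zero (div_ne_zero hz0 (hne x))]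
      intro v
      have := hz v
      rw [ord_div hz0 (hne x)]
      simp only [Finsupp.sub_apply, divisorOf_apply] at this
      omega
    rw [← mul_div_cancel₀ z (hne x)]
    refine Submodule.span_induction ?_ ?_ ?_ ?_ (hbs x hw)
    · rintro _ ⟨l, rfl⟩; exact Submodule.subset_span ⟨l, map_mul _ _ _⟩
    · rw [mul_zero]; exact zero_mem _
    · intro a c _ _ ha hc; rw [mul_add]; exact add_mem ha hc
    · intro a c _ hc; rw [mul_smul_comm]; exact Submodule.smul_mem _ _ hc

namespace Frame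

variable {M : Type*} [AddCommGroup M] [Finite M] (P : Frame Θ M)

/-- The algebra of the coordinates of a pair. -/
def pairAlg : Subalgebra A (M × M → K) :=
  Algebra.adjoin A (pullAlg A K Prod.fst '' P.coords ∪ pullAlg A K Prod.snd '' P.coords)

section

omit [Finite M]

theorem pairAlg_integral {f : M × M → K} (hf : f ∈ P.pairAlg) (p : M × M) : f p ∈ A := by
  induction hf using Algebra.adjoin_induction with
  | mem φ hφ =>
    rcases hφ with ⟨a, ha, rfl⟩ | ⟨a, ha, rfl⟩ <;> exact coords_integral ha _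
  | algebraMap a => exact a.2
  | add f g _ _ hf hg => exact add_mem hf hg
  | mul f g _ _ hf hg => exact mul_mem hf hg

theorem hasGens_fst (m : Fin 2) : HasGens Θ P.pairAlg fun p => P.fam m p.1 :=
  ⟨fun p => low_fam m p.1, _, fun i p => P.nb m i p.1, fun i p => nb_mem m i p.1,
    fun i e => Algebra.subset_adjoin (Or.inl ⟨_, ⟨m, i, e, rfl⟩, rfl⟩), fun p z hz => by
      rw [red_eq_sum_normalised Θ (low_fam m p.1) (P.bij_fam m p.1) (fun i => nb_mem m i p.1)
        (fun i j => nb_delta m i j p.1) hz]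
      exact Submodule.sum_mem _ fun i _ => Submodule.smul_mem _ _ (Submodule.subset_span ⟨i, rfl⟩)⟩

theorem hasGens_snd (m : Fin 2) : HasGens Θ P.pairAlg fun p => P.fam m p.2 :=
  ⟨fun p => low_fam m p.2, _, fun i p => P.nb m i p.2, fun i p => nb_mem m i p.2,
    fun i e => Algebra.subset_adjoin (Or.inr ⟨_, ⟨m, i, e, rfl⟩, rfl⟩), fun p z hz => by
      rw [red_eq_sum_normalised Θ (low_fam m p.2) (P.bij_fam m p.2) (fun i => nb_mem m i p.2)
        (fun i j => nb_delta m i j p.2) hz]
      exact Submodule.sum_mem _ fun i _ => Submodule.smul_mem _ _ (Submodule.subset_span ⟨i, rfl⟩)⟩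

omit [IsAlgClosed K] [IsAlgClosed k] in
/-- The three divisors of `x`, `y`, `-(x + y)` sum to three times the origin, up to linear
equivalence. -/
theorem isPrincipal_triple (x y : M) :
    Divisor.IsPrincipal (P.pt x + P.pt y + P.pt (-(x + y)) - 3 • P.O) := by
  obtain ⟨-, hx, ex⟩ := P.isPt_pt x
  obtain ⟨-, hy, ey⟩ := P.isPt_pt y
  obtain ⟨-, hz, ez⟩ := P.isPt_pt (-(x + y))
  have e : Pic0.mk (⟨P.pt x - P.O, hx⟩ + ⟨P.pt y - P.O, hy⟩ + ⟨P.pt (-(x + y)) - P.O, hz⟩ :
      Divisor.degZero (K := K) (F := F)) = Pic0.mk 0 := by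
    rw [Pic0.mk_add, Pic0.mk_add, ex, ey, ez, Pic0.mk_zero, ← map_add, ← map_add,
      add_neg_cancel, map_zero]
  have h := Jac.pic0_mk_eq_iff.1 e
  simp only [AddSubgroup.coe_add, ZeroMemClass.coe_zero, sub_zero] at h
  convert h using 1
  abel

omit [IsAlgClosed K] [IsAlgClosed k] in
theorem isPrincipal_three_sub_pt (p : M × M) :
    Divisor.IsPrincipal (3 • P.O - P.pt p.1 - P.pt p.2 - P.pt (-(p.1 + p.2))) := by
  obtain ⟨f, hf, e⟩ := isPrincipal_iff.1 (P.isPrincipal_triple p.1 p.2)
  refine isPrincipal_iff.2 ⟨f⁻¹, inv_ne_zero hf, ?_⟩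
  refine Finsupp.ext fun v => ?_
  have := DFunLike.congr_fun e v
  simp only [Finsupp.sub_apply, Finsupp.add_apply, Finsupp.smul_apply, divisorOf_apply,
    Place.ord_inv] at this ⊢
  linarith

omit [IsAlgClosed K] [IsAlgClosed k] in
theorem three_sub_pt_le (p : M × M) : 3 • P.O - P.pt p.1 - P.pt p.2 ≤ 3 • P.O := fun v => by
  have := (P.isPt_pt p.1).1 v
  have := (P.isPt_pt p.2).1 v
  simp only [Finsupp.sub_apply, Finsupp.zero_apply] at *
  linarith

omit [IsAlgClosed K] [IsAlgClosed k] in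
/-- The function space cutting out the three divisors is one-dimensional. -/
theorem exact_three_sub_pt (p : M × M) :
    Exact Θ (3 • P.O - P.pt p.1 - P.pt p.2) 1 := by
  obtain ⟨-, hz, ez⟩ := P.isPt_pt (-(p.1 + p.2))
  have h1 := P.exactO _ ⟨_, hz⟩ ez
  have h2 := rrDim_add_O (P := P) (D := ⟨_, hz⟩) ez
  simp only [sub_add_cancel] at h1 h2
  refine ⟨(rrDim_eq_of_isPrincipal (P.isPrincipal_three_sub_pt p)).trans h2, ?_,
    (P.lowO.nsmul 3).mono (P.three_sub_pt_le p)⟩
  rw [rrDim_eq_of_isPrincipal (D := Finsupp.mapDomain S.r (3 • P.O - P.pt p.1 - P.pt p.2))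
    (E := Finsupp.mapDomain S.r (P.pt (-(p.1 + p.2)))) ?_, h1]
  rw [← Finsupp.mapDomain_sub]
  exact isPrincipal_mapDomain S (P.isPrincipal_three_sub_pt p)

omit [IsAlgClosed K] [IsAlgClosed k] in
/-- A function of that space has the expected divisor. -/
theorem divisorOf_eq_pt_sub (p : M × M) {u : F} (hu0 : u ≠ 0)
    (hu : u ∈ riemannRochSpace (3 • P.O - P.pt p.1 - P.pt p.2)) :
    divisorOf u = P.pt (-(p.1 + p.2)) - (3 • P.O - P.pt p.1 - P.pt p.2) := by
  rw [eq_sub_iff_add_eq]
  refine IsPt.unique (P := P) (x := -(p.1 + p.2)) ⟨fun v => ?_, ?_, ?_⟩ (P.isPt_pt _)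
  · have := (mem_riemannRochSpace_iff_ne_zero hu0).1 hu v
    simp only [Finsupp.add_apply, Finsupp.zero_apply, divisorOf_apply] at this ⊢
    linarith
  · simp only [map_sub, map_add, degree_divisorOf, map_nsmul, (P.isPt_pt _).degree, P.degO,
      nsmul_eq_mul]
    push_cast
    ring
  · obtain ⟨-, hz, ez⟩ := P.isPt_pt (-(p.1 + p.2))
    rw [← ez, Jac.pic0_mk_eq_iff]
    obtain ⟨f, hf, e⟩ := isPrincipal_iff.1 (P.isPrincipal_three_sub_pt p)
    refine isPrincipal_iff.2 ⟨u * f, mul_ne_zero hu0 hf, ?_⟩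
    rw [divisorOf_mul hu0 hf, ← e]
    show divisorOf u + (3 • P.O - P.pt p.1 - P.pt p.2) - P.O -
      (P.pt (-(p.1 + p.2)) - P.O) = _
    abel

omit [IsAlgClosed K] [IsAlgClosed k] in
theorem fam_zero_add_fam_one (p : M × M) :
    P.fam 0 p.1 + P.fam 1 p.2 = 3 • P.D - P.pt p.1 - P.pt p.2 := by
  simp only [fam, Fin.val_zero, Fin.val_one, zero_add, one_smul,
    show (1 + 1 : ℕ) = 2 from rfl]
  abel

omit [IsAlgClosed K] [IsAlgClosed k] in
theorem degree_fam_zero_add_fam_one (p : M × M) :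
    Divisor.degree (P.fam 0 p.1 + P.fam 1 p.2) =
      3 * Divisor.degree P.D - 2 * rGenus K F := by
  rw [P.fam_zero_add_fam_one, map_sub, map_sub, map_nsmul, (P.isPt_pt _).degree,
    (P.isPt_pt _).degree, nsmul_eq_mul]
  push_cast
  ring

omit [IsAlgClosed K] [IsAlgClosed k] in
theorem c_add_le_degree : P.c + 1 + 3 * rGenus K F ≤ Divisor.degree P.D := by
  have := P.degD; rwa [abs_of_nonneg P.genus_nonneg] at this

theorem exact_fam_zero_add_fam_one (p : M × M) : Exact Θ (P.fam 0 p.1 + P.fam 1 p.2)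
    (bigDim (3 * Divisor.degree P.D - 2 * rGenus K F) (rGenus K F)) :=
  P.exact_of_degree (P.degree_fam_zero_add_fam_one p)
    (by have := P.c_add_le_degree; have := P.thrK.1; have := P.genus_nonneg; linarith)
    ((low_fam 0 _).add (low_fam 1 _))

end

theorem hasGens_fam_zero_add_fam_one :
    HasGens Θ P.pairAlg fun p => P.fam 0 p.1 + P.fam 1 p.2 :=
  hasGens_add P.thrk (fun p => by rw [degree_fam]; exact P.bound_fam 0)
    (fun p => by
      have := P.c_add_le_degree; have := P.thrK.1; have := P.genus_nonneg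
      rw [degree_fam, degree_fam]
      simp only [Fin.val_zero, Fin.val_one, Nat.cast_zero, Nat.cast_one]
      linarith) (P.hasGens_fst 0) (P.hasGens_snd 1)

/-- The function cutting out the three divisors, polynomial in the coordinates. -/
theorem exists_cutting : ∃ u : M × M → S.O, IsHS Θ P.pairAlg (fun p => (u p : F)) ∧
    (∀ p, S.red (u p) ≠ 0) ∧ ∀ p : M × M,
      divisorOf (u p : F) = P.pt (-(p.1 + p.2)) - (3 • P.O - P.pt p.1 - P.pt p.2) := by
  obtain ⟨τ, hτ, hτ0⟩ := exists_section (ρ := ρ) S.surj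
  have hint := fun f (hf : f ∈ P.pairAlg) p => P.pairAlg_integral hf p
  have hd := P.c_add_le_degree
  have hg := P.genus_nonneg
  have hc := P.thrK.1
  set V1 : M × M → Divisor K F := fun p => P.fam 0 p.1 + P.fam 1 p.2
  set W0 : M × M → Divisor K F := fun p => 3 • P.O - P.pt p.1 - P.pt p.2
  obtain ⟨C1, hC1, -⟩ := exists_funl Θ V1 P.exact_fam_zero_add_fam_one τ hτ hτ0
  obtain ⟨sV1, hsV1⟩ := exists_chart_of_gens Θ hint P.hasGens_fam_zero_add_fam_one
    P.exact_fam_zero_add_fam_one hC1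
  obtain ⟨C0, hC0, -⟩ := exists_funl Θ W0 P.exact_three_sub_pt τ hτ hτ0
  set U0 : Divisor K F := 3 • P.D - 3 • P.O with hU0
  have hU0deg : Divisor.degree U0 = 3 * Divisor.degree P.D - 3 * rGenus K F := by
    rw [hU0, map_sub, map_nsmul, map_nsmul, P.degO, nsmul_eq_mul, nsmul_eq_mul]
    push_cast
    ring
  have hWV0 : ∀ p, V1 p = W0 p + U0 := fun p => by
    simp only [V1, W0, P.fam_zero_add_fam_one, hU0]; abel
  obtain ⟨su, hsu⟩ := exists_chart_colon Θ hint (D := 3 • P.O) (W := W0) (U := fun _ => U0)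
    (V := V1) (P.lowO.nsmul 3) (fun p => riemannRochSpace_le_of_le (P.three_sub_pt_le p))
    P.exact_three_sub_pt hC0
    (hasGens_const Θ P.lowU (by
      obtain ⟨h1, h2, -⟩ := P.exact_of_degree hU0deg (by linarith) P.lowU
      rw [h1, h2])) hsV1
    (fun p f hf g' hg' => by
      rw [hWV0]; exact mul_mem_riemannRochSpace hf hg')
    (fun p z _ hzall => mem_of_mul_mem_all P.thrk (G := Finsupp.mapDomain S.r U0)
      (V := Finsupp.mapDomain S.r (V1 p))
      (by rw [S.degree_mapDomain, hU0deg]; linarith)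
      (by rw [hWV0, Finsupp.mapDomain_add]) hzall)
  have hune : ∀ p, S.red (su 0 p) ≠ 0 := fun p h => by
    have hreg := (P.exact_three_sub_pt p).2.2.reg (hsu.mem 0 p)
    have h1 := C0.rho_appA Θ 0 hreg
    change ρ (C0.appA Θ 0 (su 0 p)) = C0.appb Θ 0 (S.red (su 0 p)) at h1
    rw [h, map_zero, show C0.appA Θ 0 (su 0 p) = 1 from Subtype.ext (by
      rw [C0.coe_appA Θ 0 hreg, hsu.delta 0 0 p, if_pos rfl]; rfl), map_one] at h1
    exact one_ne_zero h1
  exact ⟨su 0, hsu.isHS 0, hune, fun p => P.divisorOf_eq_pt_sub p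
    (fun h => hune p (by rw [show su 0 p = 0 from Subtype.ext h, map_zero])) (hsu.mem 0 p)⟩

theorem neg_add_mem {φ : M → K} (hφ : φ ∈ P.coords) :
    (fun p : M × M => φ (-(p.1 + p.2))) ∈ P.pairAlg := by
  obtain ⟨τ, hτ, hτ0⟩ := exists_section (ρ := ρ) S.surj
  have hint := fun f (hf : f ∈ P.pairAlg) p => P.pairAlg_integral hf p
  set d := Divisor.degree P.D
  set g := rGenus K F
  obtain ⟨m, i₀, e₀, rfl⟩ := hφ
  have hg0 : 0 ≤ g := P.genus_nonneg
  have hd : P.c + 1 + 3 * g ≤ d := P.c_add_le_degree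
  have hc0 : 0 ≤ P.c := P.thrK.1
  set V1 : M × M → Divisor K F := fun p => P.fam 0 p.1 + P.fam 1 p.2 with hV1def
  obtain ⟨u, huHS, hune, hdivu⟩ := P.exists_cutting
  -- the colon
  set G0 : Divisor K F := ((m : ℕ) + 1) • P.D + 3 • P.D - 3 • P.O with hG0
  set V2 : M × M → Divisor K F := fun p => P.fam m (-(p.1 + p.2)) + V1 p with hV2def
  have hV2' : ∀ p, V2 p = G0 - divisorOf (u p : F) := fun p => by
    simp only [hV2def, hV1def, P.fam_zero_add_fam_one, hdivu]
    simp only [fam, hG0]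
    abel
  have hm0 : (0 : ℤ) ≤ (m : ℕ) * d := mul_nonneg (Int.natCast_nonneg _) (by linarith)
  have hG0deg : Divisor.degree G0 = ((m : ℕ) + 4) * d - 3 * g := by
    rw [hG0, map_sub, map_add, map_nsmul, map_nsmul, map_nsmul, P.degO]
    simp only [nsmul_eq_mul]
    push_cast
    ring
  have hV2low : ∀ p, Θ.Low (V2 p) := fun p =>
    (low_fam m _).add (P.exact_fam_zero_add_fam_one p).2.2
  have hG0low : Θ.Low G0 := by
    rw [hG0, add_sub_assoc]
    exact (P.lowD.nsmul _).add P.lowU
  have hV2gens : HasGens Θ P.pairAlg V2 := by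
    rw [funext hV2']
    refine hasGens_mul_const huHS hune hG0low (fun p => hV2' p ▸ hV2low p) ?_
    obtain ⟨h1, h2, -⟩ := P.exact_of_degree hG0deg (by linarith) hG0low
    rw [h1, h2]
  have hV2ex : ∀ p, Exact Θ (V2 p) _ := fun p => P.exact_of_degree
    (show Divisor.degree (V2 p) = ((m : ℕ) + 4) * d - 3 * g by
      rw [hV2', map_sub, degree_divisorOf, sub_zero, hG0deg]) (by linarith) (hV2low p)
  obtain ⟨C2, hC2, -⟩ := exists_funl Θ V2 hV2ex τ hτ hτ0
  obtain ⟨sV2, hsV2⟩ := exists_chart_of_gens Θ hint hV2gens hV2ex hC2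
  obtain ⟨s, hs⟩ := exists_chart_colon Θ hint (D := ((m : ℕ) + 1) • P.D) (C := P.C m)
    (W := fun p => P.fam m (-(p.1 + p.2))) (U := V1) (V := V2) (P.lowD.nsmul _)
    (fun p => riemannRochSpace_le_of_le fun v => by
      have h1 := (P.isPt_pt (-(p.1 + p.2))).1 v
      simp only [fam, Finsupp.sub_apply, Finsupp.zero_apply] at *
      linarith) (fun p => P.exact_fam m _) (fun p => P.bij_fam m _)
    P.hasGens_fam_zero_add_fam_one hsV2
    (fun p f hf g' hg' => mul_mem_riemannRochSpace hf hg')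
    (fun p z _ hzall => mem_of_mul_mem_all P.thrk (G := Finsupp.mapDomain S.r (V1 p))
      (V := Finsupp.mapDomain S.r (V2 p))
      (by rw [S.degree_mapDomain, P.degree_fam_zero_add_fam_one]; linarith)
      (by simp only [hV2def, Finsupp.mapDomain_add, le_refl]) hzall)
  have hfinal := hs.isHS i₀ e₀
  have e : (fun p : M × M => Θ.cf e₀ (P.nb m i₀ (-(p.1 + p.2)) : F)) =
      fun p => Θ.cf e₀ (s i₀ p : F) := funext fun p => by
    rw [nb_unique (P := P) m i₀ _ (hs.mem i₀ p) fun j => hs.delta i₀ j p]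
  rw [← e] at hfinal
  exact hfinal

/-- The sum is polynomial in the coordinates. -/
theorem add_mem {φ : M → K} (hφ : φ ∈ P.coords) :
    (fun p : M × M => φ (p.1 + p.2)) ∈ Algebra.adjoin A
      (pullAlg A K Prod.fst '' P.coords ∪ pullAlg A K Prod.snd '' P.coords) := by
  set R := Algebra.adjoin A P.coords
  have hneg : (fun x => φ (-x)) ∈ R := by
    have h1 := P.neg_add_mem hφ
    have h2 : pullAlg A K (fun x : M => (x, (0 : M))) (fun p : M × M => φ (-(p.1 + p.2))) ∈
        (Algebra.adjoin A (pullAlg A K Prod.fst '' P.coords ∪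
          pullAlg A K Prod.snd '' P.coords)).map (pullAlg A K (fun x : M => (x, (0 : M)))) :=
      ⟨_, h1, rfl⟩
    rw [AlgHom.map_adjoin] at h2
    rw [show pullAlg A K (fun x : M => (x, (0 : M))) (fun p : M × M => φ (-(p.1 + p.2))) =
      fun x => φ (-x) from funext fun x => by simp only [pullAlg_apply, add_zero]] at h2
    refine Algebra.adjoin_le ?_ h2
    rintro _ ⟨_, ⟨a, ha, rfl⟩ | ⟨a, ha, rfl⟩, rfl⟩
    · exact Algebra.subset_adjoin ha
    · exact Subalgebra.algebraMap_mem R (⟨a 0, coords_integral ha 0⟩ : A)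
  have key : ∀ f ∈ R, pullAlg A K (fun p : M × M => -(p.1 + p.2)) f ∈ P.pairAlg := by
    intro f hf
    induction hf using Algebra.adjoin_induction with
    | mem a ha => exact P.neg_add_mem ha
    | algebraMap a => rw [AlgHom.commutes]; exact Subalgebra.algebraMap_mem _ a
    | add a b _ _ ha hb => rw [map_add]; exact Subalgebra.add_mem _ ha hb
    | mul a b _ _ ha hb => rw [map_mul]; exact Subalgebra.mul_mem _ ha hb
  have h := key _ hneg
  rw [show pullAlg A K (fun p : M × M => -(p.1 + p.2)) (fun x => φ (-x)) =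
    fun p : M × M => φ (p.1 + p.2) from funext fun p => by rw [pullAlg_apply, neg_neg]] at h
  exact h

end Frame

end FermatAgent.Flat
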