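import Fermat.Agent.GaloisBasic.Inertia

/-!
# An integer fixed by inertia separating the cosets of inertia
-/

set_option autoImplicit false

noncomputable section

open scoped Pointwise NumberField
open Polynomial FermatAgent.GaloisBasic

namespace FermatAgent.Flat

variable (L : IntermediateField ℚ Qbar) [FiniteDimensional ℚ L] [IsGalois ℚ L]
variable {ℓ : ℕ} {A : ValuationSubring Qbar}

omit [IsGalois ℚ ↥L] in
/-- Inertia fixes the centre of the place. -/
theorem smul_centerIn_eq_of_mem_inertia (hℓ : ℓ.Prime) (hA : A.LiesOverPrime ℓ) {τ : L ≃ₐ[ℚ] L}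
    (hτ : τ ∈ (centerIn L A).inertia (L ≃ₐ[ℚ] L)) : τ • centerIn L A = centerIn L A := by
  have : NumberField L := {}
  have : (centerIn L A).IsMaximal := (centerIn_isPrime L A).isMaximal (centerIn_ne_bot L hℓ hA)
  have : (τ • centerIn L A).IsPrime := by
    rw [Ideal.pointwise_smul_eq_comap]; exact Ideal.IsPrime.comap _
  refine ((‹(centerIn L A).IsMaximal›).eq_of_le Ideal.IsPrime.ne_top' fun c hc => ?_).symm
  rw [Ideal.mem_pointwise_smul_iff_inv_smul_mem]
  have := Ideal.add_mem _ (inv_mem hτ c) hc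
  rwa [sub_add_cancel] at this

omit [FiniteDimensional ℚ ↥L] in
/-- A decomposition element lifts to the decomposition group of the place. -/
theorem exists_mem_decomposition_restrictNormal_eq (hℓ : ℓ.Prime) (hA : A.LiesOverPrime ℓ)
    {s : L ≃ₐ[ℚ] L} (hs : s • centerIn L A = centerIn L A) :
    ∃ σ ∈ A.decompositionSubgroup ℚ, AlgEquiv.restrictNormalHom L σ = s := by
  obtain ⟨σ₀, hσ₀⟩ := AlgEquiv.restrictNormalHom_surjective (K₁ := L) Qbar s
  obtain ⟨g, hg, hgA⟩ := exists_fixing_smul_center_eq L (A := σ₀ • A) (A' := A)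
    (by rw [centerIn_smul, hσ₀, hs])
  refine ⟨g * σ₀, eq_of_center_eq hℓ (liesOverPrime_smul _ hA) ?_, ?_⟩
  · rw [center_smul, mul_smul, ← center_smul, hgA]
  · rw [map_mul, (restrictNormalHom_eq_one_iff L _).mpr hg, one_mul, hσ₀]

theorem coeff_prod_X_sub_C_const {R : Type*} [CommRing R] (ℓ : ℕ) [Fact ℓ.Prime] [CharP R ℓ]
    (u : R) (a e' : ℕ) (he' : 0 < e') :
    ((X - C u) ^ (ℓ ^ a * e') : R[X]).coeff (ℓ ^ a * e' - ℓ ^ a) = -((e' : R) * u ^ ℓ ^ a) := by
  have hpos : 0 < ℓ ^ a := pow_pos (Fact.out : ℓ.Prime).pos a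
  obtain ⟨d, rfl⟩ : ∃ d, e' = d + 1 := ⟨e' - 1, by omega⟩
  have hX : (X - C u) ^ (ℓ ^ a * (d + 1)) =
      expand R (ℓ ^ a) ((X + C (-(u ^ ℓ ^ a))) ^ (d + 1)) := by
    rw [pow_mul, sub_pow_char_pow, map_pow, map_add, expand_X, expand_C, map_neg, map_pow,
      sub_eq_add_neg]
  rw [hX, show ℓ ^ a * (d + 1) - ℓ ^ a = d * ℓ ^ a by rw [mul_add, mul_one, Nat.add_sub_cancel,
    mul_comm], coeff_expand_mul hpos, coeff_X_add_C_pow, Nat.add_sub_cancel_left, pow_one,
    Nat.choose_succ_self_right]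
  push_cast
  ring

omit [IsGalois ℚ ↥L] in
/-- An integer fixed by inertia, a unit at the place, vanishing at the conjugate places and
separating the cosets of inertia in the decomposition group. -/
theorem exists_separator (hℓ : ℓ.Prime) (hA : A.LiesOverPrime ℓ) :
    ∃ θ : 𝓞 L, (∀ τ ∈ (centerIn L A).inertia (L ≃ₐ[ℚ] L), τ • θ = θ) ∧ θ ∉ centerIn L A ∧
      (∀ s : L ≃ₐ[ℚ] L, s • centerIn L A ≠ centerIn L A → s • θ ∈ centerIn L A) ∧
      ∀ s : L ≃ₐ[ℚ] L, s • centerIn L A = centerIn L A → s • θ - θ ∈ centerIn L A →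
        s ∈ (centerIn L A).inertia (L ≃ₐ[ℚ] L) := by
  classical
  have : NumberField L := {}
  have : Fact ℓ.Prime := ⟨hℓ⟩
  set P := centerIn L A
  set G := L ≃ₐ[ℚ] L
  set I := P.inertia G
  have hPmax : P.IsMaximal := (centerIn_isPrime L A).isMaximal (centerIn_ne_bot L hℓ hA)
  let := Ideal.Quotient.field P
  have : Finite (𝓞 L ⧸ P) := Ring.HasFiniteQuotients.finiteQuotient (centerIn_ne_bot L hℓ hA)
  have : CharP (𝓞 L ⧸ P) ℓ := by
    refine (CharP.charP_iff_prime_eq_zero hℓ).mpr ?_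
    rw [← map_natCast (Ideal.Quotient.mk P), Ideal.Quotient.eq_zero_iff_mem]
    exact natCast_mem_centerIn L hA
  obtain ⟨u, hu⟩ := IsCyclic.exists_generator (α := (𝓞 L ⧸ P)ˣ)
  -- an element concentrated at `P`
  have hprime : ∀ t : G, (t • P).IsPrime := fun t => by
    rw [Ideal.pointwise_smul_eq_comap]; exact Ideal.IsPrime.comap _
  have hex : ∀ t : G, ∃ e : 𝓞 L, (t • P ≠ P → e ∈ t • P) ∧ e ∉ P := fun t => by
    by_cases ht : t • P = P
    · exact ⟨1, fun h => absurd ht h, (Ideal.ne_top_iff_one P).1 hPmax.ne_top⟩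
    · have := hprime t
      have hne : t • P ≠ ⊥ := fun h => centerIn_ne_bot L hℓ hA ((Submodule.eq_bot_iff _).2
        fun x hx => by
          have h1 : t • x ∈ t • P := Ideal.smul_mem_pointwise_smul _ _ _ hx
          rw [h, Ideal.mem_bot] at h1
          exact (smul_eq_zero_iff_eq _).1 h1)
      have hmax : (t • P).IsMaximal := (hprime t).isMaximal hne
      obtain ⟨e, he, heP⟩ := SetLike.not_le_iff_exists.1 fun h => ht (hmax.eq_of_le hPmax.ne_top h)
      exact ⟨e, fun _ => he, heP⟩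
  choose e he heP using hex
  have hprod : (∏ t, e t) ∉ P := fun h => by
    obtain ⟨t, -, ht⟩ := (hPmax.isPrime.prod_mem_iff).1 h
    exact heP t ht
  obtain ⟨c, hc⟩ := Ideal.Quotient.mk_surjective
    ((u : 𝓞 L ⧸ P) / Ideal.Quotient.mk P (∏ t, e t))
  set θ₀ := (∏ t, e t) * c
  have hθ₀ : Ideal.Quotient.mk P θ₀ = u := by
    rw [map_mul, hc, mul_div_cancel₀]
    exact fun h => hprod (Ideal.Quotient.eq_zero_iff_mem.1 h)
  have hθ₀t : ∀ t : G, t • P ≠ P → θ₀ ∈ t • P := fun t ht =>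
    Ideal.mul_mem_right _ _ (Ideal.mem_of_dvd _ (Finset.dvd_prod_of_mem e (Finset.mem_univ t))
      (he t ht))
  -- the symmetrisation over inertia
  have : Fintype I := Fintype.ofFinite _
  set p : (𝓞 L)[X] := ∏ τ : I, (X - C ((τ : G) • θ₀))
  set n := Fintype.card I
  obtain ⟨a, e', hndvd, hn⟩ := Nat.exists_eq_pow_mul_and_not_dvd
    (Fintype.card_ne_zero (α := I)) ℓ hℓ.ne_one
  have he'0 : 0 < e' := Nat.pos_of_ne_zero fun h => hndvd (h ▸ dvd_zero ℓ)
  set θ := p.coeff (ℓ ^ a * e' - ℓ ^ a) with hθ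
  have hfix : ∀ τ ∈ I, τ • θ = θ := fun τ hτ => by
    have hp : p.map (MulSemiringAction.toRingHom G (𝓞 L) τ) = p := by
      rw [Polynomial.map_prod]
      refine Fintype.prod_equiv (Equiv.mulLeft (⟨τ, hτ⟩ : I)) _ _ fun x => ?_
      rw [Polynomial.map_sub, Polynomial.map_X, Polynomial.map_C]
      show X - C (τ • ((x : G) • θ₀)) = _
      rw [← mul_smul]
      rfl
    have := congrArg (fun q => Polynomial.coeff q (ℓ ^ a * e' - ℓ ^ a)) hp
    rwa [coeff_map] at this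
  have hres : Ideal.Quotient.mk P θ = -((e' : 𝓞 L ⧸ P) * (u : 𝓞 L ⧸ P) ^ ℓ ^ a) := by
    rw [← coeff_prod_X_sub_C_const ℓ (u : 𝓞 L ⧸ P) a e' he'0, hθ, ← coeff_map, ← hn]
    congr 1
    rw [Polynomial.map_prod, ← Finset.card_univ, ← Finset.prod_const]
    refine Finset.prod_congr rfl fun τ _ => ?_
    rw [Polynomial.map_sub, Polynomial.map_X, Polynomial.map_C, ← hθ₀]
    congr 2
    exact Ideal.Quotient.eq.2 (τ.2 θ₀)
  have he'F : (e' : 𝓞 L ⧸ P) ≠ 0 := by
    rw [Ne, CharP.cast_eq_zero_iff (𝓞 L ⧸ P) ℓ]; exact hndvd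
  refine ⟨θ, hfix, fun h => ?_, fun s hs => ?_, fun s hs hsθ => ?_⟩
  · rw [← Ideal.Quotient.eq_zero_iff_mem, hres, neg_eq_zero] at h
    exact mul_ne_zero he'F (pow_ne_zero _ u.ne_zero) h
  · have ht : s⁻¹ • P ≠ P := fun h => hs (by
      conv_lhs => rw [← h]
      rw [smul_inv_smul])
    have hall : ∀ τ : I, (τ : G) • θ₀ ∈ s⁻¹ • P := fun τ => by
      rw [← inv_inv (τ : G), ← Ideal.mem_pointwise_smul_iff_inv_smul_mem, ← mul_smul]
      refine hθ₀t _ fun h => ht ?_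
      rw [mul_smul, inv_smul_eq_iff] at h
      rw [h]
      exact smul_centerIn_eq_of_mem_inertia L hℓ hA τ.2
    have hmem : θ ∈ s⁻¹ • P := by
      rw [← Ideal.Quotient.eq_zero_iff_mem, hθ, ← coeff_map, Polynomial.map_prod,
        Finset.prod_eq_pow_card (b := X) fun τ _ => by
          rw [Polynomial.map_sub, Polynomial.map_X, Polynomial.map_C,
            Ideal.Quotient.eq_zero_iff_mem.2 (hall τ), C_0, sub_zero],
        coeff_X_pow, if_neg]
      rw [Finset.card_univ, hn]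
      have := pow_pos hℓ.pos a
      have := Nat.le_mul_of_pos_right (ℓ ^ a) he'0
      omega
    rwa [Ideal.mem_pointwise_smul_iff_inv_smul_mem, inv_inv] at hmem
  · intro x
    let f : (𝓞 L ⧸ P) ≃+* (𝓞 L ⧸ P) := Ideal.quotientEquiv P P
      (MulSemiringAction.toRingEquiv _ (𝓞 L) s) (hs.symm.trans (Ideal.pointwise_smul_def P))
    have hf : ∀ y, f (Ideal.Quotient.mk P y) = Ideal.Quotient.mk P (s • y) := fun y => rfl
    have h1 : f (Ideal.Quotient.mk P θ) = Ideal.Quotient.mk P θ :=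
      (hf θ).trans (Ideal.Quotient.eq.2 hsθ)
    rw [hres, map_neg, map_mul, map_natCast, map_pow, neg_inj] at h1
    have h2 : f (u : 𝓞 L ⧸ P) = u := sub_eq_zero.1 (pow_eq_zero_iff (pow_ne_zero a hℓ.ne_zero)
      |>.1 (by rw [sub_pow_char_pow, mul_left_cancel₀ he'F h1, sub_self]))
    have h3 : ∀ y : 𝓞 L ⧸ P, f y = y := fun y => by
      rcases eq_or_ne y 0 with rfl | hy
      · exact map_zero f
      obtain ⟨k, hk⟩ := Subgroup.mem_zpowers_iff.1 (hu (Units.mk0 y hy))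
      have := congrArg (fun v : (𝓞 L ⧸ P)ˣ => (v : 𝓞 L ⧸ P)) hk
      simp only [Units.val_zpow_eq_zpow_val, Units.val_mk0] at this
      rw [← this, map_zpow₀, h2]
    exact Ideal.Quotient.eq.1 ((hf x).symm.trans (h3 _))

end FermatAgent.Flat
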