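import Fermat.Agent.Flat.Base
import Fermat.Agent.Flat.Hopf
import Fermat.Agent.Flat.Separator

/-!
# Twisted Galois action on functions, coordinate systems
-/

set_option autoImplicit false

noncomputable section

open scoped Pointwise
open FermatAgent.GaloisBasic

namespace FermatAgent.Flat

variable {M : Type} [AddCommGroup M] [DistribMulAction GQ M]

/-- The natural Galois action on functions of a Galois module. -/
def tw (σ : GQ) : (M → Qbar) →ₐ[ℚ] (M → Qbar) where
  toFun f x := σ (f (σ⁻¹ • x))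
  map_one' := funext fun _ => map_one σ
  map_mul' _ _ := funext fun _ => map_mul σ _ _
  map_zero' := funext fun _ => map_zero σ
  map_add' _ _ := funext fun _ => map_add σ _ _
  commutes' r := funext fun _ => σ.commutes r

/-- The formula for the twist. -/
theorem tw_apply (σ : GQ) (f : M → Qbar) (x : M) : tw σ f x = σ (f (σ⁻¹ • x)) := rfl

/-- Twists compose. -/
theorem tw_tw (σ τ : GQ) (f : M → Qbar) : tw σ (tw τ f) = tw (σ * τ) f := funext fun x => by
  simp only [tw_apply, mul_inv_rev, mul_smul, AlgEquiv.mul_apply]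

/-- The identity twists trivially. -/
theorem tw_one (f : M → Qbar) : tw (1 : GQ) f = f := funext fun x => by
  simp [tw_apply]

/-- The twist is semilinear. -/
theorem tw_smul (σ : GQ) (a : Qbar) (f : M → Qbar) : tw σ (a • f) = σ a • tw σ f :=
  funext fun _ => map_mul σ _ _

/-- Two lifts give the same twist of a function fixed by a subgroup. -/
theorem tw_congr {H : Subgroup GQ} {f : M → Qbar} (hf : ∀ σ ∈ H, tw σ f = f) {a b : GQ}
    (h : a⁻¹ * b ∈ H) : tw a f = tw b f := by
  conv_rhs => rw [← mul_inv_cancel_left a b, ← tw_tw, hf _ h]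

/-- Traces are invariant. -/
theorem tw_trace (H : Subgroup GQ) [Fintype (GQ ⧸ H)] {f : M → Qbar}
    (hf : ∀ σ ∈ H, tw σ f = f) (σ : GQ) :
    tw σ (∑ q : GQ ⧸ H, tw q.out f) = ∑ q : GQ ⧸ H, tw q.out f := by
  rw [map_sum]
  refine Fintype.sum_equiv (MulAction.toPerm σ) _ _ fun q => ?_
  rw [tw_tw]
  refine tw_congr hf (QuotientGroup.eq.1 ?_)
  rw [show ((MulAction.toPerm σ q).out : GQ ⧸ H) = σ • q from Quotient.out_eq _]
  conv_rhs => rw [← QuotientGroup.out_eq' q]
  rfl

variable (L : IntermediateField ℚ Qbar) (A : ValuationSubring Qbar)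

/-- A system of integral coordinates on a finite Galois module, showing that it is finite flat
at the place `A`. -/
structure IsCoordSystem (Φ : Set (M → Qbar)) : Prop where
  fixedM : ∀ σ ∈ L.fixingSubgroup, ∀ x : M, σ • x = x
  fixed : ∀ σ ∈ L.fixingSubgroup, ∀ φ ∈ Φ, tw σ φ = φ
  integral : ∀ φ ∈ Φ, ∀ x, φ x ∈ A
  separated : ∀ x y : M, x ≠ y → ∃ φ ∈ Φ, φ x ≠ φ y
  inertia : ∀ σ ∈ A.inertiaSubgroupIn ℚ, ∀ φ ∈ Φ, tw σ φ = φ
  decomposition : ∀ σ ∈ A.decompositionSubgroup ℚ, ∀ φ ∈ Φ, tw σ φ ∈ Algebra.adjoin A Φ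
  add : ∀ φ ∈ Φ, (fun p : M × M => φ (p.1 + p.2)) ∈ Algebra.adjoin A
    (pullAlg A Qbar Prod.fst '' Φ ∪ pullAlg A Qbar Prod.snd '' Φ)

end FermatAgent.Flat
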