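import Fermat.Agent.Flat.Chart
import Fermat.Agent.Curve.ConstRed.Modular
import Fermat.Prelude.Def_ModularCurve_ArithmeticGalois

/-!
# Coefficient maps for the reduction of `X₀(N)`
-/

set_option autoImplicit false

open Polynomial AlgebraicCurve Module
open ModularCurve (coeffMap jqModC modularFunctionFieldFullC)

attribute [local instance 2000] SubalgebraClass.toAlgebra Algebra.toModule
  HahnSeries.powerSeriesAlgebra

noncomputable section

namespace FermatAgent.Curve.Red.GaussModel

variable {L : Type*} [Field L] {k : Type*} [Field k] {G : GaussModel L k}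
variable {Fb : IntermediateField k (LaurentSeries k)} (hR : G.Regular Fb)
variable [IsFF L G.F] [IsFF k Fb] [IsAlgClosed L] [IsAlgClosed k]

/-- Integral elements with bounded poles are integral series. -/
theorem Regular.exists_series_eq (S : ConstRed G.R G.π G.F Fb) (hO : S.O = G.intField)
    (hred : ∀ (w : G.F) (h : w ∈ G.intField) (h' : w ∈ S.O), S.red ⟨w, h'⟩ = hR.redF ⟨w, h⟩)
    (hgen : rGenus L G.F ≤ rGenus k Fb) (hn : 0 < G.n) {y : LaurentSeries G.R} (hy : G.x * y = 1)
    {n0 : ℕ}
    (hlift : ∀ n, n0 ≤ n → ∀ z ∈ Fb, (eval₂RingHom HahnSeries.C (G.redS G.x)).IsIntegralElem z →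
        (eval₂RingHom HahnSeries.C (G.redS G.x)⁻¹).IsIntegralElem (z * (G.redS G.x)⁻¹ ^ n) →
        ∃ s : LaurentSeries G.R, G.incl s ∈ G.F ∧ G.redS s = z ∧
          (eval₂RingHom HahnSeries.C G.x).IsIntegralElem s ∧
          (eval₂RingHom HahnSeries.C y).IsIntegralElem (s * y ^ n))
    (f : S.O) (n : ℕ)
    (hf : (f : G.F) ∈ riemannRochSpace ((n : ℤ) • (poleDivisor G.xF : Divisor L G.F))) :
    ∃ s : LaurentSeries G.R, G.incl s = ((f : G.F) : LaurentSeries L) ∧
      G.redS s = (S.red f : LaurentSeries k) := by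
  have hxtr := G.transcendental_xF
  have hdeg : Divisor.degree (poleDivisor G.xF : Divisor L G.F) = G.n := by
    rw [degree_poleDivisor hxtr, G.finrank_F]
  have hdegb : Divisor.degree (poleDivisor hR.xb : Divisor k Fb) = G.n := by
    rw [degree_poleDivisor hR.transcendental_xb, hR.finrank_Fb]
  obtain ⟨c, hc⟩ := exists_rrDim_eq (K := L) (F := G.F)
  obtain ⟨c', hc'⟩ := exists_rrDim_eq (K := k) (F := Fb)
  set M : ℕ := max n (max n0 (max c c').toNat) with hM
  have hbig : max c c' ≤ (M : ℤ) * G.n :=
    ((Int.self_le_toNat _).trans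
      (by rw [hM]; exact_mod_cast (le_max_right _ _).trans (le_max_right _ _))).trans
      (le_mul_of_one_le_right (Int.natCast_nonneg _) (by exact_mod_cast hn))
  have hf' : (f : G.F) ∈ riemannRochSpace ((M : ℤ) • (poleDivisor G.xF : Divisor L G.F)) :=
    riemannRochSpace_le_of_le (fun v => by
      simp only [Finsupp.smul_apply, smul_eq_mul]
      exact mul_le_mul_of_nonneg_right (by rw [hM]; exact_mod_cast le_max_left _ _)
        (poleDivisor_nonneg G.xF v)) hf
  have h1 := hc ((M : ℤ) • (poleDivisor G.xF : Divisor L G.F))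
    (by rw [map_zsmul, hdeg, smul_eq_mul]; exact (le_max_left _ _).trans hbig)
  have h2 := hc' ((M : ℤ) • (poleDivisor hR.xb : Divisor k Fb))
    (by rw [map_zsmul, hdegb, smul_eq_mul]; exact (le_max_right _ _).trans hbig)
  rw [map_zsmul, hdeg] at h1
  rw [map_zsmul, hdegb, S.rGenus_eq hgen, ← h1, Int.natCast_inj] at h2
  have : Module.Free k (riemannRochSpace ((M : ℤ) • (poleDivisor hR.xb : Divisor k Fb))) :=
    Module.Free.of_divisionRing k _
  let bas := Module.finBasis k (riemannRochSpace ((M : ℤ) • (poleDivisor hR.xb : Divisor k Fb)))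
  choose s hs hmem hsz using fun i => hR.exists_series_lift hy
    (hlift M (by rw [hM]; exact (le_max_left _ _).trans (le_max_right _ _))) (bas i).2
  have hint : ∀ i, (⟨G.incl (s i), hs i⟩ : G.F) ∈ G.intField := fun i =>
    G.intElt_incl (s := s i) (hs i)
  have hmemO : ∀ i, (⟨G.incl (s i), hs i⟩ : G.F) ∈ S.O := fun i => by
    rw [hO]; exact hint i
  let w : Fin _ → S.O := fun i => ⟨_, hmemO i⟩
  have hred_w : ∀ i, S.red (w i) = (bas i : Fb) := fun i => by
    refine (hred ⟨G.incl (s i), hs i⟩ (hint i) (hmemO i)).trans (Subtype.ext ?_)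
    rw [hR.coe_redF, ← hsz i]
    exact G.red_incl (hs i)
  have hind : LinearIndependent k (fun i => S.red (w i)) := by
    have e : (fun i => S.red (w i)) = fun i => ((bas i) : Fb) := funext hred_w
    rw [e]
    exact bas.linearIndependent.map'
      (riemannRochSpace ((M : ℤ) • (poleDivisor hR.xb : Divisor k Fb))).subtype
      (riemannRochSpace ((M : ℤ) • (poleDivisor hR.xb : Divisor k Fb))).ker_subtype
  obtain ⟨cf, hcf⟩ := S.mem_span_of_card hind hmem (by rw [Fintype.card_fin]; exact h2) hf'
  have hA : ∀ i, cf i ∈ G.R := fun i => S.coeff_mem hind (by rw [hcf]; exact f.2) i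
  set t : LaurentSeries G.R := ∑ i, HahnSeries.C (⟨cf i, hA i⟩ : G.R) * s i
  have ht : G.incl t = ((f : G.F) : LaurentSeries L) := by
    rw [← hcf, map_sum, AddSubmonoidClass.coe_finsetSum]
    refine Finset.sum_congr rfl fun i _ => ?_
    rw [map_mul, G.incl_C, Algebra.smul_def, MulMemClass.coe_mul,
      IntermediateField.coe_algebraMap_apply, ModularCurve.algebraMap_laurentSeries_eq_single,
      ← HahnSeries.C_apply]
  have htF : G.incl t ∈ G.F := by rw [ht]; exact (f : G.F).2
  refine ⟨t, ht, ?_⟩
  have hfi : (f : G.F) ∈ G.intField := by rw [← hO]; exact f.2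
  rw [show S.red f = hR.redF ⟨f, hfi⟩ from hred _ hfi f.2, hR.coe_redF, ← G.red_incl htF]
  exact congrArg G.red (Subtype.ext ht)

end FermatAgent.Curve.Red.GaussModel

namespace FermatAgent.Curve.Red

local notation "Qb" => AlgebraicClosure ℚ

variable {ℓ : ℕ} [hℓ : Fact ℓ.Prime] {A : ValuationSubring Qb} {N : ℕ} [NeZero N]

/-- The reduction of `X₀(N)`, with integrality of expansions of functions with poles at the
cusps. -/
theorem exists_constRed_series (hA : A.LiesOverPrime ℓ) (hN : ¬ ℓ ∣ N)
    (E : IntermediateField Qb (LaurentSeries Qb)) (hE : E = jField Qb N) [IsFF Qb E]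
    [IsFF (IsLocalRing.ResidueField A) (modularFunctionFieldFullC (IsLocalRing.ResidueField A) N)] :
    ∃ (S : ConstRed A (IsLocalRing.residue A) E
        (modularFunctionFieldFullC (IsLocalRing.ResidueField A) N)) (x : S.O),
      ((x : E) : LaurentSeries Qb) = jqModC Qb ∧
      (S.red x : LaurentSeries (IsLocalRing.ResidueField A)) = jqModC (IsLocalRing.ResidueField A) ∧
      Divisor.degree (poleDivisor (x : E) : Divisor Qb E) =
        Divisor.degree (poleDivisor (S.red x) : Divisor (IsLocalRing.ResidueField A)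
          (modularFunctionFieldFullC (IsLocalRing.ResidueField A) N)) ∧
      0 < Divisor.degree (poleDivisor (x : E) : Divisor Qb E) ∧
      (∀ (f : S.O) (n : ℕ),
        (f : E) ∈ riemannRochSpace ((n : ℤ) • (poleDivisor (x : E) : Divisor Qb E)) →
        ∃ s : LaurentSeries A, coeffMap A.subtype s = ((f : E) : LaurentSeries Qb) ∧
          coeffMap (IsLocalRing.residue A) s =
            (S.red f : LaurentSeries (IsLocalRing.ResidueField A))) ∧
      rGenus Qb E ≤ rGenus (IsLocalRing.ResidueField A)
        (modularFunctionFieldFullC (IsLocalRing.ResidueField A) N) := by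
  obtain ⟨r, ⟨-, hr⟩, -⟩ := exists_reduction_for hA hN E hE
  subst hE
  have := isAlgClosed_residueField A
  have : IsFF Qb (barModel hA hN).F := (barModel hA hN).isFF_F
  have hxm : coeffMap (IsLocalRing.residue A) (jqModC A) = jqModC (IsLocalRing.ResidueField A) :=
    ModularCurve.coeffMap_jqModC _
  set G := barModel hA hN
  set hR := regular_barModel hA hN
  obtain ⟨y, hy, n0, hlift⟩ := exists_lift_barModel hA hN
  set S := hR.constRed (G := G) r hr
  have hn : 0 < G.n := Nat.pos_of_ne_zero Subgroup.FiniteIndex.index_ne_zero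
  have hgen : rGenus Qb G.F ≤ rGenus (IsLocalRing.ResidueField A)
      (modularFunctionFieldFullC (IsLocalRing.ResidueField A) N) :=
    hR.rGenus_le (G := G) S rfl (fun _ _ _ => rfl) hn (y := y) hy (n0 := n0) hlift
  have hxtr := G.transcendental_xF
  have hxS : G.xF ∈ S.O := G.intElt_incl (s := G.x) G.xF.2
  have hred : S.red ⟨G.xF, hxS⟩ = hR.xb := Subtype.ext (by
    show G.red ⟨_, hxS⟩ = G.redS G.x
    exact G.red_incl (s := G.x) G.xF.2)
  refine ⟨S, ⟨G.xF, hxS⟩, ModularCurve.coeffMap_jqModC _, ?_, ?_, ?_, ?_, hgen⟩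
  · exact (congrArg Subtype.val hred).trans hxm
  · refine Eq.trans ?_ (congrArg (fun z => Divisor.degree
      (poleDivisor z : Divisor (IsLocalRing.ResidueField A)
        (modularFunctionFieldFullC (IsLocalRing.ResidueField A) N))) hred.symm)
    show Divisor.degree (poleDivisor G.xF : Divisor Qb G.F) = _
    rw [degree_poleDivisor hxtr, G.finrank_F, degree_poleDivisor hR.transcendental_xb,
      hR.finrank_Fb]
  · show 0 < Divisor.degree (poleDivisor G.xF : Divisor Qb G.F)
    rw [degree_poleDivisor hxtr, G.finrank_F]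
    exact_mod_cast hn
  · intro f n hf
    exact hR.exists_series_eq (G := G) S rfl (fun _ _ _ => rfl) hgen hn hy hlift f n hf

end FermatAgent.Curve.Red

namespace FermatAgent.Flat

open FermatAgent.Curve

local notation "Qb" => AlgebraicClosure ℚ

variable {ℓ : ℕ} [hℓ : Fact ℓ.Prime] {A : ValuationSubring Qb} {N : ℕ} [NeZero N]

/-- The reduction of `X₀(N)` with its expansions. -/
theorem exists_constRed_coef (hA : A.LiesOverPrime ℓ) (hN : ¬ ℓ ∣ N)
    (E : IntermediateField Qb (LaurentSeries Qb)) (hE : E = jField Qb N) [IsFF Qb E]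
    [IsFF (IsLocalRing.ResidueField A) (modularFunctionFieldFullC (IsLocalRing.ResidueField A) N)] :
    ∃ (S : ConstRed A (IsLocalRing.residue A) E
        (modularFunctionFieldFullC (IsLocalRing.ResidueField A) N)) (Θ : Coef S) (x : E),
      (x : LaurentSeries Qb) = jqModC Qb ∧ Θ.B = poleDivisor x ∧ 0 < Divisor.degree Θ.B ∧
        (∀ f : E, Θ.ser f = (f : LaurentSeries Qb)) ∧
        rGenus Qb E ≤ rGenus (IsLocalRing.ResidueField A)
          (modularFunctionFieldFullC (IsLocalRing.ResidueField A) N) := by
  obtain ⟨S, x, hx, -, -, hdeg, hser, hgen⟩ := Red.exists_constRed_series hA hN E hE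
  refine ⟨S,
    { ser := E.val.toRingHom
      serb := (modularFunctionFieldFullC (IsLocalRing.ResidueField A) N).val.toRingHom
      ser_algebraMap := fun a => by
        show ((algebraMap Qb E a : E) : LaurentSeries Qb) = _
        rw [IntermediateField.coe_algebraMap_apply,
          ModularCurve.algebraMap_laurentSeries_eq_single, HahnSeries.C_apply]
      serb_algebraMap := fun a => by
        show ((algebraMap _ (modularFunctionFieldFullC (IsLocalRing.ResidueField A) N) a :
          modularFunctionFieldFullC (IsLocalRing.ResidueField A) N) :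
            LaurentSeries (IsLocalRing.ResidueField A)) = _
        rw [IntermediateField.coe_algebraMap_apply,
          ModularCurve.algebraMap_laurentSeries_eq_single, HahnSeries.C_apply]
      B := poleDivisor (x : E)
      B_nonneg := poleDivisor_nonneg _
      compat := fun f n hf e => ?_ },
    (x : E), hx, rfl, hdeg, fun _ => rfl, hgen⟩
  obtain ⟨s, hs, hsr⟩ := hser f n (by rw [natCast_zsmul]; exact hf)
  exact ⟨s.coeff e, congrArg (fun t : LaurentSeries Qb => t.coeff e) hs,
    congrArg (fun t : LaurentSeries (IsLocalRing.ResidueField A) => t.coeff e) hsr⟩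

end FermatAgent.Flat
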