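import Fermat.Agent.CFT.SelmerP.Place

/-!
# Multiplicative representatives fixed by inertia
-/

set_option autoImplicit false

noncomputable section

open FermatAgent.GaloisBasic
open IsLocalRing (residue residue_eq_zero_iff ResidueField)

namespace FermatAgent.Flat

variable {ℓ : ℕ} [hℓ : Fact ℓ.Prime] {A : ValuationSubring Qbar}

/-- Multiplicative representatives fixed by inertia. -/
theorem exists_teichmuller (hA : A.LiesOverPrime ℓ) :
    ∃ τ : ResidueField A → A, (∀ a, residue A (τ a) = a) ∧ τ 0 = 0 ∧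
      ∀ σ ∈ A.inertiaSubgroupIn ℚ, ∀ a, σ (τ a : Qbar) = τ a := by
  classical
  have h : ∀ a : ResidueField A, ∃ x : A, residue A x = a ∧ (a = 0 → x = 0) ∧
      ∀ σ ∈ A.inertiaSubgroupIn ℚ, σ (x : Qbar) = x := fun a => by
    by_cases ha : a = 0
    · exact ⟨0, by rw [map_zero, ha], fun _ => rfl, fun σ _ => map_zero σ⟩
    obtain ⟨x, rfl⟩ := IsLocalRing.residue_surjective a
    have hv : A.valuation (x : Qbar) = 1 := le_antisymm (A.valuation_le_one x) (not_lt.1 fun h =>
      ha ((residue_eq_zero_iff x).2 ((A.valuation_lt_one_iff x).2 h)))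
    obtain ⟨m, ζ, hm, hm0, hζ, hlt⟩ := CFT.SelmerP.exists_root_lift hA hv
    have hζA : ζ ∈ A := (A.valuation_le_one_iff ζ).1
      (Mazur.valuation_eq_one_of_pow hm0 (by rw [hζ, map_one])).le
    refine ⟨⟨ζ, hζA⟩, ?_, fun h => absurd h ha, fun σ hσ =>
      Mazur.inertia_fixes_rootsOfUnity hℓ.out hA hm hm0 hσ hζ⟩
    refine (sub_eq_zero.1 ?_).symm
    rw [← map_sub, residue_eq_zero_iff, IsLocalRing.mem_maximalIdeal]
    exact (A.valuation_lt_one_iff _).2 hlt
  choose τ h1 h2 h3 using h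
  exact ⟨τ, h1, h2 0 rfl, fun σ hσ a => h3 a σ hσ⟩

end FermatAgent.Flat
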