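import Fermat.Agent.Flat.ExistsFrame
import Fermat.Agent.Flat.Addition
import Fermat.Agent.Flat.ModularRed
import Fermat.Agent.Flat.Teichmuller
import Fermat.Agent.Flat.Coord

/-!
# Coordinate systems on finite Galois modules of classes of `X₀(N)`
-/

set_option autoImplicit false

open AlgebraicCurve Module FermatAgent.Curve
open ModularCurve (coeffMap coeffEmb jqModC modularFunctionFieldBar modularFunctionFieldFull
  modularFunctionFieldFullC arithmeticGalois laurentBaseChange)
open FermatAgent.GaloisBasic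
open SemilinearAut (baseAut)
open scoped Pointwise

attribute [local instance 2000] SubalgebraClass.toAlgebra HahnSeries.powerSeriesAlgebra

noncomputable section

namespace FermatAgent.Flat

section Smooth

/-- A predicate on Galois elements holding on the fixing group of a finite extension. -/
def SmallFixed (p : GQ → Prop) : Prop :=
  ∃ L : IntermediateField ℚ Qbar, FiniteDimensional ℚ L ∧ ∀ σ ∈ L.fixingSubgroup, p σ

/-- `SmallFixed` passes to weaker predicates. -/
theorem SmallFixed.mono {p q : GQ → Prop} (h : SmallFixed p) (hpq : ∀ σ, p σ → q σ) :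
    SmallFixed q :=
  h.imp fun _ h => ⟨h.1, fun σ hσ => hpq σ (h.2 σ hσ)⟩

/-- The trivial predicate holds. -/
theorem SmallFixed.true : SmallFixed fun _ => True :=
  ⟨⊥, inferInstance, fun _ _ => trivial⟩

/-- `SmallFixed` is closed under conjunction. -/
theorem SmallFixed.and {p q : GQ → Prop} (h : SmallFixed p) (h' : SmallFixed q) :
    SmallFixed fun σ => p σ ∧ q σ := by
  obtain ⟨L, hL, hp⟩ := h
  obtain ⟨L', hL', hq⟩ := h'
  exact ⟨L ⊔ L', inferInstance, fun σ hσ =>
    ⟨hp σ (IntermediateField.fixingSubgroup_antitone le_sup_left hσ),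
      hq σ (IntermediateField.fixingSubgroup_antitone le_sup_right hσ)⟩⟩

theorem SmallFixed.forall_mem {ι : Type*} {p : ι → GQ → Prop} (s : Finset ι)
    (h : ∀ i ∈ s, SmallFixed (p i)) : SmallFixed fun σ => ∀ i ∈ s, p i σ := by
  classical
  induction s using Finset.induction with
  | empty => exact SmallFixed.true.mono fun _ _ => by simp
  | insert a s ha ih =>
    exact ((h a (Finset.mem_insert_self a s)).and
      (ih fun i hi => h i (Finset.mem_insert_of_mem hi))).mono fun σ hσ => by
        simpa using hσ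

/-- `SmallFixed` is closed under finite conjunctions. -/
theorem SmallFixed.forall_finite {ι : Type*} [Finite ι] {p : ι → GQ → Prop}
    (h : ∀ i, SmallFixed (p i)) : SmallFixed fun σ => ∀ i, p i σ := by
  have := Fintype.ofFinite ι
  exact (SmallFixed.forall_mem Finset.univ fun i _ => h i).mono fun σ hσ i =>
    hσ i (Finset.mem_univ i)

theorem smallFixed_apply (a : Qbar) : SmallFixed fun σ => σ a = a :=
  ⟨IntermediateField.adjoin ℚ {a},
    IntermediateField.adjoin.finiteDimensional (Algebra.IsIntegral.isIntegral a), fun σ hσ =>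
    (IntermediateField.mem_fixingSubgroup_iff _ σ).mp hσ a
      (IntermediateField.mem_adjoin_simple_self ℚ a)⟩

variable (F₀ : IntermediateField ℚ (LaurentSeries ℚ))

theorem smallFixed_coeffMap {x : LaurentSeries Qbar} (hx : x ∈ laurentBaseChange Qbar F₀) :
    SmallFixed fun σ => coeffMap (σ : Qbar →+* Qbar) x = x := by
  rw [ModularCurve.mem_laurentBaseChange_iff] at hx
  induction hx using Subfield.closure_induction with
  | mem y hy =>
    rcases hy with ⟨a, rfl⟩ | ⟨z, -, rfl⟩
    · exact (smallFixed_apply a).mono fun σ h => by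
        rw [ModularCurve.coeffMap_algebraMap]
        exact congrArg _ h
    · exact SmallFixed.true.mono fun σ _ => by rw [ModularCurve.coeffMap_coeffEmb]
  | one => exact SmallFixed.true.mono fun σ _ => map_one _
  | add y z _ _ hy hz => exact (hy.and hz).mono fun σ h => by rw [map_add, h.1, h.2]
  | neg y _ hy => exact hy.mono fun σ h => by rw [map_neg, h]
  | inv y _ hy => exact hy.mono fun σ h => by rw [map_inv₀, h]
  | mul y z _ _ hy hz => exact (hy.and hz).mono fun σ h => by rw [map_mul, h.1, h.2]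

/-- An open subgroup fixes a given function. -/
theorem smallFixed_fun (f : laurentBaseChange Qbar F₀) :
    SmallFixed fun σ => arithmeticGalois F₀ σ • f = f :=
  (smallFixed_coeffMap F₀ f.2).mono fun _ h => Subtype.ext h

variable [IsFF Qbar (laurentBaseChange Qbar F₀)]

/-- An open subgroup fixes a given place. -/
theorem smallFixed_place (v : Place Qbar (laurentBaseChange Qbar F₀)) :
    SmallFixed fun σ => arithmeticGalois F₀ σ • v = v := by
  classical
  obtain ⟨c, hc⟩ := exists_isThreshold (K := Qbar) (F := laurentBaseChange Qbar F₀)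
  set n : ℕ := c.toNat + 2
  set G : Divisor Qbar (laurentBaseChange Qbar F₀) := Finsupp.single v (n : ℤ)
  obtain ⟨z, hz, hz0, hord⟩ := exists_ord_eq_neg hc (G := G)
    (by rw [Divisor.degree_single, deg_eq_one v]; have := Int.self_le_toNat c; omega) v
  refine (smallFixed_fun F₀ z).mono fun σ hσ => ?_
  by_contra hne
  have h1 := (mem_riemannRochSpace_iff_ne_zero hz0).1 hz (arithmeticGalois F₀ σ • v)
  have h2 := SemilinearAut.ord_smul (arithmeticGalois F₀ σ) v z
  rw [hσ] at h2
  simp only [G, Finsupp.single_eq_of_ne hne, Finsupp.single_eq_same] at h1 hord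
  omega

theorem smallFixed_divisor (D : Divisor Qbar (laurentBaseChange Qbar F₀)) :
    SmallFixed fun σ => arithmeticGalois F₀ σ • D = D :=
  (SmallFixed.forall_mem D.support fun v _ => smallFixed_place F₀ v).mono fun σ h => by
    rw [SemilinearAut.divisor_smul_def]
    conv_rhs => rw [← Finsupp.mapDomain_id (v := D)]
    exact Finsupp.mapDomain_congr fun v hv => h v hv

/-- An open subgroup fixes a given class. -/
theorem smallFixed_class (x : Pic0 Qbar (laurentBaseChange Qbar F₀)) :
    SmallFixed fun σ => σ • x = x := by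
  obtain ⟨D, rfl⟩ := Pic0.mk_surjective x
  refine (smallFixed_divisor F₀ D.1).mono fun σ h => ?_
  rw [ModularCurve.galois_smul_pic0_def, SemilinearAut.pic0_smul_mk]
  congr 1
  exact Subtype.ext (by rw [SemilinearAut.coe_degZeroSMulHom]; exact h)

end Smooth

attribute [local instance 3000] DivisionRing.toRatAlgebra

theorem tw_mem_adjoin {X : Type} [AddCommGroup X] [DistribMulAction GQ X]
    {A : ValuationSubring Qbar} {σ : GQ} (hσ : σ ∈ A.decompositionSubgroup ℚ)
    {s t : Set (X → Qbar)} (hst : ∀ f ∈ s, tw σ f ∈ Algebra.adjoin A t)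
    {f : X → Qbar} (hf : f ∈ Algebra.adjoin A s) : tw σ f ∈ Algebra.adjoin A t := by
  induction hf using Algebra.adjoin_induction with
  | mem x hx => exact hst x hx
  | algebraMap a =>
    have e : tw σ (algebraMap A (X → Qbar) a) =
        algebraMap A (X → Qbar) ⟨_, Mazur.map_mem_of_mem_decomposition hσ a.2⟩ := rfl
    rw [e]
    exact Subalgebra.algebraMap_mem _ _
  | add x y _ _ hx hy => rw [map_add]; exact add_mem hx hy
  | mul x y _ _ hx hy => rw [map_mul]; exact mul_mem hx hy

variable {ℓ : ℕ} [hℓ : Fact ℓ.Prime] {A : ValuationSubring Qbar} {N : ℕ} [NeZero N]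

omit [NeZero N] in
/-- The twists by the decomposition group of integral separating functions fixed by inertia and
by a Galois field form a coordinate system as soon as addition is given by them. -/
theorem isCoordSystem_twists {M : Type} [AddCommGroup M] [DistribMulAction GQ M]
    (hA : A.LiesOverPrime ℓ) {L : IntermediateField ℚ Qbar} {S : Set (M → Qbar)}
    (hLn : ∀ (d : GQ), ∀ a ∈ L, d a ∈ L)
    (hM : ∀ σ ∈ L.fixingSubgroup, ∀ y : M, σ • y = y)
    (hL : ∀ σ ∈ L.fixingSubgroup, ∀ φ ∈ S, tw σ φ = φ)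
    (hI : ∀ σ ∈ A.inertiaSubgroupIn ℚ, ∀ φ ∈ S, tw σ φ = φ)
    (hint : ∀ φ ∈ S, ∀ y, φ y ∈ A) (hsep : ∀ y z, y ≠ z → ∃ φ ∈ S, φ y ≠ φ z)
    (hadd : ∀ φ ∈ S, (fun p : M × M => φ (p.1 + p.2)) ∈
      Algebra.adjoin A (pullAlg A Qbar Prod.fst '' S ∪ pullAlg A Qbar Prod.snd '' S)) :
    IsCoordSystem L A {ψ | ∃ σ ∈ A.decompositionSubgroup ℚ, ∃ φ ∈ S, ψ = tw σ φ} := by
  refine ⟨hM, ?_, ?_, ?_, ?_, ?_, ?_⟩
  · rintro σ hσ _ ⟨d, -, φ, hφ, rfl⟩
    have hc : d⁻¹ * σ * d ∈ L.fixingSubgroup := by
      rw [IntermediateField.mem_fixingSubgroup_iff] at hσ ⊢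
      intro a ha
      show d⁻¹ (σ (d a)) = a
      rw [hσ _ (hLn d a ha)]
      exact d.symm_apply_apply a
    rw [tw_tw, show σ * d = d * (d⁻¹ * σ * d) by group, ← tw_tw, hL _ hc φ hφ]
  · rintro _ ⟨d, hd, φ, hφ, rfl⟩ y
    exact Mazur.map_mem_of_mem_decomposition hd (hint φ hφ _)
  · intro y z hyz
    obtain ⟨φ, hφ, hne⟩ := hsep y z hyz
    exact ⟨φ, ⟨1, one_mem _, φ, hφ, (tw_one φ).symm⟩, hne⟩
  · rintro σ hσ _ ⟨d, hd, φ, hφ, rfl⟩
    have hc : d⁻¹ * σ * d ∈ A.inertiaSubgroupIn ℚ := by
      have := conj_mem_inertiaSubgroupIn_of_mem (Fact.out : ℓ.Prime) hA hσ (inv_mem hd)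
      rwa [inv_inv] at this
    rw [tw_tw, show σ * d = d * (d⁻¹ * σ * d) by group, ← tw_tw, hI _ hc φ hφ]
  · rintro σ hσ _ ⟨d, hd, φ, hφ, rfl⟩
    exact Algebra.subset_adjoin ⟨σ * d, mul_mem hσ hd, φ, hφ, by rw [tw_tw]⟩
  · rintro _ ⟨d, hd, φ, hφ, rfl⟩
    have e : (fun p : M × M => tw d φ (p.1 + p.2)) = tw d (fun p : M × M => φ (p.1 + p.2)) :=
      funext fun p => by simp only [tw_apply, Prod.smul_fst, Prod.smul_snd, smul_add]
    rw [e]
    refine tw_mem_adjoin hd ?_ (hadd φ hφ)
    rintro _ (⟨ψ, hψ, rfl⟩ | ⟨ψ, hψ, rfl⟩)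
    · exact Algebra.subset_adjoin (Or.inl ⟨tw d ψ, ⟨d, hd, ψ, hψ, rfl⟩, rfl⟩)
    · exact Algebra.subset_adjoin (Or.inr ⟨tw d ψ, ⟨d, hd, ψ, hψ, rfl⟩, rfl⟩)

omit [NeZero N] in
/-- A reduction with its expansions gives a frame whose twists by the decomposition group form a
coordinate system. -/
theorem exists_frame_isCoordSystem {M : Type} [AddCommGroup M] [Finite M] [DistribMulAction GQ M]
    [IsFF Qbar (modularFunctionFieldBar N)] [IsAlgClosed (IsLocalRing.ResidueField A)]
    [IsFF (IsLocalRing.ResidueField A) (modularFunctionFieldFullC (IsLocalRing.ResidueField A) N)]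
    (hA : A.LiesOverPrime ℓ)
    {S : ConstRed A (IsLocalRing.residue A) (modularFunctionFieldBar N)
      (modularFunctionFieldFullC (IsLocalRing.ResidueField A) N)} {Θ : Coef S}
    (hser : ∀ f, Θ.ser f = (f : LaurentSeries Qbar)) {x : modularFunctionFieldBar N}
    (hx : (x : LaurentSeries Qbar) = jqModC Qbar) (hB : Θ.B = poleDivisor x)
    (hBdeg : 0 < Divisor.degree Θ.B)
    (hgen : rGenus Qbar (modularFunctionFieldBar N) ≤ rGenus (IsLocalRing.ResidueField A)
      (modularFunctionFieldFullC (IsLocalRing.ResidueField A) N))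
    (cls : M →+ ModularCurve.JZero N) (hcls : Function.Injective cls)
    (hequiv : ∀ (σ : GQ) (x : M), cls (σ • x) = σ • cls x) :
    ∃ (P : Frame Θ M) (L : IntermediateField ℚ Qbar), P.cls = cls ∧
      FiniteDimensional ℚ L ∧ IsGalois ℚ L ∧
      IsCoordSystem L A {ψ | ∃ σ ∈ A.decompositionSubgroup ℚ, ∃ φ ∈ P.coords, ψ = tw σ φ} := by
  classical
  obtain ⟨τ, hτ, hτ0, hτfix⟩ := exists_teichmuller hA
  set g : GQ → SemilinearAut Qbar (modularFunctionFieldBar N) :=
    fun σ => arithmeticGalois (modularFunctionFieldFull N) σ with hg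
  have hcomp : ∀ σ, Compatible Θ (g σ) := fun σ e f => by
    show (Θ.ser (g σ • f)).coeff e = σ ((Θ.ser f).coeff e)
    rw [hser, hser, hg, ModularCurve.coe_arithmeticGalois_smul, ModularCurve.coeffMap_coeff]
    rfl
  have hgB : ∀ σ, g σ • Θ.B = Θ.B := fun σ => by
    rw [hB, smul_poleDivisor]
    congr 1
    refine Subtype.ext ?_
    rw [hg, ModularCurve.coe_arithmeticGalois_smul, hx, ModularCurve.coeffMap_jqModC]
  have hdec : ∀ σ ∈ A.inertiaSubgroupIn ℚ, σ ∈ A.decompositionSubgroup ℚ := fun σ hσ =>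
    inertiaSubgroupIn_le_decompositionSubgroup A hσ
  obtain ⟨P, hPcls, hPO, hPD, hPwt⟩ := exists_frame (Θ := Θ) hgen cls hcls
    (g '' (A.inertiaSubgroupIn ℚ : Set GQ))
    (by rintro _ ⟨σ, -, rfl⟩; exact hcomp σ)
    (by rintro _ ⟨σ, hσ, rfl⟩ a; exact Mazur.map_mem_of_mem_decomposition (hdec σ hσ) a.2)
    (by
      rintro _ ⟨σ, hσ, rfl⟩ a h
      rw [← sub_eq_zero, ← map_sub, IsLocalRing.residue_eq_zero_iff,
        IsLocalRing.mem_maximalIdeal]
      exact (A.valuation_lt_one_iff _).mpr (Mazur.valuation_map_sub_lt_one hℓ.out hA hσ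
        ((A.valuation_le_one_iff _).mpr a.2)))
    τ hτ hτ0 (by rintro _ ⟨σ, hσ, rfl⟩ a; exact hτfix σ hσ a)
    (by rintro _ ⟨σ, -, rfl⟩; exact hgB σ) hBdeg
  have heq : ∀ σ : GQ, g σ • P.O = P.O → g σ • P.D = P.D →
      (∀ m i, ∀ e ∈ (P.C m).E, σ ((P.C m).wt i e : Qbar) = (P.C m).wt i e) →
      ∀ φ ∈ P.coords, tw σ φ = φ := fun σ hO hD hwt φ hφ => funext fun y => by
    have h := coords_equivariant (hcomp σ) P (σ • ·) hO hD hwt
      (fun z => by rw [hPcls, hequiv]; rfl) hφ (σ⁻¹ • y)
    simp only [smul_inv_smul] at h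
    rw [tw_apply]
    exact h.symm
  obtain ⟨L, hL, hfix⟩ : SmallFixed fun σ => (∀ y : M, σ • y = y) ∧ g σ • P.O = P.O ∧
      g σ • P.D = P.D ∧ ∀ m i, ∀ e ∈ (P.C m).E, σ ((P.C m).wt i e : Qbar) = (P.C m).wt i e :=
    ((SmallFixed.forall_finite fun y : M => (smallFixed_class _ (cls y)).mono fun σ h =>
        hcls ((hequiv σ y).trans h)).and ((smallFixed_divisor _ P.O).and
      ((smallFixed_divisor _ P.D).and (SmallFixed.forall_finite fun m =>
        SmallFixed.forall_finite fun i => SmallFixed.forall_mem (P.C m).E fun e _ =>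
          smallFixed_apply _))))
  have : Normal ℚ (IntermediateField.normalClosure ℚ L Qbar) := normalClosure.normal ℚ L Qbar
  have : IsGalois ℚ (IntermediateField.normalClosure ℚ L Qbar) := ⟨⟩
  refine ⟨P, IntermediateField.normalClosure ℚ L Qbar, hPcls,
    normalClosure.is_finiteDimensional ℚ L Qbar, inferInstance, ?_⟩
  have hle : (IntermediateField.normalClosure ℚ L Qbar).fixingSubgroup ≤ L.fixingSubgroup :=
    IntermediateField.fixingSubgroup_antitone (IntermediateField.le_normalClosure L)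
  exact isCoordSystem_twists hA
    (fun d a ha => IntermediateField.normal_iff_forall_map_le'.mp inferInstance d ⟨a, ha, rfl⟩)
    (fun σ hσ y => (hfix σ (hle hσ)).1 y)
    (fun σ hσ φ hφ => by
      obtain ⟨-, hO, hD, hwt⟩ := hfix _ (hle hσ)
      exact heq _ hO hD hwt φ hφ)
    (fun σ hσ φ hφ => heq _ (hPO _ ⟨_, hσ, rfl⟩) (hPD _ ⟨_, hσ, rfl⟩)
      (fun m i e _ => hPwt _ ⟨_, hσ, rfl⟩ m i e) φ hφ)
    (fun φ hφ y => Frame.coords_integral hφ y) (fun y z h => Frame.coords_separated (P := P) h)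
    fun φ hφ => P.add_mem hφ

/-- **Coordinate systems on torsion of `J₀(N)`.** A finite Galois submodule of the classes of
`X₀(N)` has, at every place over a prime `ℓ ∤ N`, a system of integral coordinates separating
its points, stable under the decomposition group, fixed by inertia and expressing addition:
the coordinates of sections of a Riemann–Roch space in good reduction. -/
theorem exists_isCoordSystem {M : Type} [AddCommGroup M] [Finite M] [DistribMulAction GQ M]
    (hA : A.LiesOverPrime ℓ) (hN : ¬ ℓ ∣ N) (cls : M →+ ModularCurve.JZero N)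
    (hcls : Function.Injective cls) (hequiv : ∀ (σ : GQ) (x : M), cls (σ • x) = σ • cls x) :
    ∃ (L : IntermediateField ℚ Qbar) (Φ : Set (M → Qbar)),
      FiniteDimensional ℚ L ∧ IsGalois ℚ L ∧ IsCoordSystem L A Φ := by
  classical
  have := Red.isFF_bar N
  have := isAlgClosed_residueField A
  have := Red.isFF_fullC hA (N := N) hN
  obtain ⟨S, Θ, x, hx, hB, hBdeg, hser, hgen⟩ := exists_constRed_coef hA hN
    (modularFunctionFieldBar N) (modularFunctionFieldBar_eq_jField N)
  obtain ⟨P, L, -, hL, hG, hC⟩ :=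
    exists_frame_isCoordSystem hA hser hx hB hBdeg hgen cls hcls hequiv
  exact ⟨L, _, hL, hG, hC⟩

end FermatAgent.Flat
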