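import Fermat.Agent.Flat.Closure

/-!
# Flat actions twisted by unramified automorphisms

A flat action stays flat after multiplying by commuting automorphisms which are trivial on the
inertia groups at `p` and on an open subgroup.
-/

set_option autoImplicit false

noncomputable section

open FermatAgent.GaloisBasic

namespace FermatAgent.Flat

variable {X : Type} [AddCommGroup X] {p : ℕ} {ρ ρ' : GQ →* AddMonoid.End X}

/-- **Unramified twists.** -/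
theorem IsFlatAct.twist (h : IsFlatAct p ρ) (θ : GQ →* AddMonoid.End X)
    (hρ' : ∀ σ x, ρ' σ x = θ σ (ρ σ x)) (hcomm : ∀ σ τ x, θ σ (ρ τ x) = ρ τ (θ σ x))
    (hlevel : ∃ L₀ : IntermediateField ℚ Qbar, FiniteDimensional ℚ L₀ ∧
      ∀ σ ∈ L₀.fixingSubgroup, θ σ = 1)
    (hin : ∀ A : ValuationSubring Qbar, A.LiesOverPrime p → ∀ σ ∈ A.inertiaSubgroupIn ℚ, θ σ = 1) :
    IsFlatAct p ρ' := by
  refine ⟨h.1, fun A hA => ?_⟩
  obtain ⟨L, Φ, hL, hLG, hΦ⟩ := h.2 A hA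
  obtain ⟨L₀, hL₀, hθL⟩ := hlevel
  have : Normal ℚ (IntermediateField.normalClosure ℚ L₀ Qbar) := normalClosure.normal ℚ L₀ Qbar
  set L₁ := IntermediateField.normalClosure ℚ L₀ Qbar
  have : Normal ℚ ↥(L ⊔ L₁) :=
    @IntermediateField.normal_sup ℚ Qbar _ _ _ L L₁ hLG.to_normal inferInstance
  have : IsGalois ℚ ↥(L ⊔ L₁) := ⟨⟩
  let π : GQ → EndMod ρ' → EndMod ρ := fun g x => (θ g (show X from x) : X)
  have hπ : ∀ (σ g : GQ) (φ : EndMod ρ → Qbar), tw σ (φ ∘ π g) = tw σ φ ∘ π (g * σ⁻¹) :=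
    fun σ g φ => funext fun x => by
      simp only [tw_apply, Function.comp_apply, π]
      congr 2
      show (θ g (ρ' σ⁻¹ (show X from x))) = ρ σ⁻¹ (θ (g * σ⁻¹) (show X from x))
      rw [hρ', ← hcomm, map_mul]
      rfl
  set Ψ : Set (EndMod ρ' → Qbar) := {f | ∃ g, ∃ φ ∈ Φ, f = φ ∘ π g}
  have hfix : ∀ σ ∈ (L ⊔ L₁).fixingSubgroup, σ ∈ L.fixingSubgroup ∧ θ σ = 1 := fun σ hσ =>
    ⟨IntermediateField.fixingSubgroup_antitone le_sup_left hσ,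
      hθL σ (IntermediateField.fixingSubgroup_antitone
        ((L₀.le_normalClosure).trans le_sup_right) hσ)⟩
  have hπ1 : ∀ g σ : GQ, θ σ = 1 → π (g * σ⁻¹) = π g := fun g σ hσ => funext fun x => by
    have : θ σ⁻¹ = 1 := by
      have h1 : θ σ⁻¹ * θ σ = 1 := by rw [← map_mul, inv_mul_cancel, map_one]
      rwa [hσ, mul_one] at h1
    show θ (g * σ⁻¹) (show X from x) = θ g (show X from x)
    rw [map_mul, this, mul_one]
  refine ⟨L ⊔ L₁, Ψ, inferInstance, inferInstance, fun σ hσ x => ?_, ?_, ?_, ?_, ?_, ?_, ?_⟩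
  · obtain ⟨h1, h2⟩ := hfix σ hσ
    show ρ' σ (show X from x) = (show X from x)
    rw [hρ', h2]
    exact hΦ.fixedM σ h1 x
  · rintro σ hσ _ ⟨g, φ, hφ, rfl⟩
    obtain ⟨h1, h2⟩ := hfix σ hσ
    rw [hπ, hΦ.fixed σ h1 φ hφ, hπ1 g σ h2]
  · rintro _ ⟨g, φ, hφ, rfl⟩ x
    exact hΦ.integral φ hφ _
  · intro x y hxy
    obtain ⟨φ, hφ, hne⟩ := hΦ.separated (π 1 x) (π 1 y) (by
      show ¬ θ 1 (show X from x) = θ 1 (show X from y)
      rw [map_one]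
      exact hxy)
    exact ⟨_, ⟨1, φ, hφ, rfl⟩, hne⟩
  · rintro σ hσ _ ⟨g, φ, hφ, rfl⟩
    rw [hπ, hΦ.inertia σ hσ φ hφ, hπ1 g σ (hin A hA σ hσ)]
  · rintro σ hσ _ ⟨g, φ, hφ, rfl⟩
    rw [hπ]
    refine pullAlg_mem_adjoin _ (fun f hf => ?_) (hΦ.decomposition σ hσ φ hφ)
    exact Algebra.subset_adjoin (show f ∘ π (g * σ⁻¹) ∈ Ψ from ⟨_, f, hf, rfl⟩)
  · rintro _ ⟨g, φ, hφ, rfl⟩
    rw [show (fun q : EndMod ρ' × EndMod ρ' => (φ ∘ π g) (q.1 + q.2)) =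
      (fun q : EndMod ρ × EndMod ρ => φ (q.1 + q.2)) ∘ Prod.map (π g) (π g) from
      funext fun q => congrArg φ (map_add (θ g) _ _)]
    refine pullAlg_mem_adjoin _ ?_ (hΦ.add φ hφ)
    rintro _ (⟨a, ha, rfl⟩ | ⟨a, ha, rfl⟩)
    · exact Algebra.subset_adjoin (Or.inl ⟨_, ⟨g, a, ha, rfl⟩, rfl⟩)
    · exact Algebra.subset_adjoin (Or.inr ⟨_, ⟨g, a, ha, rfl⟩, rfl⟩)

end FermatAgent.Flat
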