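import Mathlib.RingTheory.Valuation.ValuationSubring
import Mathlib.LinearAlgebra.Matrix.NonsingularInverse
import Mathlib.LinearAlgebra.FiniteDimensional.Basic
import Mathlib.Algebra.MvPolynomial.Funext
import Mathlib.LinearAlgebra.FiniteDimensional.Lemmas
import Mathlib.LinearAlgebra.Matrix.ToLin
import Mathlib.Algebra.Algebra.Subalgebra.Basic

/-!
# Matrices over an algebra of integral functions on a finite set
-/

set_option autoImplicit false

noncomputable section

open Matrix Module

namespace FermatAgent.Flat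

section Generic

variable {k : Type*} [Field k] [Infinite k] {X : Type*} [Finite X] {m n : Type*} [Fintype m]
  [Fintype n] [DecidableEq n]

/-- One matrix making finitely many full column rank matrices square and invertible. -/
theorem exists_generic_left (M : X → Matrix m n k)
    (h : ∀ x, Function.Injective (M x).mulVec) :
    ∃ G : Matrix n m k, ∀ x, (G * M x).det ≠ 0 := by
  classical
  have := Fintype.ofFinite X
  set GX : Matrix n m (MvPolynomial (n × m) k) := Matrix.of fun i j => MvPolynomial.X (i, j)
  set p : X → MvPolynomial (n × m) k := fun x => (GX * (M x).map MvPolynomial.C).det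
  have hev : ∀ (x : X) (g : n × m → k),
      MvPolynomial.eval g (p x) = (Matrix.of (fun i j => g (i, j)) * M x).det := fun x g => by
    rw [RingHom.map_det, RingHom.mapMatrix_apply, Matrix.map_mul]
    congr 2
    · ext i j; simp [GX]
    · ext i j; simp
  have hp : ∀ x, p x ≠ 0 := fun x h0 => by
    classical
    obtain ⟨f, hf⟩ := (M x).mulVecLin.exists_leftInverse_of_injective
      (LinearMap.ker_eq_bot.2 (h x))
    obtain ⟨G, hG⟩ : ∃ G : Matrix n m k, G * M x = 1 := ⟨LinearMap.toMatrix' f, by
      have h1 := congrArg LinearMap.toMatrix' hf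
      rwa [LinearMap.toMatrix'_comp, LinearMap.toMatrix'_id, ← Matrix.toLin'_apply',
        LinearMap.toMatrix'_toLin'] at h1⟩
    have := hev x fun q => G q.1 q.2
    rw [h0, map_zero, show (Matrix.of fun i j => G i j) = G from rfl, hG, Matrix.det_one] at this
    exact zero_ne_one this
  obtain ⟨g, hg⟩ : ∃ g, MvPolynomial.eval g (∏ x, p x) ≠ 0 := by
    by_contra hall
    push Not at hall
    exact Finset.prod_ne_zero_iff.2 (fun x _ => hp x)
      (MvPolynomial.funext fun g => (hall g).trans (map_zero _).symm)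
  rw [map_prod, Finset.prod_ne_zero_iff] at hg
  exact ⟨Matrix.of fun i j => g (i, j), fun x => hev x g ▸ hg x (Finset.mem_univ x)⟩

end Generic

/-- Finitely many coordinates separate a finite-dimensional space. -/
theorem exists_finset_separating {k V : Type*} [Field k] [AddCommGroup V] [Module k V]
    [FiniteDimensional k V] {I : Type*} (c : I → V →ₗ[k] k)
    (h : ∀ v, (∀ i, c i v = 0) → v = 0) :
    ∃ s : Finset I, ∀ v, (∀ i ∈ s, c i v = 0) → v = 0 := by
  classical
  suffices key : ∀ (d : ℕ) (W : Submodule k V), finrank k W ≤ d →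
      ∃ s : Finset I, ∀ v ∈ W, (∀ i ∈ s, c i v = 0) → v = 0 by
    obtain ⟨s, hs⟩ := key _ ⊤ le_rfl
    exact ⟨s, fun v hv => hs v Submodule.mem_top hv⟩
  intro d
  induction d with
  | zero =>
    intro W hW
    exact ⟨∅, fun v hv _ => by
      rw [Submodule.finrank_eq_zero.1 (Nat.le_zero.1 hW)] at hv; exact (Submodule.mem_bot k).1 hv⟩
  | succ d ih =>
    intro W hW
    by_cases hW0 : W = ⊥
    · exact ⟨∅, fun v hv _ => by rw [hW0] at hv; exact (Submodule.mem_bot k).1 hv⟩
    obtain ⟨w, hw, hw0⟩ := W.ne_bot_iff.1 hW0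
    obtain ⟨i, hi⟩ : ∃ i, c i w ≠ 0 := by
      by_contra hall
      push Not at hall
      exact hw0 (h w hall)
    have hlt : W ⊓ LinearMap.ker (c i) < W := lt_of_le_of_ne inf_le_left fun e => hi (by
      have : w ∈ W ⊓ LinearMap.ker (c i) := e.symm ▸ hw
      exact this.2)
    obtain ⟨s, hs⟩ := ih _ (Nat.le_of_lt_succ
      ((Submodule.finrank_lt_finrank_of_lt hlt).trans_le hW))
    exact ⟨insert i s, fun v hv h0 => hs v ⟨hv, h0 i (Finset.mem_insert_self i s)⟩
      fun j hj => h0 j (Finset.mem_insert_of_mem hj)⟩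

section Integral

variable {K : Type*} [Field K] {A : ValuationSubring K} {k : Type*} [Field k] {ρ : A →+* k}

/-- An element with nonzero reduction is a unit. -/
theorem isUnit_of_rho_ne_zero (hker : ∀ a : A, ρ a = 0 ↔ ¬IsUnit a) {a : A} (h : ρ a ≠ 0) :
    IsUnit a := by
  by_contra hu
  exact h ((hker a).2 hu)

variable {X : Type*} [Finite X] (H : Subalgebra A (X → K)) (hint : ∀ f ∈ H, ∀ x, f x ∈ A)

/-- Unit-valued functions are invertible in the algebra. -/
theorem exists_inverse_mem {d : X → K} (hd : d ∈ H)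
    (hu : ∀ x, ∃ u : Aˣ, ((u : A) : K) = d x) : ∃ e ∈ H, ∀ x, e x * d x = 1 := by
  classical
  have := Fintype.ofFinite X
  choose u hu using hu
  suffices key : ∀ s : Finset X, ∃ q ∈ H, ∀ x ∈ s, q x * d x = 1 by
    obtain ⟨q, hq, he⟩ := key Finset.univ
    exact ⟨q, hq, fun x => he x (Finset.mem_univ x)⟩
  intro s
  induction s using Finset.induction_on with
  | empty => exact ⟨0, zero_mem _, fun x hx => absurd hx (Finset.notMem_empty x)⟩
  | insert a s ha ih =>
    obtain ⟨q, hq, he⟩ := ih
    refine ⟨q + algebraMap A (X → K) (↑(u a)⁻¹ : A) * (1 - q * d),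
      add_mem hq (mul_mem (Subalgebra.algebraMap_mem H _) (sub_mem (one_mem _) (mul_mem hq hd))),
      fun x hx => ?_⟩
    have h1 : ((↑(u a)⁻¹ : A) : K) * d a = 1 := by
      rw [← hu a, ← MulMemClass.coe_mul, Units.inv_mul]; rfl
    show (q x + ((↑(u a)⁻¹ : A) : K) * (1 - q x * d x)) * d x = 1
    rcases Finset.mem_insert.1 hx with rfl | hx
    · linear_combination (1 - q x * d x) * h1
    · linear_combination (1 - d x * ((↑(u a)⁻¹ : A) : K)) * he x hx

include hint in
/-- A matrix of integral functions with injective reductions has a left inverse of the same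
kind. -/
theorem exists_left_inverse_mem [Infinite k] (hsurj : Function.Surjective ρ)
    (hker : ∀ a : A, ρ a = 0 ↔ ¬IsUnit a) {m n : Type*} [Fintype m] [Fintype n] [DecidableEq n]
    (M : m → n → (X → K)) (hM : ∀ i j, M i j ∈ H)
    (hinj : ∀ x (v : n → k), (∀ i, ∑ j, ρ ⟨M i j x, hint _ (hM i j) x⟩ * v j = 0) → v = 0) :
    ∃ Q : n → m → (X → K), (∀ i j, Q i j ∈ H) ∧
      ∀ x (v : n → K) (i : n), ∑ l, Q i l x * ∑ j, M l j x * v j = v i := by
  classical
  have := Fintype.ofFinite X
  obtain ⟨G, hG⟩ := exists_generic_left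
    (fun x => Matrix.of fun i j => ρ ⟨M i j x, hint _ (hM i j) x⟩) fun x u v huv => by
      refine sub_eq_zero.1 (hinj x _ fun i => ?_)
      have h := congrFun huv i
      simp only [mulVec, dotProduct, Matrix.of_apply] at h
      simp only [Pi.sub_apply, mul_sub, Finset.sum_sub_distrib, h, sub_self]
  choose g hg using fun i j => hsurj (G i j)
  let N : Matrix n n H := Matrix.of fun i j =>
    ∑ l, algebraMap A H (g i l) * ⟨M l j, hM l j⟩
  let evx : X → H →+* A := fun x =>
    ((Pi.evalRingHom (fun _ : X => K) x).comp H.val.toRingHom).codRestrict A.toSubring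
      fun f => hint _ f.2 x
  have hN : ∀ x, N.map (evx x) =
      (Matrix.of g) * Matrix.of fun l j => (⟨M l j x, hint _ (hM l j) x⟩ : A) := fun x => by
    ext i j
    simp only [Matrix.map_apply, N, Matrix.of_apply, map_sum, map_mul, Matrix.mul_apply]
    rfl
  have hdet : ∀ x, IsUnit (evx x N.det) := fun x => by
    refine isUnit_of_rho_ne_zero hker ?_
    have h1 : evx x N.det = (N.map (evx x)).det := RingHom.map_det (evx x) N
    rw [h1, hN, RingHom.map_det, RingHom.mapMatrix_apply, Matrix.map_mul]
    convert hG x using 3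
    · ext i j; exact hg i j
    · ext i j; rfl
  obtain ⟨e, heH, he⟩ := exists_inverse_mem H N.det.2 fun x => ⟨(hdet x).unit, rfl⟩
  let QH : Matrix n m H :=
    (⟨e, heH⟩ : H) • (N.adjugate * Matrix.of fun i l => algebraMap A H (g i l))
  refine ⟨fun i l => (QH i l : X → K), fun i l => (QH i l).2, fun x v i => ?_⟩
  have hQM : QH * Matrix.of (fun l j => (⟨M l j, hM l j⟩ : H)) = 1 := by
    simp only [QH, Matrix.smul_mul, Matrix.mul_assoc]
    rw [show (Matrix.of fun i l => algebraMap A H (g i l)) *
        Matrix.of (fun l j => (⟨M l j, hM l j⟩ : H)) = N from rfl,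
      Matrix.adjugate_mul, smul_smul,
      show (⟨e, heH⟩ : H) * N.det = 1 from Subtype.ext (funext he), one_smul]
  have h2 := congrArg (fun P : Matrix n n H => P.map fun f : H => (f : X → K) x) hQM
  calc ∑ l, (QH i l : X → K) x * ∑ j, M l j x * v j
      = ∑ j, (∑ l, (QH i l : X → K) x * M l j x) * v j := by
        simp only [Finset.mul_sum, Finset.sum_mul, mul_assoc]
        exact Finset.sum_comm
    _ = ∑ j, (if i = j then 1 else 0) * v j := by
        refine Finset.sum_congr rfl fun j _ => ?_
        have h3 := congrFun (congrFun h2 i) j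
        simp only [Matrix.map_apply, Matrix.mul_apply, Matrix.one_apply, Matrix.of_apply,
          AddSubmonoidClass.coe_finsetSum, MulMemClass.coe_mul, Finset.sum_apply,
          Pi.mul_apply] at h3
        rw [h3]
        split_ifs <;> rfl
    _ = v i := by simp

end Integral

end FermatAgent.Flat
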