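import Fermat.Agent.Flat.Lattice

/-!
# A finite flat model from a coordinate system
-/

set_option autoImplicit false

noncomputable section

open Module FermatAgent.GaloisBasic

namespace FermatAgent.Flat

variable {M : Type} [AddCommGroup M] [DistribMulAction GQ M]
variable {ℓ : ℕ} [Fact ℓ.Prime] {A : ValuationSubring Qbar} (hA : A.LiesOverPrime ℓ)
variable (Φ : Set (M → Qbar))

local notation "Rℓ" => GaloisRep.ratLocalizedAt ℓ

/-- The invariant elements of the coordinate ring, as an algebra over `ℤ_(ℓ)`. -/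
def invAlg : Subalgebra Rℓ (M → Qbar) where
  carrier := invSet A Φ
  mul_mem' {f g} hf hg := ⟨mul_mem hf.1 hg.1, fun σ => by rw [map_mul, hf.2, hg.2]⟩
  one_mem' := ⟨one_mem _, fun σ => map_one _⟩
  add_mem' {f g} hf hg := ⟨add_mem hf.1 hg.1, fun σ => by rw [map_add, hf.2, hg.2]⟩
  zero_mem' := ⟨zero_mem _, fun σ => map_zero _⟩
  algebraMap_mem' r := by
    refine ⟨?_, fun σ => funext fun x => ?_⟩
    · exact Subalgebra.algebraMap_mem (Algebra.adjoin A Φ)
        (⟨_, algebraMap_mem_place hA r⟩ : A)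
    · exact σ.commutes (r : ℚ)

omit [Fact (Nat.Prime ℓ)] in
theorem ratLocalizedAt_algebraMap_injective :
    Function.Injective (algebraMap Rℓ Qbar) :=
  (algebraMap ℚ Qbar).injective.comp Subtype.val_injective

/-- `X` with the action `act` is the group of geometric points of a finite flat commutative group
scheme over `ℤ_(ℓ)`. -/
def HasFlatModel (ℓ : ℕ) (X : Type) [AddCommGroup X] (act : GQ → X → X) : Prop :=
  ∃ (H : Type) (_ : CommRing H) (_ : HopfAlgebra (GaloisRep.ratLocalizedAt ℓ) H),
    Module.Finite (GaloisRep.ratLocalizedAt ℓ) H ∧ Module.Flat (GaloisRep.ratLocalizedAt ℓ) H ∧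
    Coalgebra.IsCocomm (GaloisRep.ratLocalizedAt ℓ) H ∧
    ∃ e : WithConv (H →ₐ[GaloisRep.ratLocalizedAt ℓ] Qbar) ≃ X,
      (∀ f g, e (f * g) = e f + e g) ∧
      ∀ (σ : GQ) (f g : WithConv (H →ₐ[GaloisRep.ratLocalizedAt ℓ] Qbar)),
        (∀ x : H, g.ofConv x = σ (f.ofConv x)) → e g = act σ (e f)

variable {Φ} {L : IntermediateField ℚ Qbar} [FiniteDimensional ℚ L] [IsGalois ℚ L] [Finite M]
include hA

omit [FiniteDimensional ℚ L] [IsGalois ℚ L] in
/-- The trace pairings with a spanning family of invariant functions are injective coordinates on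
the invariant functions with values in `ℤ_(ℓ)`. -/
theorem exists_traceCoord (h : IsCoordSystem L A Φ) {t : Set (M → Qbar)} [Fintype t]
    (ht : t ⊆ (invAlg hA Φ : Set (M → Qbar))) (htsp : Submodule.span Qbar t = ⊤) :
    ∃ C : invAlg hA Φ →ₗ[Rℓ] (t → Rℓ), Function.Injective C := by
  classical
  have := Fintype.ofFinite M
  set S := invAlg hA Φ
  have hr : ∀ (f : S) (g : t),
      ∃ r : Rℓ, algebraMap Rℓ Qbar r = ∑ x, (f : M → Qbar) x * (g : M → Qbar) x := fun f g => by
    refine exists_of_mem_of_fixed hA (sum_mem fun x _ => mul_mem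
      (h.mem_adjoin_integral f.2.1 x) (h.mem_adjoin_integral (ht g.2).1 x)) fun σ => ?_
    rw [map_sum]
    refine Fintype.sum_equiv (MulAction.toPerm σ) _ _ fun x => ?_
    have e1 := congrFun (f.2.2 σ) (σ • x)
    have e2 := congrFun ((ht g.2).2 σ) (σ • x)
    rw [tw_apply, inv_smul_smul] at e1 e2
    rw [map_mul, e1, e2]
    rfl
  choose r hr using hr
  let C : S →ₗ[Rℓ] (t → Rℓ) :=
    { toFun := fun f g => r f g
      map_add' := fun f f' => funext fun g => ratLocalizedAt_algebraMap_injective (by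
        rw [Pi.add_apply, map_add, hr, hr, hr, ← Finset.sum_add_distrib]
        exact Finset.sum_congr rfl fun x _ => add_mul _ _ _)
      map_smul' := fun c f => funext fun g => ratLocalizedAt_algebraMap_injective (by
        rw [RingHom.id_apply, Pi.smul_apply, smul_eq_mul, map_mul, hr, hr, Finset.mul_sum]
        refine Finset.sum_congr rfl fun x _ => ?_
        rw [← mul_assoc]
        congr 1
        rw [SetLike.val_smul, Pi.smul_apply, Algebra.smul_def]) }
  have hCinj : Function.Injective C := by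
    rw [← LinearMap.ker_eq_bot, LinearMap.ker_eq_bot']
    intro f hf
    have horth : ∀ v ∈ Submodule.span Qbar t, ∑ x, (f : M → Qbar) x * v x = 0 := fun v hv => by
      induction hv using Submodule.span_induction with
      | mem v hv =>
        have := congrArg (algebraMap Rℓ Qbar) (congrFun hf ⟨v, hv⟩)
        rwa [show C f ⟨v, hv⟩ = r f ⟨v, hv⟩ from rfl, hr, Pi.zero_apply, map_zero] at this
      | zero => simp
      | add v w _ _ hv hw => simp [mul_add, Finset.sum_add_distrib, hv, hw]
      | smul a v _ hv =>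
        simp only [Pi.smul_apply, smul_eq_mul, mul_left_comm _ a, ← Finset.mul_sum, hv, mul_zero]
    refine Subtype.ext (funext fun x => ?_)
    have := horth (Pi.single x 1) (htsp ▸ Submodule.mem_top)
    rwa [Finset.sum_eq_single x (fun y _ hy => by rw [Pi.single_eq_of_ne hy, mul_zero])
      (fun hx => absurd (Finset.mem_univ x) hx), Pi.single_eq_same, mul_one] at this
  exact ⟨C, hCinj⟩

/-- The invariant integral functions are a free `ℤ_(ℓ)`-module of rank the order of `M`. -/
theorem exists_invAlg_basis (h : IsCoordSystem L A Φ) :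
    ∃ (n : ℕ) (b : Basis (Fin n) Rℓ (invAlg hA Φ)),
      LinearIndependent Qbar (fun i => (b i : M → Qbar)) ∧ n = Nat.card M := by
  classical
  have := Fintype.ofFinite M
  set S := invAlg hA Φ
  obtain ⟨m, hm, hmS⟩ := h.exists_mul_mem_invSpan
  have hmono : ∀ v ∈ invSpan A Φ, v ∈ Submodule.span Qbar (S : Set (M → Qbar)) := fun v hv =>
    Submodule.span_subset_span A Qbar _ hv
  have hsp : Submodule.span Qbar (S : Set (M → Qbar)) = ⊤ := by
    rw [eq_top_iff]
    intro f _
    rw [← Finset.univ_sum_single f]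
    refine Submodule.sum_mem _ fun x _ => ?_
    have h1 := Submodule.smul_mem _ (f x * (m : Qbar)⁻¹)
      (hmono _ (hmS (Pi.single x 1) fun y => by
        rcases eq_or_ne y x with rfl | hy
        · rw [Pi.single_eq_same]; exact one_mem A
        · rw [Pi.single_eq_of_ne hy]; exact zero_mem A))
    rwa [smul_smul, mul_assoc, inv_mul_cancel₀ (Int.cast_ne_zero.2 hm), mul_one,
      ← Pi.single_smul, smul_eq_mul, mul_one] at h1
  obtain ⟨t, ht, htsp, htli⟩ := exists_linearIndependent Qbar (S : Set (M → Qbar))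
  rw [hsp] at htsp
  have : Fintype t := (htli.setFinite).fintype
  obtain ⟨C, hCinj⟩ := exists_traceCoord hA h ht htsp
  obtain ⟨n, b'⟩ := Submodule.basisOfPid (Pi.basisFun Rℓ t) (LinearMap.range C)
  let b : Basis (Fin n) Rℓ S := b'.map (LinearEquiv.ofInjective C hCinj).symm
  have htcard : Fintype.card t = Nat.card M := by
    have h1 := (Basis.mk htli (by rw [Subtype.range_coe]; exact htsp.ge))
    rw [← Module.finrank_eq_card_basis h1, Module.finrank_pi, Nat.card_eq_fintype_card]
  have hspan : (⊤ : Submodule Qbar (M → Qbar)) ≤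
      Submodule.span Qbar (Set.range fun i => (b i : M → Qbar)) := by
    rw [← hsp]
    refine Submodule.span_le.2 fun f hf => ?_
    rw [show f = ((⟨f, hf⟩ : S) : M → Qbar) from rfl, ← b.sum_repr ⟨f, hf⟩,
      AddSubmonoidClass.coe_finsetSum]
    refine Submodule.sum_mem _ fun i _ => ?_
    rw [SetLike.val_smul, ← algebraMap_smul Qbar]
    exact Submodule.smul_mem _ _ (Submodule.subset_span ⟨i, rfl⟩)
  have hge : Nat.card M ≤ n := by
    have h1 := finrank_range_le_card (R := Qbar) (fun i => (b i : M → Qbar))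
    rw [Set.finrank, top_le_iff.1 hspan, finrank_top, Module.finrank_pi, Fintype.card_fin] at h1
    rwa [Nat.card_eq_fintype_card]
  have hle : n ≤ Nat.card M := by
    have h1 := Fintype.card_fin n ▸ (Module.finrank_eq_card_basis b').symm ▸
      (LinearMap.range C).finrank_le
    rwa [Module.finrank_pi, htcard] at h1
  refine ⟨n, b, linearIndependent_of_top_le_span_of_card_eq_finrank hspan ?_, le_antisymm hle hge⟩
  rw [Fintype.card_fin, Module.finrank_pi, ← Nat.card_eq_fintype_card]
  exact le_antisymm hle hge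

/-- The coordinate ring is spanned by a basis of invariant elements. -/
theorem mem_span_basis (h : IsCoordSystem L A Φ) {n : ℕ} (b : Basis (Fin n) Rℓ (invAlg hA Φ))
    {f : M → Qbar} (hf : f ∈ Algebra.adjoin A Φ) :
    f ∈ Submodule.span A (Set.range fun i => (b i : M → Qbar)) := by
  classical
  refine Submodule.span_le.2 (fun g (hg : g ∈ invSet A Φ) => ?_)
    (h.adjoin_le_invSpan (Fact.out : ℓ.Prime) hA hf)
  rw [show g = ((⟨g, hg⟩ : invAlg hA Φ) : M → Qbar) from rfl, ← b.sum_repr ⟨g, hg⟩,
    AddSubmonoidClass.coe_finsetSum]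
  refine Submodule.sum_mem _ fun i _ => ?_
  rw [show ((b.repr ⟨g, hg⟩ i • b i : invAlg hA Φ) : M → Qbar) =
    (⟨_, algebraMap_mem_place hA (b.repr ⟨g, hg⟩ i)⟩ : A) • (b i : M → Qbar) from
      funext fun x => by rw [SetLike.val_smul, Pi.smul_apply, Algebra.smul_def]; rfl]
  exact Submodule.smul_mem _ _ (Submodule.subset_span ⟨i, rfl⟩)

/-- Addition in terms of a basis of invariant elements. -/
theorem exists_add_eq (h : IsCoordSystem L A Φ) {n : ℕ} (b : Basis (Fin n) Rℓ (invAlg hA Φ))
    {f : M → Qbar} (hf : f ∈ Algebra.adjoin A Φ) :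
    ∃ c : Fin n × Fin n → A, ∀ x y : M,
      f (x + y) = ∑ p : Fin n × Fin n,
        (c p : Qbar) * ((b p.1 : M → Qbar) x * (b p.2 : M → Qbar) y) := by
  classical
  set F := (Subalgebra.toSubmodule (Algebra.adjoin A Φ)).map
    (pullAlg A Qbar (Prod.fst : M × M → M)).toLinearMap
  set G := (Subalgebra.toSubmodule (Algebra.adjoin A Φ)).map
    (pullAlg A Qbar (Prod.snd : M × M → M)).toLinearMap
  set v : Fin n × Fin n → (M × M → Qbar) :=
    fun p q => (b p.1 : M → Qbar) q.1 * (b p.2 : M → Qbar) q.2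
  have hFG : F * G ≤ Submodule.span A (Set.range v) := by
    have hle : Subalgebra.toSubmodule (Algebra.adjoin A Φ) ≤
        Submodule.span A (Set.range fun i => (b i : M → Qbar)) :=
      fun _ => mem_span_basis hA h b
    refine le_trans (mul_le_mul' (Submodule.map_mono hle) (Submodule.map_mono hle)) ?_
    rw [Submodule.map_span, Submodule.map_span, Submodule.span_mul_span]
    refine Submodule.span_mono ?_
    rintro _ ⟨_, ⟨_, ⟨i, rfl⟩, rfl⟩, _, ⟨_, ⟨j, rfl⟩, rfl⟩, rfl⟩
    exact ⟨(i, j), rfl⟩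
  have hFF : ∀ X ∈ ({F, G} : Set (Submodule A (M × M → Qbar))),
      X * X ≤ X ∧ (1 : M × M → Qbar) ∈ X := by
    rintro X (rfl | rfl) <;>
    refine ⟨Submodule.mul_le.2 ?_, ⟨1, (Algebra.adjoin A Φ).one_mem, rfl⟩⟩ <;>
    rintro _ ⟨a, ha, rfl⟩ _ ⟨c, hc, rfl⟩ <;>
    exact ⟨a * c, (Algebra.adjoin A Φ).mul_mem ha hc, rfl⟩
  let W : Subalgebra A (M × M → Qbar) := (F * G).toSubalgebra
    (by simpa using Submodule.mul_mem_mul (hFF F (Or.inl rfl)).2 (hFF G (Or.inr rfl)).2)
    (fun a c ha hc => by
      have := Submodule.mul_mem_mul ha hc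
      rw [mul_mul_mul_comm] at this
      exact mul_le_mul' (hFF F (Or.inl rfl)).1 (hFF G (Or.inr rfl)).1 this)
  have hgen : ∀ g ∈ Algebra.adjoin A Φ, pullAlg A Qbar (fun p : M × M => p.1 + p.2) g ∈ W := by
    intro g hg
    induction hg using Algebra.adjoin_induction with
    | mem φ hφ =>
      refine Algebra.adjoin_le ?_ (h.add φ hφ)
      rintro _ (⟨a, ha, rfl⟩ | ⟨a, ha, rfl⟩)
      · show pullAlg A Qbar Prod.fst a ∈ F * G
        simpa using Submodule.mul_mem_mul (M := F) (N := G)
          ⟨a, Algebra.subset_adjoin ha, rfl⟩ (hFF G (Or.inr rfl)).2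
      · show pullAlg A Qbar Prod.snd a ∈ F * G
        simpa using Submodule.mul_mem_mul (M := F) (N := G)
          (hFF F (Or.inl rfl)).2 ⟨a, Algebra.subset_adjoin ha, rfl⟩
    | algebraMap a => rw [AlgHom.commutes]; exact Subalgebra.algebraMap_mem W a
    | add a c _ _ ha hc => rw [map_add]; exact add_mem ha hc
    | mul a c _ _ ha hc => rw [map_mul]; exact mul_mem ha hc
  obtain ⟨c, hc⟩ := (Submodule.mem_span_range_iff_exists_fun A).1 (hFG (hgen f hf))
  refine ⟨c, fun x y => ?_⟩
  rw [show f (x + y) = (∑ p, c p • v p) (x, y) from (congrFun hc.symm (x, y)), Finset.sum_apply]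
  rfl

/-- Addition on the invariant functions, with coefficients in `ℤ_(ℓ)`. -/
theorem exists_invAlg_add (h : IsCoordSystem L A Φ) {n : ℕ} (b : Basis (Fin n) Rℓ (invAlg hA Φ))
    (hli : LinearIndependent Qbar (fun i => (b i : M → Qbar))) {f : M → Qbar}
    (hf : f ∈ invAlg hA Φ) :
    ∃ c : Fin n → Fin n → Rℓ, ∀ x y : M,
      f (x + y) = ∑ i, ∑ j, c i j • ((b i : M → Qbar) x * (b j : M → Qbar) y) := by
  set v : Fin n × Fin n → (M × M → Qbar) :=
    fun p q => (b p.1 : M → Qbar) q.1 * (b p.2 : M → Qbar) q.2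
  obtain ⟨c, hc'⟩ : ∃ c : Fin n × Fin n → A, ∀ x y : M,
      f (x + y) = ∑ p : Fin n × Fin n, (c p : Qbar) * v p (x, y) := exists_add_eq hA h b hf.1
  have hfix : ∀ p (σ : GQ), σ (c p : Qbar) = c p := fun p σ => by
    refine Fintype.linearIndependent_iffₛ.1 (linearIndependent_prod hli hli)
      (fun p => σ (c p : Qbar)) (fun p => (c p : Qbar)) (funext fun ⟨x, y⟩ => ?_) p
    simp only [Finset.sum_apply, Pi.smul_apply, smul_eq_mul]
    have e := congrArg σ (hc' (σ⁻¹ • x) (σ⁻¹ • y))
    simp only [v] at e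
    rw [← smul_add, map_sum, ← tw_apply, hf.2, hc'] at e
    simp only [v] at e
    refine Eq.trans (Finset.sum_congr rfl fun p _ => ?_) e.symm
    rw [map_mul, map_mul, ← tw_apply, ← tw_apply, (b p.1).2.2, (b p.2).2.2]
  choose r hr using fun p => exists_of_mem_of_fixed hA (c p).2 (hfix p)
  refine ⟨fun i j => r (i, j), fun x y => ?_⟩
  rw [hc', Fintype.sum_prod_type]
  refine Finset.sum_congr rfl fun i _ => Finset.sum_congr rfl fun j _ => ?_
  rw [Algebra.smul_def, hr]

/-- A finite Galois module with a coordinate system at a place over `ℓ` is the group of points of a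
finite flat commutative group scheme over `ℤ_(ℓ)`: its ring is that of the invariant integral
functions, with comultiplication read off from addition. -/
theorem exists_model (h : IsCoordSystem L A Φ) : HasFlatModel ℓ M (· • ·) := by
  classical
  set S := invAlg hA Φ
  obtain ⟨n, b, hli, hn⟩ := exists_invAlg_basis hA h
  -- addition
  have hadd : ∀ f ∈ S, ∃ c : Fin n → Fin n → Rℓ, ∀ x y : M,
      f (x + y) = ∑ i, ∑ j, c i j • ((b i : M → Qbar) x * (b j : M → Qbar) y) :=
    fun f hf => exists_invAlg_add hA h b hli hf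
  have hzero : ∀ f ∈ S, ∃ r : Rℓ, algebraMap Rℓ Qbar r = f 0 := fun f hf =>
    exists_of_mem_of_fixed hA (h.mem_adjoin_integral hf.1 0) fun σ => by
      conv_rhs => rw [← hf.2 σ, tw_apply, smul_zero]
  have hmul : ∀ k : ℕ, ∀ f ∈ S, (fun x => f (k • x)) ∈ S := by
    intro k
    induction k with
    | zero =>
      intro f hf
      obtain ⟨r, hr⟩ := hzero f hf
      simp only [zero_smul, ← hr]
      exact Subalgebra.algebraMap_mem S r
    | succ k ih =>
      intro f hf
      obtain ⟨c, hc⟩ := hadd f hf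
      have e : (fun x => f ((k + 1) • x)) = ∑ i, ∑ j,
          c i j • ((fun x => (b i : M → Qbar) (k • x)) * (b j : M → Qbar)) := funext fun x => by
        rw [succ_nsmul, hc]
        simp only [Finset.sum_apply, Pi.smul_apply, Pi.mul_apply]
      rw [e]
      exact sum_mem fun i _ => sum_mem fun j _ =>
        Subalgebra.smul_mem S (mul_mem (ih _ (b i).2) (b j).2) _
  have hneg : ∀ f ∈ S, (fun x => f (-x)) ∈ S := fun f hf => by
    have e : ∀ x : M, -x = (Nat.card M - 1) • x := fun x => by
      refine neg_eq_of_add_eq_zero_right ?_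
      rw [← succ_nsmul', Nat.sub_add_cancel Nat.card_pos, card_nsmul_eq_zero']
    simp only [e]
    exact hmul _ f hf
  obtain ⟨H, i1, i2, hfin, hflat, hco, ev, e, headd, hev⟩ :=
    exists_hopf_aux (K := Qbar) ratLocalizedAt_algebraMap_injective S b hli
      (by rw [Fintype.card_fin, hn]) hadd hneg hzero
  refine ⟨H, i1, i2, hfin, hflat, hco, e, headd, fun σ f g hg => ?_⟩
  have he : e.symm (σ • e f) = g := WithConv.ofConv_injective (AlgHom.ext fun x => by
    rw [hev, e.apply_symm_apply, hg, hev]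
    conv_lhs => rw [← (ev x).2.2 σ, tw_apply, inv_smul_smul])
  rw [← he, e.apply_symm_apply]

end FermatAgent.Flat
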