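import Mathlib.NumberTheory.Padics.PadicVal.Basic
import Fermat.Agent.Curve.Red.LevelN
import Fermat.Agent.GaloisBasic.Inertia
import Fermat.Prelude.Def_GaloisRep_Flat

/-!
# The ring `ℤ_(ℓ)` inside `ℚ̄`
-/

set_option autoImplicit false

noncomputable section

namespace FermatAgent.Flat

local notation "Qb" => AlgebraicClosure ℚ

variable {ℓ : ℕ} [hℓ : Fact ℓ.Prime]

theorem mem_ratLocalizedAt_of_val_nonneg {q : ℚ} (h : 0 ≤ padicValRat ℓ q) :
    q ∈ GaloisRep.ratLocalizedAt ℓ := by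
  show q.den.Coprime ℓ
  rw [Nat.coprime_comm, hℓ.out.coprime_iff_not_dvd]
  intro hd
  have hn : ¬ ℓ ∣ q.num.natAbs := fun hn =>
    hℓ.out.not_dvd_one (q.reduced ▸ Nat.dvd_gcd hn hd)
  rw [padicValRat_def, padicValInt, padicValNat.eq_zero_of_not_dvd hn] at h
  have := one_le_padicValNat_of_dvd q.den_nz hd
  omega

instance : IsPrincipalIdealRing (GaloisRep.ratLocalizedAt ℓ) := ⟨fun I => by
  classical
  by_cases hI : I = ⊥
  · exact ⟨0, by rw [hI]; simp⟩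
  obtain ⟨a, ha, ha0⟩ := Submodule.exists_mem_ne_zero_of_ne_bot hI
  have hval : ∀ b : GaloisRep.ratLocalizedAt ℓ, 0 ≤ padicValRat ℓ (b : ℚ) := fun b => by
    rw [padicValRat_def, padicValNat.eq_zero_of_not_dvd]
    · omega
    · exact hℓ.out.coprime_iff_not_dvd.mp (Nat.coprime_comm.mp b.2)
  have hex : ∃ n : ℕ, ∃ b ∈ I, b ≠ 0 ∧ (padicValRat ℓ (b : ℚ)).toNat = n :=
    ⟨_, a, ha, ha0, rfl⟩
  obtain ⟨b, hb, hb0, hbn⟩ := Nat.find_spec hex
  refine ⟨b, le_antisymm (fun c hc => ?_) ((Submodule.span_singleton_le_iff_mem _ _).2 hb)⟩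
  rcases eq_or_ne c 0 with rfl | hc0
  · exact Submodule.zero_mem _
  have hmin := Nat.find_min' hex ⟨c, hc, hc0, rfl⟩
  have hb' : (b : ℚ) ≠ 0 := fun h => hb0 (Subtype.ext h)
  have hc' : (c : ℚ) ≠ 0 := fun h => hc0 (Subtype.ext h)
  have h1 := hval b
  have h2 := hval c
  refine Submodule.mem_span_singleton.2 ⟨⟨(c : ℚ) / b, mem_ratLocalizedAt_of_val_nonneg ?_⟩,
    Subtype.ext (div_mul_cancel₀ _ hb')⟩
  rw [padicValRat.div hc' hb']
  omega⟩

variable {A : ValuationSubring (AlgebraicClosure ℚ)}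

/-- `ℤ_(ℓ)` lies in the place. -/
theorem algebraMap_mem_place (hA : A.LiesOverPrime ℓ) (r : GaloisRep.ratLocalizedAt ℓ) :
    algebraMap (GaloisRep.ratLocalizedAt ℓ) Qb r ∈ A :=
  (Curve.Red.mem_ratVal_iff hA).2 r.2

/-- Galois invariant elements of a place lie in `ℤ_(ℓ)`. -/
theorem exists_of_mem_of_fixed (hA : A.LiesOverPrime ℓ) {x : Qb} (hx : x ∈ A)
    (h : ∀ σ : Qb ≃ₐ[ℚ] Qb, σ x = x) :
    ∃ r : GaloisRep.ratLocalizedAt ℓ, algebraMap (GaloisRep.ratLocalizedAt ℓ) Qb r = x := by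
  obtain ⟨q, rfl⟩ := IntermediateField.mem_bot.1
    (GaloisBasic.mem_of_forall_fixing (L := ⊥) fun σ _ => h σ)
  exact ⟨⟨q, (Curve.Red.mem_ratVal_iff hA).1 hx⟩, rfl⟩

end FermatAgent.Flat
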