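import Fermat.Agent.Curve.ConstRed.RR
import Fermat.Agent.Flat.LinAlg
import Mathlib.RingTheory.LaurentSeries

/-!
# Charts of families of Riemann–Roch spaces under a constant reduction

A `Coef` gives series expansions over `K` and over the residue field compatible with a constant
reduction. Combinations of coefficients (`Funl`) that are injective on the reduced space of an
`Exact` divisor give a normalised integral basis of its space (`exists_normalised`,
`eq_sum_normalised`); over an algebraically closed residue field one combination serves any finite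
family of such divisors (`exists_funl`). Families of functions with all coefficients in a given
algebra of functions (`IsHS`) are closed under sums, scalars and products (`IsHS.mul`).
-/

set_option autoImplicit false

noncomputable section

open AlgebraicCurve Module FermatAgent.Curve

namespace FermatAgent.Flat

/-- Coefficient maps of a constant reduction. -/
structure Coef {K : Type*} [Field K] {A : ValuationSubring K} {k : Type*} [Field k] {ρ : A →+* k}
    {F Fb : Type*} [Field F] [Algebra K F] [Field Fb] [Algebra k Fb] [IsFF K F] [IsFF k Fb]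
    (S : ConstRed A ρ F Fb) where
  /-- the expansion -/
  ser : F →+* LaurentSeries K
  /-- the reduced expansion -/
  serb : Fb →+* LaurentSeries k
  ser_algebraMap : ∀ a : K, ser (algebraMap K F a) = HahnSeries.C a
  serb_algebraMap : ∀ a : k, serb (algebraMap k Fb a) = HahnSeries.C a
  /-- the divisor bounding the admissible poles -/
  B : Divisor K F
  B_nonneg : 0 ≤ B
  compat : ∀ (f : S.O) (n : ℕ), (f : F) ∈ riemannRochSpace (n • B) →
    ∀ e : ℤ, ∃ a : A, (a : K) = (ser f).coeff e ∧ ρ a = (serb (S.red f)).coeff e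

variable {K : Type*} [Field K] {A : ValuationSubring K} {k : Type*} [Field k] {ρ : A →+* k}
  {F Fb : Type*} [Field F] [Algebra K F] [Field Fb] [Algebra k Fb] [IsFF K F] [IsFF k Fb]
  {S : ConstRed A ρ F Fb} (Θ : Coef S)

namespace Coef

/-- A coefficient of the expansion. -/
def cf (e : ℤ) : F →ₗ[K] K where
  toFun f := (Θ.ser f).coeff e
  map_add' f g := by rw [map_add]; exact HahnSeries.coeff_add ..
  map_smul' a f := by
    rw [Algebra.smul_def, map_mul, Θ.ser_algebraMap, RingHom.id_apply, HahnSeries.C_mul_eq_smul,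
      HahnSeries.coeff_smul]

/-- A coefficient of the reduced expansion. -/
def cb (e : ℤ) : Fb →ₗ[k] k where
  toFun f := (Θ.serb f).coeff e
  map_add' f g := by rw [map_add]; exact HahnSeries.coeff_add ..
  map_smul' a f := by
    rw [Algebra.smul_def, map_mul, Θ.serb_algebraMap, RingHom.id_apply, HahnSeries.C_mul_eq_smul,
      HahnSeries.coeff_smul]

/-- A residual function with zero reduced coefficients is zero. -/
theorem eq_zero_of_cb {z : Fb} (h : ∀ e, Θ.cb e z = 0) : z = 0 :=
  Θ.serb.injective ((HahnSeries.ext (funext h)).trans (map_zero _).symm)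

/-- A function with zero coefficients is zero. -/
theorem eq_zero_of_cf {f : F} (h : ∀ e, Θ.cf e f = 0) : f = 0 :=
  Θ.ser.injective ((HahnSeries.ext (funext h)).trans (map_zero _).symm)

/-- Poles bounded by a multiple of `B`. -/
def Low (E : Divisor K F) : Prop := ∃ n : ℕ, E ≤ n • Θ.B

/-- Elements whose poles are bounded by a multiple of `B`. -/
def Reg (f : F) : Prop := ∃ n : ℕ, f ∈ riemannRochSpace (n • Θ.B)

theorem low_zero : Θ.Low 0 := ⟨0, by rw [zero_smul]⟩

variable {Θ} in
/-- `Low` passes to smaller divisors. -/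
theorem Low.mono {E E' : Divisor K F} (h : Θ.Low E) (hle : E' ≤ E) : Θ.Low E' :=
  h.imp fun _ hn => hle.trans hn

variable {Θ} in
/-- `Low` is closed under sums. -/
theorem Low.add {E E' : Divisor K F} (h : Θ.Low E) (h' : Θ.Low E') : Θ.Low (E + E') := by
  obtain ⟨n, hn⟩ := h
  obtain ⟨n', hn'⟩ := h'
  exact ⟨n + n', by rw [add_smul]; exact add_le_add hn hn'⟩

variable {Θ} in
/-- `Low` is closed under natural multiples. -/
theorem Low.nsmul {E : Divisor K F} (h : Θ.Low E) (j : ℕ) : Θ.Low (j • E) := by
  induction j with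
  | zero => rw [zero_smul]; exact Θ.low_zero
  | succ j ih => rw [succ_nsmul]; exact ih.add h

variable {Θ} in
/-- Elements of the space of a low divisor are regular. -/
theorem Low.reg {E : Divisor K F} (h : Θ.Low E) {f : F} (hf : f ∈ riemannRochSpace E) : Θ.Reg f :=
  h.imp fun _ hn => riemannRochSpace_le_of_le hn hf

variable {Θ} in
/-- Products of regular elements are regular. -/
theorem Reg.mul {f g : F} (hf : Θ.Reg f) (hg : Θ.Reg g) : Θ.Reg (f * g) := by
  obtain ⟨n, hn⟩ := hf
  obtain ⟨n', hn'⟩ := hg
  exact ⟨n + n', by rw [add_smul]; exact mul_mem_riemannRochSpace hn hn'⟩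

variable {Θ} in
/-- Scalar multiples of regular elements are regular. -/
theorem Reg.smul {f : F} (hf : Θ.Reg f) (a : K) : Θ.Reg (a • f) :=
  hf.imp fun _ hn => Submodule.smul_mem _ a hn

/-- The coefficients of regular integral elements are integral. -/
theorem cf_mem {f : S.O} (hf : Θ.Reg (f : F)) (e : ℤ) : Θ.cf e f ∈ A := by
  obtain ⟨n, hn⟩ := hf
  obtain ⟨a, ha, -⟩ := Θ.compat f n hn e
  show (Θ.ser f).coeff e ∈ A
  rw [← ha]; exact a.2

open scoped Classical in
/-- A coefficient of an integral element. -/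
def cfA (e : ℤ) (f : S.O) : A := if h : Θ.cf e f ∈ A then ⟨_, h⟩ else 0

/-- The value of `cfA` is the coefficient. -/
theorem coe_cfA (e : ℤ) {f : S.O} (hf : Θ.Reg (f : F)) : (Θ.cfA e f : K) = Θ.cf e f := by
  rw [cfA, dif_pos (Θ.cf_mem hf e)]

/-- The reduction of a coefficient is the coefficient of the reduction. -/
theorem rho_cfA (e : ℤ) {f : S.O} (hf : Θ.Reg (f : F)) : ρ (Θ.cfA e f) = Θ.cb e (S.red f) := by
  obtain ⟨n, hn⟩ := hf
  obtain ⟨a, ha, hb⟩ := Θ.compat f n hn e
  rw [show Θ.cfA e f = a from Subtype.ext ((Θ.coe_cfA e ⟨n, hn⟩).trans ha.symm), hb]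
  rfl

end Coef

/-- Finitely supported combinations of coefficients with integral weights. -/
structure Funl (A : ValuationSubring K) (d : ℕ) where
  /-- the exponents used -/
  E : Finset ℤ
  /-- the weights -/
  wt : Fin d → ℤ → A

variable {d : ℕ} (C : Funl A d)

/-- The combination as a functional. -/
def Funl.app (i : Fin d) : F →ₗ[K] K := ∑ e ∈ C.E, (C.wt i e : K) • Θ.cf e

/-- Its reduction. -/
def Funl.appb (i : Fin d) : Fb →ₗ[k] k := ∑ e ∈ C.E, ρ (C.wt i e) • Θ.cb e

/-- Its value at an integral element. -/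
def Funl.appA (i : Fin d) (f : S.O) : A := ∑ e ∈ C.E, C.wt i e * Θ.cfA e f

/-- The value of `appA` is the functional. -/
theorem Funl.coe_appA (i : Fin d) {f : S.O} (hf : Θ.Reg (f : F)) :
    (C.appA Θ i f : K) = C.app Θ i f := by
  simp only [Funl.appA, Funl.app, AddSubmonoidClass.coe_finsetSum, LinearMap.sum_apply,
    MulMemClass.coe_mul, LinearMap.smul_apply, smul_eq_mul, Θ.coe_cfA _ hf]

/-- The functionals commute with reduction. -/
theorem Funl.rho_appA (i : Fin d) {f : S.O} (hf : Θ.Reg (f : F)) :
    ρ (C.appA Θ i f) = C.appb Θ i (S.red f) := by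
  simp only [Funl.appA, Funl.appb, map_sum, map_mul, Θ.rho_cfA _ hf, LinearMap.sum_apply,
    LinearMap.smul_apply, smul_eq_mul]

/-- The reduction of the functionals is injective on a residual space. -/
def Funl.Bij (E : Divisor K F) : Prop :=
  ∀ z ∈ riemannRochSpace (Finsupp.mapDomain S.r E), (∀ i, C.appb Θ i z = 0) → z = 0

/-- The dimension of a space and of its reduction. -/
def Exact (E : Divisor K F) (d : ℕ) : Prop :=
  rrDim E = d ∧ rrDim (Finsupp.mapDomain S.r E) = d ∧ Θ.Low E

variable {C}

/-- An element of the space killed by all functionals is zero. -/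
theorem eq_zero_of_app {E : Divisor K F} (hE : Exact Θ E d) (hC : C.Bij Θ E) {f : F}
    (hf : f ∈ riemannRochSpace E) (h : ∀ i, C.app Θ i f = 0) : f = 0 := by
  by_contra hf0
  obtain ⟨l, g, hl, he, hg⟩ := S.exists_normal hf0
  have hgE : (g : F) ∈ riemannRochSpace E := by
    have := Submodule.smul_mem _ l⁻¹ hf
    rwa [he, Algebra.smul_def, ← mul_assoc, ← map_mul, inv_mul_cancel₀ hl, map_one, one_mul] at this
  refine hg (hC _ (S.red_mem hgE) fun i => ?_)
  have h1 := h i
  rw [he, ← Algebra.smul_def, map_smul, smul_eq_mul, mul_eq_zero] at h1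
  rw [← C.rho_appA Θ i (hE.2.2.reg hgE), show C.appA Θ i g = 0 from
    Subtype.ext ((C.coe_appA Θ i (hE.2.2.reg hgE)).trans (h1.resolve_left hl)), map_zero]

/-- Normalised bases. -/
theorem exists_normalised {E : Divisor K F} (hE : Exact Θ E d) (hC : C.Bij Θ E) :
    ∃ s : Fin d → S.O, (∀ i, (s i : F) ∈ riemannRochSpace E) ∧
      ∀ i j, C.app Θ j (s i : F) = if j = i then 1 else 0 := by
  classical
  obtain ⟨b₀, hb₀, hind₀⟩ := S.lattice (riemannRochSpace E) inferInstance
  set b : Fin d → S.O := b₀ ∘ Fin.cast hE.1.symm with hbdef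
  have hb : ∀ i, (b i : F) ∈ riemannRochSpace E := fun i => hb₀ _
  have hind : LinearIndependent k (fun i => S.red (b i)) :=
    hind₀.comp _ (Fin.cast_injective _)
  set M : Matrix (Fin d) (Fin d) A := Matrix.of fun j i => C.appA Θ j (b i)
  have hinj : Function.Injective (M.map ρ).mulVec := by
    intro v w hvw
    refine sub_eq_zero.1 (funext fun i => ?_)
    refine Fintype.linearIndependent_iff.1 hind (v - w) (hC _ (Submodule.sum_mem _ fun i _ =>
      Submodule.smul_mem _ _ (S.red_mem (hb i))) fun j => ?_) i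
    have h := congrFun hvw j
    simp only [Matrix.mulVec, dotProduct, Matrix.map_apply, M, Matrix.of_apply,
      C.rho_appA Θ _ (hE.2.2.reg (hb _))] at h
    simp only [map_sum, map_smul, smul_eq_mul, Pi.sub_apply, sub_mul, Finset.sum_sub_distrib]
    rw [sub_eq_zero]
    simpa only [mul_comm] using h
  have hdet : IsUnit M.det := by
    refine isUnit_of_rho_ne_zero S.ker_iff ?_
    rw [RingHom.map_det]
    exact ((Matrix.isUnit_iff_isUnit_det _).1 (Matrix.mulVec_injective_iff_isUnit.1 hinj)).ne_zero
  refine ⟨fun i => ∑ l, S.cst (M⁻¹ l i) * b l, fun i => ?_, fun i j => ?_⟩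
  · rw [AddSubmonoidClass.coe_finsetSum]
    refine Submodule.sum_mem _ fun l _ => ?_
    rw [MulMemClass.coe_mul, ConstRed.coe_cst, ← Algebra.smul_def]
    exact Submodule.smul_mem _ _ (hb l)
  · rw [AddSubmonoidClass.coe_finsetSum, map_sum]
    have h1 : ((M * M⁻¹) j i : A) = (1 : Matrix (Fin d) (Fin d) A) j i := by
      rw [Matrix.mul_nonsing_inv _ hdet]
    rw [Matrix.mul_apply, Matrix.one_apply] at h1
    have h2 := congrArg Subtype.val h1
    rw [AddSubmonoidClass.coe_finsetSum] at h2
    refine Eq.trans (Finset.sum_congr rfl fun l _ => ?_) (h2.trans (by split_ifs <;> rfl))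
    rw [MulMemClass.coe_mul, ConstRed.coe_cst, ← Algebra.smul_def, map_smul, smul_eq_mul,
      MulMemClass.coe_mul]
    simp only [M, Matrix.of_apply, C.coe_appA Θ _ (hE.2.2.reg (hb _))]
    ring

/-- The normalised basis is a basis. -/
theorem eq_sum_normalised {E : Divisor K F} (hE : Exact Θ E d) (hC : C.Bij Θ E) {s : Fin d → S.O}
    (hs : ∀ i, (s i : F) ∈ riemannRochSpace E)
    (hδ : ∀ i j, C.app Θ j (s i : F) = if j = i then 1 else 0) {f : F}
    (hf : f ∈ riemannRochSpace E) : f = ∑ i, C.app Θ i f • (s i : F) := by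
  classical
  refine sub_eq_zero.1 (eq_zero_of_app Θ hE hC (Submodule.sub_mem _ hf
    (Submodule.sum_mem _ fun i _ => Submodule.smul_mem _ _ (hs i))) fun j => ?_)
  simp [map_sum, hδ]

/-- The reduced normalised basis is a basis of the residual space. -/
theorem red_eq_sum_normalised {E : Divisor K F} (hlow : Θ.Low E) (hC : C.Bij Θ E)
    {s : Fin d → S.O} (hs : ∀ i, (s i : F) ∈ riemannRochSpace E)
    (hδ : ∀ i j, C.app Θ j (s i : F) = if j = i then 1 else 0) {z : Fb}
    (hz : z ∈ riemannRochSpace (Finsupp.mapDomain S.r E)) :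
    z = ∑ i, C.appb Θ i z • S.red (s i) := by
  classical
  have hδb : ∀ i j, C.appb Θ j (S.red (s i)) = if j = i then 1 else 0 := fun i j => by
    rw [← C.rho_appA Θ j (hlow.reg (hs i)),
      show C.appA Θ j (s i) = if j = i then 1 else 0 from Subtype.ext (by
      rw [C.coe_appA Θ j (hlow.reg (hs i)), hδ]; split_ifs <;> rfl)]
    split_ifs <;> simp
  refine sub_eq_zero.1 (hC _ (Submodule.sub_mem _ hz
    (Submodule.sum_mem _ fun i _ => Submodule.smul_mem _ _ (S.red_mem (hs i)))) fun j => ?_)
  simp [map_sum, hδb]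

/-- Functionals bijective on finitely many residual spaces. -/
theorem exists_funl [IsAlgClosed k] {Y : Type*} [Finite Y] (Z : Y → Divisor K F)
    (hZ : ∀ y, Exact Θ (Z y) d)
    (τ : k → A) (hτ : ∀ a, ρ (τ a) = a) (hτ0 : τ 0 = 0) :
    ∃ C : Funl A d, (∀ y, C.Bij Θ (Z y)) ∧ ∀ i e, C.wt i e ∈ Set.range τ := by
  classical
  have := Fintype.ofFinite Y
  set bas : ∀ y, Basis (Fin d) k (riemannRochSpace (Finsupp.mapDomain S.r (Z y))) :=
    fun y => Module.finBasisOfFinrankEq k _ (hZ y).2.1
  choose W hW using fun y => exists_finset_separating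
    (k := k) (V := riemannRochSpace (Finsupp.mapDomain S.r (Z y)))
    (fun e => (Θ.cb e).comp (riemannRochSpace (Finsupp.mapDomain S.r (Z y))).subtype)
    (fun v hv => Subtype.ext (Θ.eq_zero_of_cb hv))
  set E := Finset.univ.biUnion W
  obtain ⟨G, hG⟩ := exists_generic_left
    (fun y => Matrix.of fun (e : E) (i : Fin d) => Θ.cb e (bas y i : Fb)) fun y v w hvw => by
      refine sub_eq_zero.1 (funext fun i => ?_)
      refine Fintype.linearIndependent_iff.1 (bas y).linearIndependent (v - w)
        (hW y _ fun e he => ?_) i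
      have h := congrFun hvw ⟨e, Finset.mem_biUnion.2 ⟨y, Finset.mem_univ _, he⟩⟩
      simp only [Matrix.mulVec, dotProduct, Matrix.of_apply] at h
      simp only [LinearMap.comp_apply, map_sum, Submodule.subtype_apply, 
        map_smul, smul_eq_mul, Pi.sub_apply, sub_mul, Finset.sum_sub_distrib]
      rw [sub_eq_zero]
      simpa only [mul_comm] using h
  refine ⟨⟨E, fun i e => if he : e ∈ E then τ (G i ⟨e, he⟩) else 0⟩, fun y z hz h0 => ?_,
    fun i e => ?_⟩
  · have hinj : Function.Injective (G * Matrix.of fun (e : E) (i : Fin d) =>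
        Θ.cb e (bas y i : Fb)).mulVec :=
      Matrix.mulVec_injective_iff_isUnit.2
        ((Matrix.isUnit_iff_isUnit_det _).2 (isUnit_iff_ne_zero.2 (hG y)))
    set v : Fin d → k := fun i => (bas y).repr ⟨z, hz⟩ i
    have hzv : ∑ i, v i • (bas y i : Fb) = z := by
      have := congrArg Subtype.val ((bas y).sum_repr ⟨z, hz⟩)
      rwa [AddSubmonoidClass.coe_finsetSum] at this
    suffices hv : v = 0 by rw [← hzv, hv]; simp
    refine hinj ?_
    rw [Matrix.mulVec_zero, ← Matrix.mulVec_mulVec]
    funext i
    have h1 := h0 i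
    rw [← hzv] at h1
    simp only [Funl.appb, LinearMap.sum_apply, LinearMap.smul_apply, smul_eq_mul, map_sum,
      map_smul] at h1
    simp only [Finset.mul_sum] at h1
    rw [Finset.sum_comm, ← Finset.sum_coe_sort] at h1
    simp only [Matrix.mulVec, dotProduct, Matrix.of_apply, Pi.zero_apply, Finset.mul_sum]
    refine Eq.trans (Finset.sum_congr rfl fun e _ => Finset.sum_congr rfl fun j _ => ?_) h1
    rw [dif_pos e.2, hτ]
    ring
  · show (if he : e ∈ E then τ (G i ⟨e, he⟩) else 0) ∈ Set.range τ
    split_ifs with he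
    · exact ⟨_, rfl⟩
    · exact ⟨0, hτ0⟩

/-! ### Families of series over an algebra of functions -/

variable {X : Type*} (H : Subalgebra A (X → K))

/-- All coefficients of the family lie in the algebra. -/
def IsHS (s : X → F) : Prop := ∀ e, (fun x => Θ.cf e (s x)) ∈ H

/-- Constant families have their coefficients in `H`. -/
theorem IsHS.const {f : S.O} (hf : Θ.Reg (f : F)) : IsHS Θ H fun _ => (f : F) := fun e =>
  Subalgebra.algebraMap_mem H (⟨_, Θ.cf_mem hf e⟩ : A)

/-- Sums of families with coefficients in `H` have coefficients in `H`. -/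
theorem IsHS.sum {ι : Type*} (T : Finset ι) {s : ι → X → F} (h : ∀ i ∈ T, IsHS Θ H (s i)) :
    IsHS Θ H fun x => ∑ i ∈ T, s i x := fun e => by
  simp only [map_sum]
  convert Subalgebra.sum_mem H (fun i hi => h i hi e) using 1
  funext x; simp

/-- Multiples by elements of `H` of families with coefficients in `H` have coefficients in `H`. -/
theorem IsHS.smul {c : X → K} (hc : c ∈ H) {s : X → F} (h : IsHS Θ H s) :
    IsHS Θ H fun x => c x • s x := fun e => by
  simp only [map_smul, smul_eq_mul]
  exact H.mul_mem hc (h e)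

/-- The functionals of a family with coefficients in `H` lie in `H`. -/
theorem IsHS.app {s : X → F} (h : IsHS Θ H s) (C : Funl A d) (i : Fin d) :
    (fun x => C.app Θ i (s x)) ∈ H := by
  simp only [Funl.app, LinearMap.sum_apply, LinearMap.smul_apply, smul_eq_mul]
  convert Subalgebra.sum_mem H (fun e (_ : e ∈ C.E) =>
    H.mul_mem (Subalgebra.algebraMap_mem H (C.wt i e)) (h e)) using 1
  funext x; simp only [Finset.sum_apply, Pi.mul_apply]; rfl

/-- Products of families with coefficients in `H` have coefficients in `H`. -/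
theorem IsHS.mul [Finite X] {s t : X → F} (hs : IsHS Θ H s) (ht : IsHS Θ H t) :
    IsHS Θ H fun x => s x * t x := fun e => by
  classical
  obtain ⟨a, ha⟩ := Finite.exists_le fun x => -(Θ.ser (s x)).order
  obtain ⟨b, hb⟩ := Finite.exists_le fun x => -(Θ.ser (t x)).order
  have hlow : ∀ (f : LaurentSeries K) (n : ℤ), n < f.order → f.coeff n = 0 := fun f n hn =>
    HahnSeries.coeff_eq_zero_of_lt_order hn
  have key : (fun x => Θ.cf e (s x * t x)) =
      ∑ i ∈ Finset.Icc (-a) (e + b), (fun x => Θ.cf i (s x)) * fun x => Θ.cf (e - i) (t x) := by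
    funext x
    simp only [Finset.sum_apply, Pi.mul_apply]
    show (Θ.ser (s x * t x)).coeff e = _
    rw [map_mul, HahnSeries.coeff_mul]
    refine Finset.sum_bij_ne_zero (fun p _ _ => p.1) (fun p hp h0 => ?_)
      (fun p hp _ q hq _ he => ?_)
      (fun i hi h0 => ⟨(i, e - i), ?_, ?_, rfl⟩) (fun p hp _ => ?_)
    · simp only [Finset.mem_antidiagonal, HahnSeries.mem_support] at hp
      obtain ⟨h1, h2, h3⟩ := hp
      have e1 := not_lt.1 fun h => h1 (hlow _ _ h)
      have e2 := not_lt.1 fun h => h2 (hlow _ _ h)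
      have := ha x; have := hb x
      rw [Finset.mem_Icc]
      omega
    · simp only [Finset.mem_antidiagonal] at hp hq
      refine Prod.ext he ?_
      have := hp.2.2; have := hq.2.2
      omega
    · simp only [Finset.mem_antidiagonal, HahnSeries.mem_support]
      exact ⟨left_ne_zero_of_mul h0, right_ne_zero_of_mul h0, by omega⟩
    · exact h0
    · simp only [Finset.mem_antidiagonal] at hp
      rw [show e - p.1 = p.2 by omega]
      rfl
  rw [key]
  exact Subalgebra.sum_mem H fun i _ => H.mul_mem (hs i) (ht (e - i))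

end FermatAgent.Flat
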