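import Fermat.Agent.Flat.Chart

/-!
# Normalised bases with coefficients in the algebra: generators and colon spaces
-/

set_option autoImplicit false

noncomputable section

open AlgebraicCurve Module FermatAgent.Curve

namespace FermatAgent.Flat

variable {K : Type*} [Field K] {A : ValuationSubring K} {k : Type*} [Field k] {ρ : A →+* k}
  {F Fb : Type*} [Field F] [Algebra K F] [Field Fb] [Algebra k Fb] [IsFF K F] [IsFF k Fb]
  {S : ConstRed A ρ F Fb} (Θ : Coef S) [IsAlgClosed k]
  {X : Type*} [Finite X] (H : Subalgebra A (X → K))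

/-- Normalised bases of a family of spaces with coefficients in `H`. -/
structure IsChart {d : ℕ} (C : Funl A d) (W : X → Divisor K F) (s : Fin d → X → S.O) : Prop where
  exact : ∀ x, Exact Θ (W x) d
  bij : ∀ x, C.Bij Θ (W x)
  mem : ∀ i x, (s i x : F) ∈ riemannRochSpace (W x)
  delta : ∀ i j x, C.app Θ j (s i x : F) = if j = i then 1 else 0
  isHS : ∀ i, IsHS Θ H fun x => (s i x : F)

/-- Generators with coefficients in `H`. -/
def HasGens (W : X → Divisor K F) : Prop :=
  (∀ x, Θ.Low (W x)) ∧
  ∃ (n : ℕ) (u : Fin n → X → S.O), (∀ l x, (u l x : F) ∈ riemannRochSpace (W x)) ∧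
    (∀ l, IsHS Θ H fun x => (u l x : F)) ∧
    ∀ x, riemannRochSpace (Finsupp.mapDomain S.r (W x)) ≤
      Submodule.span k (Set.range fun l => S.red (u l x))

variable {H}

omit [IsAlgClosed k] [Finite X] in
/-- A constant space. -/
theorem hasGens_const {E : Divisor K F} (hlow : Θ.Low E)
    (hE : rrDim (Finsupp.mapDomain S.r E) = rrDim E) : HasGens Θ H fun _ => E := by
  obtain ⟨b, hb, hind⟩ := S.lattice (riemannRochSpace E) inferInstance
  refine ⟨fun _ => hlow, _, fun l _ => b l, fun l _ => hb l,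
    fun l => IsHS.const Θ H (hlow.reg (hb l)), fun _ => ?_⟩
  refine (Submodule.eq_of_le_of_finrank_eq (Submodule.span_le.2 ?_) ?_).ge
  · rintro _ ⟨i, rfl⟩; exact S.red_mem (hb i)
  · rw [finrank_span_eq_card hind, Fintype.card_fin]; exact hE.symm

omit [IsAlgClosed k] in
private lemma rho_app_mk {d : ℕ} (C : Funl A d) {f : S.O} (hf : Θ.Reg (f : F)) (i : Fin d)
    (h : C.app Θ i (f : F) ∈ A) : ρ ⟨_, h⟩ = C.appb Θ i (S.red f) := by
  rw [← C.rho_appA Θ i hf]
  exact congrArg ρ (Subtype.ext (C.coe_appA Θ i hf).symm)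

/-- The equation, in the `e`-th coefficient, that `b * u` be a combination of the basis `sV`. -/
private def colonEq {d' : ℕ} (C' : Funl A d') (u : S.O) (sV : Fin d' → S.O) (e : ℤ) (b : S.O) : K :=
  Θ.cf e ((b : F) * (u : F)) - ∑ a, C'.app Θ a ((b : F) * (u : F)) * Θ.cf e (sV a : F)

/-- The reduction of `colonEq`. -/
private def colonEqb {d' : ℕ} (C' : Funl A d') (u : S.O) (sV : Fin d' → S.O) (e : ℤ) :
    Fb →ₗ[k] k :=
  (Θ.cb e).comp (LinearMap.mulRight k (S.red u)) -
    ∑ a, Θ.cb e (S.red (sV a)) • (C'.appb Θ a).comp (LinearMap.mulRight k (S.red u))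

omit [IsAlgClosed k] in
private lemma rho_colonEq {d' : ℕ} (C' : Funl A d') {u b : S.O} {sV : Fin d' → S.O}
    (hsV : ∀ a, Θ.Reg (sV a : F)) (hbu : Θ.Reg ((b : F) * (u : F))) (e : ℤ)
    (h : colonEq Θ C' u sV e b ∈ A) : ρ ⟨_, h⟩ = colonEqb Θ C' u sV e (S.red b) := by
  have hr : Θ.Reg ((b * u : S.O) : F) := by rwa [MulMemClass.coe_mul]
  rw [show (⟨_, h⟩ : A) = Θ.cfA e (b * u) -
      ∑ a, C'.appA Θ a (b * u) * Θ.cfA e (sV a) from Subtype.ext (by
    simp only [colonEq, AddSubgroupClass.coe_sub, AddSubmonoidClass.coe_finsetSum,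
      MulMemClass.coe_mul, C'.coe_appA Θ _ hr, Θ.coe_cfA _ hr, Θ.coe_cfA _ (hsV _)])]
  simp only [map_sub, map_sum, map_mul, Θ.rho_cfA _ hr, Θ.rho_cfA _ (hsV _),
    C'.rho_appA Θ _ hr, colonEqb, LinearMap.sub_apply, LinearMap.sum_apply, LinearMap.smul_apply,
    LinearMap.comp_apply, LinearMap.mulRight_apply, smul_eq_mul]
  congr 1
  exact Finset.sum_congr rfl fun a _ => mul_comm _ _

omit [IsAlgClosed k] in
/-- The reduced equations cut out the colon space: a solution in `L(D̄)` with all coordinates zero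
is zero. -/
private lemma eq_zero_of_colonEqb {d d' n : ℕ} {C : Funl A d} {C' : Funl A d'}
    {W U V D : Divisor K F} {u : Fin n → S.O} {sV : Fin d' → S.O}
    (hsV : ∀ a, (sV a : F) ∈ riemannRochSpace V)
    (huspan : riemannRochSpace (Finsupp.mapDomain S.r U) ≤
      Submodule.span k (Set.range fun l => S.red (u l)))
    (hres : ∀ z ∈ riemannRochSpace (Finsupp.mapDomain S.r D),
      (∀ g ∈ riemannRochSpace (Finsupp.mapDomain S.r U),
        z * g ∈ riemannRochSpace (Finsupp.mapDomain S.r V)) →
      z ∈ riemannRochSpace (Finsupp.mapDomain S.r W))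
    (hC : C.Bij Θ W) {z : Fb} (hzD : z ∈ riemannRochSpace (Finsupp.mapDomain S.r D))
    (hz : ∀ l e, colonEqb Θ C' (u l) sV e z = 0) (hz' : ∀ i, C.appb Θ i z = 0) : z = 0 := by
  have hzu : ∀ l, z * S.red (u l) ∈ riemannRochSpace (Finsupp.mapDomain S.r V) := fun l => by
    rw [show z * S.red (u l) = ∑ a, C'.appb Θ a (z * S.red (u l)) • S.red (sV a) from
      sub_eq_zero.1 (Θ.eq_zero_of_cb fun e => by
        have h1 := hz l e
        simp only [colonEqb, LinearMap.sub_apply, LinearMap.sum_apply, LinearMap.smul_apply,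
          LinearMap.comp_apply, LinearMap.mulRight_apply, smul_eq_mul] at h1
        simp only [map_sub, map_sum, map_smul, smul_eq_mul]
        refine Eq.trans ?_ h1
        exact congrArg _ (Finset.sum_congr rfl fun a _ => mul_comm _ _))]
    exact Submodule.sum_mem _ fun a _ => Submodule.smul_mem _ _ (S.red_mem (hsV a))
  refine hC z (hres z hzD fun g hg => ?_) hz'
  refine Submodule.span_induction ?_ ?_ ?_ ?_ (huspan hg)
  · rintro _ ⟨l, rfl⟩; exact hzu l
  · rw [mul_zero]; exact zero_mem _
  · intro a c _ _ ha hc; rw [mul_add]; exact add_mem ha hc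
  · intro a c _ hc; rw [mul_smul_comm]; exact Submodule.smul_mem _ _ hc

variable (hint : ∀ f ∈ H, ∀ x, f x ∈ A)
include hint

/-- From generators to a chart. -/
theorem exists_chart_of_gens {d : ℕ} {C : Funl A d} {W : X → Divisor K F}
    (hW : HasGens Θ H W) (hex : ∀ x, Exact Θ (W x) d) (hC : ∀ x, C.Bij Θ (W x)) :
    ∃ s : Fin d → X → S.O, IsChart Θ H C W s := by
  classical
  obtain ⟨hlow, n, u, humem, huH, huspan⟩ := hW
  choose s hs hδ using fun x => exists_normalised Θ (hex x) (hC x)
  obtain ⟨Q, hQ, hQM⟩ := exists_left_inverse_mem H hint S.surj S.ker_iff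
    (fun (l : Fin n) (j : Fin d) x => C.app Θ j (u l x : F)) (fun l j => (huH l).app Θ H C j)
    fun x v hv => funext fun i => by
      simp only [rho_app_mk Θ C ((hlow x).reg (humem _ x))] at hv
      set φ : Fb →ₗ[k] k := ∑ j, v j • C.appb Θ j
      have hφ : ∀ z ∈ Submodule.span k (Set.range fun l => S.red (u l x)), φ z = 0 := by
        intro z hz
        refine Submodule.span_induction ?_ (map_zero _) ?_ ?_ hz
        · rintro _ ⟨l, rfl⟩
          simp only [φ, LinearMap.sum_apply, LinearMap.smul_apply, smul_eq_mul]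
          exact Eq.trans (Finset.sum_congr rfl fun j _ => mul_comm _ _) (hv l)
        · intro a b _ _ ha hb; rw [map_add, ha, hb, add_zero]
        · intro a b _ hb; rw [map_smul, hb, smul_zero]
      have h1 := hφ _ (huspan x (S.red_mem (hs x i)))
      simp only [φ, LinearMap.sum_apply, LinearMap.smul_apply, smul_eq_mul] at h1
      rw [Finset.sum_eq_single_of_mem i (Finset.mem_univ i) fun j _ hj => by
        rw [← C.rho_appA Θ j ((hlow x).reg (hs x i)),
          show C.appA Θ j (s x i) = 0 from Subtype.ext (by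
          rw [C.coe_appA Θ j ((hlow x).reg (hs x i)), hδ x i j, if_neg hj]; rfl), map_zero,
          mul_zero]] at h1
      rwa [← C.rho_appA Θ i ((hlow x).reg (hs x i)),
        show C.appA Θ i (s x i) = 1 from Subtype.ext (by
        rw [C.coe_appA Θ i ((hlow x).reg (hs x i)), hδ x i i, if_pos rfl]; rfl), map_one,
        mul_one] at h1
  refine ⟨fun i x => s x i, hex, hC, fun i x => hs x i, fun i j x => hδ x i j, fun i => ?_⟩
  have e : ∀ x, (s x i : F) = ∑ l, Q i l x • (u l x : F) := fun x => by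
    refine sub_eq_zero.1 (eq_zero_of_app Θ (hex x) (hC x) (Submodule.sub_mem _ (hs x i)
      (Submodule.sum_mem _ fun l _ => Submodule.smul_mem _ _ (humem l x))) fun j => ?_)
    have h1 := hQM x (fun m => if m = j then 1 else 0) i
    simp only [mul_ite, mul_one, mul_zero, Finset.sum_ite_eq', Finset.mem_univ, if_true] at h1
    simp only [map_sub, map_sum, map_smul, smul_eq_mul, hδ, h1, eq_comm, sub_self]
  simp only [e]
  exact IsHS.sum Θ H _ fun l _ => (huH l).smul Θ H (hQ i l)

/-- Colon spaces. -/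
theorem exists_chart_colon {d d' : ℕ} {C : Funl A d} {C' : Funl A d'} {W U V : X → Divisor K F}
    {D : Divisor K F} (hDlow : Θ.Low D) (hD : ∀ x, riemannRochSpace (W x) ≤ riemannRochSpace D)
    (hex : ∀ x, Exact Θ (W x) d) (hC : ∀ x, C.Bij Θ (W x))
    (hU : HasGens Θ H U) {sV : Fin d' → X → S.O} (hV : IsChart Θ H C' V sV)
    (hchar : ∀ x, ∀ f ∈ riemannRochSpace (W x), ∀ g ∈ riemannRochSpace (U x),
      f * g ∈ riemannRochSpace (V x))
    (hres : ∀ x, ∀ z ∈ riemannRochSpace (Finsupp.mapDomain S.r D),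
      (∀ g ∈ riemannRochSpace (Finsupp.mapDomain S.r (U x)),
        z * g ∈ riemannRochSpace (Finsupp.mapDomain S.r (V x))) →
      z ∈ riemannRochSpace (Finsupp.mapDomain S.r (W x))) :
    ∃ s : Fin d → X → S.O, IsChart Θ H C W s := by
  classical
  have := Fintype.ofFinite X
  obtain ⟨hUlow, n, u, humem, huH, huspan⟩ := hU
  choose s hs hδ using fun x => exists_normalised Θ (hex x) (hC x)
  obtain ⟨N, hN, b, hbmem, hbind⟩ : ∃ N, N = finrank K (riemannRochSpace D) ∧
      ∃ b : Fin N → S.O, (∀ i, (b i : F) ∈ riemannRochSpace D) ∧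
        LinearIndependent k (fun i => S.red (b i)) :=
    ⟨_, rfl, S.lattice (riemannRochSpace D) inferInstance⟩
  -- the equations
  let T : Fin n → ℤ → Fin N → X → K := fun l e j x =>
    colonEq Θ C' (u l x) (fun a => sV a x) e (b j)
  have hTH : ∀ l e j, T l e j ∈ H := fun l e j => by
    have hbu := (IsHS.const Θ H (hDlow.reg (hbmem j))).mul Θ H (huH l)
    refine H.sub_mem (hbu e) ?_
    convert Subalgebra.sum_mem H (fun a (_ : a ∈ Finset.univ) =>
      H.mul_mem (hbu.app Θ H C' a) (hV.isHS a e)) using 1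
    funext x; simp only [Finset.sum_apply, Pi.mul_apply]
  let Tb : Fin n → ℤ → X → Fb →ₗ[k] k := fun l e x =>
    colonEqb Θ C' (u l x) (fun a => sV a x) e
  set redb : (Fin N → k) →ₗ[k] Fb := Fintype.linearCombination k fun j => S.red (b j)
  choose sel hsel using fun x => exists_finset_separating (k := k) (V := Fin N → k)
    (I := Fin d ⊕ Fin n × ℤ)
    (fun p => (Sum.elim (fun i => C.appb Θ i) (fun q => Tb q.1 q.2 x) p).comp redb)
    fun v hv => by
      have hzv : redb v = ∑ j, v j • S.red (b j) := Fintype.linearCombination_apply k _ v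
      have hz0 := eq_zero_of_colonEqb Θ (u := fun l => u l x) (fun a => hV.mem a x) (huspan x)
        (hres x) (hC x) (z := redb v) (hzv ▸ Submodule.sum_mem _ fun j _ =>
          Submodule.smul_mem _ _ (S.red_mem (hbmem j))) (fun l e => hv (Sum.inr (l, e)))
        fun i => hv (Sum.inl i)
      rw [hzv] at hz0
      exact funext (Fintype.linearIndependent_iff.1 hbind v hz0)
  let E : Finset (Fin n × ℤ) := Finset.univ.biUnion fun x =>
    (sel x).preimage Sum.inr Sum.inr_injective.injOn
  let M : Fin d ⊕ E → Fin N → X → K := fun p j x =>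
    Sum.elim (fun i => C.app Θ i (b j : F)) (fun q => T q.1.1 q.1.2 j x) p
  have hM : ∀ p j, M p j ∈ H := fun p j => by
    cases p with
    | inl i => exact (IsHS.const Θ H (hDlow.reg (hbmem j))).app Θ H C i
    | inr q => exact hTH _ _ _
  obtain ⟨Q, hQ, hQM⟩ := exists_left_inverse_mem H hint S.surj S.ker_iff M hM fun x v hv => by
    refine hsel x v fun p hp => ?_
    have hlin : ∀ φ : Fb →ₗ[k] k, φ.comp redb v = ∑ j, φ (S.red (b j)) * v j := fun φ => by
      simp only [LinearMap.comp_apply, redb, Fintype.linearCombination_apply, map_sum, map_smul,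
        smul_eq_mul, mul_comm]
    rw [hlin]
    cases p with
    | inl i =>
      refine Eq.trans (Finset.sum_congr rfl fun j _ => ?_) (hv (Sum.inl i))
      rw [Sum.elim_inl, ← rho_app_mk Θ C (hDlow.reg (hbmem j))]
      rfl
    | inr q =>
      refine Eq.trans (Finset.sum_congr rfl fun j _ => ?_) (hv (Sum.inr ⟨q,
        Finset.mem_biUnion.2 ⟨x, Finset.mem_univ x, Finset.mem_preimage.2 hp⟩⟩))
      rw [Sum.elim_inr, ← rho_colonEq Θ C' (fun a => (hV.exact x).2.2.reg (hV.mem a x))
        ((hDlow.reg (hbmem j)).mul ((hUlow x).reg (humem _ x)))]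
      rfl
  refine ⟨fun i x => s x i, hex, hC, fun i x => hs x i, fun i j x => hδ x i j, fun i => ?_⟩
  have e : ∀ x, (s x i : F) = ∑ j, Q j (Sum.inl i) x • (b j : F) := fun x => by
    obtain ⟨c, hc⟩ := S.mem_span_of_card hbind hbmem ((Fintype.card_fin _).trans hN) (hD x (hs x i))
    rw [← hc]
    refine Finset.sum_congr rfl fun j _ => ?_
    congr 1
    have hMc : ∀ p, ∑ j', M p j' x * c j' = if p = Sum.inl i then 1 else 0 := fun p => by
      cases p with
      | inl i' =>
        have h1 := hδ x i i'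
        rw [← hc] at h1
        simp only [map_sum, map_smul, smul_eq_mul] at h1
        simp only [Sum.inl.injEq]
        refine Eq.trans (Finset.sum_congr rfl fun j' _ => ?_) h1
        exact mul_comm _ _
      | inr q =>
        rw [if_neg Sum.inr_ne_inl]
        have hfV := hchar x _ (hs x i) _ (humem q.1.1 x)
        have h1 := congrArg (Θ.cf q.1.2) (eq_sum_normalised Θ (hV.exact x) (hV.bij x)
          (fun a => hV.mem a x) (fun a a' => hV.delta a a' x) hfV)
        rw [← sub_eq_zero] at h1
        refine Eq.trans ?_ h1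
        rw [← hc]
        simp only [M, Sum.elim_inr, T, colonEq, sub_mul, Finset.sum_sub_distrib, Finset.sum_mul,
          smul_mul_assoc, map_sum, map_smul, smul_eq_mul]
        congr 1
        · exact Finset.sum_congr rfl fun j' _ => mul_comm _ _
        · rw [Finset.sum_comm]
          exact Finset.sum_congr rfl fun a _ => Finset.sum_congr rfl fun j' _ => by ring
    have h2 := hQM x c j
    simp only [hMc, mul_ite, mul_one, mul_zero, Finset.sum_ite_eq', Finset.mem_univ, if_true] at h2
    exact h2.symm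
  simp only [e]
  exact IsHS.sum Θ H _ fun j _ =>
    (IsHS.const Θ H (hDlow.reg (hbmem j))).smul Θ H (hQ j (Sum.inl i))

end FermatAgent.Flat
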