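import Fermat.Agent.Flat.Frame

/-!
# Semilinear automorphisms, coordinates and reduction
-/

set_option autoImplicit false

noncomputable section

open AlgebraicCurve Module FermatAgent.Curve
open SemilinearAut (baseAut)

namespace FermatAgent.Flat

section General

variable {K F : Type*} [Field K] [Field F] [Algebra K F]

/-- A semilinear automorphism moves Riemann–Roch spaces along. -/
theorem smul_mem_riemannRochSpace (g : SemilinearAut K F) {E : Divisor K F} {f : F}
    (hf : f ∈ riemannRochSpace E) : g • f ∈ riemannRochSpace (g • E) := by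
  rcases eq_or_ne f 0 with rfl | hf0
  · rw [smul_zero]; exact zero_mem _
  rw [mem_riemannRochSpace_iff_ne_zero hf0] at hf
  rw [mem_riemannRochSpace_iff_ne_zero (by simpa using hf0)]
  intro v
  have h := hf (g⁻¹ • v)
  rw [SemilinearAut.divisor_smul_apply]
  rwa [← SemilinearAut.ord_smul g (g⁻¹ • v), smul_inv_smul] at h

theorem smul_nonneg_divisor (g : SemilinearAut K F) {E : Divisor K F} (hE : 0 ≤ E) :
    0 ≤ g • E := fun v => by rw [SemilinearAut.divisor_smul_apply]; exact hE _

variable [IsFF K F]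

/-- Semilinear automorphisms commute with pole divisors. -/
theorem smul_poleDivisor (g : SemilinearAut K F) (x : F) :
    g • (poleDivisor x : Divisor K F) = poleDivisor (g • x) := Finsupp.ext fun v => by
  rw [SemilinearAut.divisor_smul_apply, poleDivisor_apply, poleDivisor_apply,
    ← SemilinearAut.ord_smul g (g⁻¹ • v) x, smul_inv_smul]

end General

variable {K : Type*} [Field K] {A : ValuationSubring K} {k : Type*} [Field k] {ρ : A →+* k}
  {F Fb : Type*} [Field F] [Algebra K F] [Field Fb] [Algebra k Fb] [IsFF K F] [IsFF k Fb]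
  [IsAlgClosed K] [IsAlgClosed k] {S : ConstRed A ρ F Fb} (Θ : Coef S)

/-- The semilinear map acts through the coefficients. -/
def Compatible (g : SemilinearAut K F) : Prop :=
  ∀ (e : ℤ) (f : F), Θ.cf e (g • f) = baseAut g (Θ.cf e f)

variable {Θ} {g : SemilinearAut K F} (hg : Compatible Θ g)
include hg

omit [IsAlgClosed K] [IsAlgClosed k] in
/-- Functionals with fixed weights commute with a compatible automorphism. -/
theorem app_smul {d : ℕ} {C : Funl A d}
    (hC : ∀ i, ∀ e ∈ C.E, baseAut g (C.wt i e : K) = C.wt i e)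
    (i : Fin d) (f : F) : C.app Θ i (g • f) = baseAut g (C.app Θ i f) := by
  simp only [Funl.app, LinearMap.sum_apply, LinearMap.smul_apply, smul_eq_mul, map_sum, map_mul,
    hg _ _]
  exact Finset.sum_congr rfl fun e he => by rw [hC i e he]

omit [IsAlgClosed K] [IsAlgClosed k] in
/-- A normalised element is fixed if its space and weights are. -/
theorem smul_normalised {d : ℕ} {C : Funl A d}
    (hC : ∀ i, ∀ e ∈ C.E, baseAut g (C.wt i e : K) = C.wt i e)
    {E : Divisor K F} (hE : g • E = E) (hex : Exact Θ E d) (hbij : C.Bij Θ E) {f : F}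
    (hf : f ∈ riemannRochSpace E) (h : ∀ j, baseAut g (C.app Θ j f) = C.app Θ j f) : g • f = f := by
  have hgf := smul_mem_riemannRochSpace g hf
  rw [hE] at hgf
  exact sub_eq_zero.1 (eq_zero_of_app Θ hex hbij (Submodule.sub_mem _ hgf hf) fun j => by
    rw [map_sub, app_smul hg hC, h, sub_self])

/-- The coordinates are equivariant. -/
theorem coords_equivariant {M : Type*} [AddCommGroup M] (P : Frame Θ M) (act : M → M)
    (hO : g • P.O = P.O) (hD : g • P.D = P.D)
    (hC : ∀ m i, ∀ e ∈ (P.C m).E, baseAut g ((P.C m).wt i e : K) = (P.C m).wt i e)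
    (hcls : ∀ x, g • P.cls x = P.cls (act x)) {φ : M → K} (hφ : φ ∈ P.coords) (x : M) :
    φ (act x) = baseAut g (φ x) := by
  have hpt : g • P.pt x = P.pt (act x) := by
    refine Frame.IsPt.unique (P := P) (x := act x) ⟨smul_nonneg_divisor g (P.isPt_pt x).1, ?_, ?_⟩
      (P.isPt_pt _)
    · rw [← hO, ← smul_sub, SemilinearAut.degree_smul]
      exact (P.isPt_pt x).2.1
    · obtain ⟨-, h0, e⟩ := P.isPt_pt x
      refine Eq.trans ?_ ((congrArg (g • ·) e).trans (hcls x))
      simp only [SemilinearAut.pic0_smul_mk]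
      congr 1
      refine Subtype.ext ?_
      rw [SemilinearAut.coe_degZeroSMulHom]
      show g • P.pt x - P.O = g • (P.pt x - P.O)
      rw [smul_sub, hO]
  obtain ⟨m, i, e, rfl⟩ := hφ
  have hfam : g • P.fam m x = P.fam m (act x) := by
    simp only [Frame.fam]
    rw [smul_sub, smul_comm g, hD, hpt]
  have key : g • (P.nb m i x : F) = (P.nb m i (act x) : F) := by
    refine Frame.nb_unique m i _ (hfam ▸ smul_mem_riemannRochSpace g (Frame.nb_mem m i x))
      fun j => ?_
    rw [app_smul hg (hC m), Frame.nb_delta]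
    split_ifs <;> simp
  show Θ.cf e (P.nb m i (act x) : F) = _
  rw [← key, hg]

variable (hA : ∀ a : A, baseAut g (a : K) ∈ A) (hB : g • Θ.B = Θ.B)
include hA hB

omit [IsAlgClosed K] [IsAlgClosed k] hg hA in
theorem reg_smul {f : F} (hf : Θ.Reg f) : Θ.Reg (g • f) :=
  hf.imp fun n hn => by
    have := smul_mem_riemannRochSpace g hn
    rwa [smul_comm g, hB] at this

omit [IsAlgClosed K] [IsAlgClosed k] in
theorem smul_mem_O {f : S.O} (hf : Θ.Reg (f : F)) : g • (f : F) ∈ S.O := by
  rcases eq_or_ne (g • (f : F)) 0 with h0 | h0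
  · rw [h0]; exact S.O.zero_mem
  obtain ⟨l, g', hl, he, hg'⟩ := S.exists_normal h0
  have hr : Θ.Reg (g' : F) := by
    have h := (reg_smul hB hf).smul l⁻¹
    rwa [he, Algebra.smul_def, ← mul_assoc, ← map_mul, inv_mul_cancel₀ hl, map_one, one_mul] at h
  obtain ⟨e, hunit⟩ : ∃ e, Θ.cb e (S.red g') ≠ 0 := by
    by_contra hall
    push Not at hall
    exact hg' (Θ.eq_zero_of_cb hall)
  rw [← Θ.rho_cfA e hr] at hunit
  obtain ⟨u, hu⟩ := isUnit_of_rho_ne_zero S.ker_iff hunit
  have h1 : l * Θ.cf e (g' : F) ∈ A := by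
    have h2 := hA (Θ.cfA e f)
    rw [Θ.coe_cfA e hf, ← hg, he, ← Algebra.smul_def, map_smul, smul_eq_mul] at h2
    exact h2
  have hlA : l ∈ A := by
    have h2 := A.mul_mem _ _ h1 ((↑u⁻¹ : A)).2
    rwa [show Θ.cf e (g' : F) = ((u : A) : K) by rw [hu, Θ.coe_cfA e hr], mul_assoc,
      ← MulMemClass.coe_mul, Units.mul_inv, OneMemClass.coe_one, mul_one] at h2
  rw [he]
  exact S.O.mul_mem (S.algebraMap_mem ⟨l, hlA⟩) g'.2

variable (hρ : ∀ (a : A) (h : baseAut g (a : K) ∈ A), ρ ⟨_, h⟩ = ρ a)
include hρ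

omit [IsAlgClosed K] [IsAlgClosed k] in
/-- Compatible automorphisms fixing the residue field do not change reductions. -/
theorem red_smul {f : S.O} (hf : Θ.Reg (f : F)) : S.red ⟨_, smul_mem_O hg hA hB hf⟩ = S.red f := by
  have hf' : Θ.Reg ((⟨_, smul_mem_O hg hA hB hf⟩ : S.O) : F) := reg_smul hB hf
  refine sub_eq_zero.1 (Θ.eq_zero_of_cb fun e => ?_)
  rw [map_sub, ← Θ.rho_cfA e hf', ← Θ.rho_cfA e hf, sub_eq_zero, ← hρ (Θ.cfA e f) (hA _)]
  exact congrArg ρ (Subtype.ext (by
    rw [Θ.coe_cfA e hf']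
    show Θ.cf e (g • (f : F)) = baseAut g (Θ.cfA e f : K)
    rw [hg, Θ.coe_cfA e hf]))

/-- Such automorphisms do not move the reductions of places. -/
theorem r_smul_eq (hgen : rGenus K F ≤ rGenus k Fb) (hBdeg : 0 < Divisor.degree Θ.B)
    (v : Place K F) : S.r (g • v) = S.r v := by
  classical
  by_contra hne
  obtain ⟨c, hc⟩ := S.exists_threshold hgen
  obtain ⟨c', hc'⟩ := exists_isThreshold (K := k) (F := Fb)
  set n : ℕ := (max (c + 1) (c' + 2)).toNat
  set E : Divisor K F := n • Θ.B - Finsupp.single v 1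
  have hdeg : max (c + 1) (c' + 2) - 1 ≤ Divisor.degree E := by
    rw [degree_sub_single, map_nsmul, nsmul_eq_mul]
    exact sub_le_sub_right ((Int.self_le_toNat _).trans
      (le_mul_of_one_le_right (Int.natCast_nonneg _) hBdeg)) 1
  have := le_max_left (c + 1) (c' + 2)
  have := le_max_right (c + 1) (c' + 2)
  obtain ⟨-, hE⟩ := hc E (by omega)
  obtain ⟨z, hz, hz0, hord⟩ := exists_ord_eq_neg hc' (G := Finsupp.mapDomain S.r E)
    (by rw [S.degree_mapDomain]; omega) (S.r (g • v))
  obtain ⟨f, hf, rfl⟩ := S.exists_lift hE hz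
  have hle : E ≤ n • Θ.B := fun w => by
    simp only [E, Finsupp.sub_apply, Finsupp.single_apply]; split_ifs <;> omega
  have hreg : Θ.Reg (f : F) := ⟨n, riemannRochSpace_le_of_le hle hf⟩
  have h1 := S.red_mem (g := ⟨_, smul_mem_O hg hA hB hreg⟩) (smul_mem_riemannRochSpace g hf)
  rw [red_smul hg hA hB hρ hreg, mem_riemannRochSpace_iff_ne_zero hz0] at h1
  have h2 := h1 (S.r (g • v))
  rw [hord] at h2
  simp only [E, smul_sub, smul_comm g, hB, SemilinearAut.smul_single, Finsupp.mapDomain_sub,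
    Finsupp.mapDomain_single, Finsupp.sub_apply, Finsupp.single_eq_same,
    Finsupp.single_eq_of_ne hne] at h2
  omega

end FermatAgent.Flat
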