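import Fermat.Agent.Flat.FixedPlaces

/-!
# Existence of a frame fixed by inertia
-/

set_option autoImplicit false

noncomputable section

open AlgebraicCurve Module FermatAgent.Curve
open SemilinearAut (baseAut)

namespace FermatAgent.Flat

variable {K : Type*} [Field K] {A : ValuationSubring K} {k : Type*} [Field k] {ρ : A →+* k}
  {F Fb : Type*} [Field F] [Algebra K F] [Field Fb] [Algebra k Fb] [IsFF K F] [IsFF k Fb]
  [IsAlgClosed K] [IsAlgClosed k] {S : ConstRed A ρ F Fb} {Θ : Coef S}

omit [IsFF K F] [IsFF k Fb] [IsAlgClosed K] [IsAlgClosed k] in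
theorem mapDomain_sum_single (r : Place K F → Place k Fb) (l : List (Place K F)) :
    Finsupp.mapDomain r (l.map fun P => Finsupp.single P (1 : ℤ)).sum =
      ((l.map r).map fun P => Finsupp.single P (1 : ℤ)).sum := by
  induction l with
  | nil => simp
  | cons P l ih => simp [Finsupp.mapDomain_add, ih]

theorem degree_sum_single (l : List (Place K F)) :
    Divisor.degree (l.map fun P => Finsupp.single P (1 : ℤ)).sum = (l.length : ℤ) := by
  induction l with
  | nil => simp
  | cons P l ih => simp [ih, deg_eq_one P]; ring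

omit [IsFF K F] [IsAlgClosed K] in
theorem smul_sum_single (g : SemilinearAut K F) (l : List (Place K F)) (h : ∀ P ∈ l, g • P = P) :
    g • (l.map fun P => Finsupp.single P (1 : ℤ)).sum =
      ((l.map fun P => Finsupp.single P (1 : ℤ)).sum : Divisor K F) := by
  induction l with
  | nil => simp
  | cons P l ih =>
    simp only [List.map_cons, List.sum_cons, smul_add, SemilinearAut.smul_single,
      h P List.mem_cons_self, ih fun Q hQ => h Q (List.mem_cons_of_mem P hQ)]

omit [IsFF k Fb] [IsAlgClosed K] [IsAlgClosed k] in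
/-- A class all of whose representatives `D` have `l(D + O) = 1` contains a unique `E - O` with
`E` effective. -/
private lemma exists_effective_unique {O : Divisor K F} {x : Pic0 K F}
    {D₀ : Divisor.degZero (K := K) (F := F)} (hD₀ : Pic0.mk D₀ = x)
    (hone : ∀ D : Divisor.degZero (K := K) (F := F), Pic0.mk D = x →
      rrDim ((D : Divisor K F) + O) = 1) :
    ∃ E : Divisor K F, 0 ≤ E ∧ Divisor.degree E = Divisor.degree O ∧ ∀ E', 0 ≤ E' →
      (∃ h : Divisor.degree (E' - O) = 0, Pic0.mk ⟨E' - O, h⟩ = x) → E' = E := by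
  obtain ⟨f, hf⟩ := Module.finrank_pos_iff_exists_ne_zero.1
    (show 0 < rrDim ((D₀ : Divisor K F) + O) by rw [hone _ hD₀]; exact one_pos)
  have hf0 : (f : F) ≠ 0 := fun h => hf (Subtype.ext h)
  have hdeg : Divisor.degree (divisorOf (f : F) + ((D₀ : Divisor K F) + O)) = Divisor.degree O := by
    rw [map_add, degree_divisorOf, map_add,
      show Divisor.degree (D₀ : Divisor K F) = 0 from D₀.2, zero_add, zero_add]
  refine ⟨divisorOf (f : F) + ((D₀ : Divisor K F) + O), fun v => ?_, hdeg,
    fun E' hE' ⟨h, he⟩ => ?_⟩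
  · have := (mem_riemannRochSpace_iff_ne_zero hf0).1 f.2 v
    simp only [Finsupp.add_apply, Finsupp.zero_apply, divisorOf_apply] at this ⊢
    omega
  · have h1 := hone _ he
    simp only [sub_add_cancel] at h1
    refine (eq_of_isPrincipal_sub (fun v => ?_) hE' h1 ?_).symm
    · have := (mem_riemannRochSpace_iff_ne_zero hf0).1 f.2 v
      simp only [Finsupp.add_apply, Finsupp.zero_apply, divisorOf_apply] at this ⊢
      omega
    obtain ⟨u, hu, e⟩ := isPrincipal_iff.1 (Jac.pic0_mk_eq_iff.1 (hD₀.trans he.symm))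
    refine isPrincipal_iff.2 ⟨(f : F) * u, mul_ne_zero hf0 hu, ?_⟩
    rw [divisorOf_mul hf0 hu, ← e]
    show divisorOf (f : F) + ((D₀ : Divisor K F) + O) - E' =
      divisorOf (f : F) + ((D₀ : Divisor K F) - (E' - O))
    abel

/-- Frames fixed by a set of automorphisms acting trivially on the residue field exist. -/
theorem exists_frame {M : Type*} [AddCommGroup M] [Finite M] (hgen : rGenus K F ≤ rGenus k Fb)
    (cls : M →+ Pic0 K F) (hcls : Function.Injective cls) (G : Set (SemilinearAut K F))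
    (hG : ∀ g ∈ G, Compatible Θ g) (hA : ∀ g ∈ G, ∀ a : A, baseAut g (a : K) ∈ A)
    (hρ : ∀ g ∈ G, ∀ (a : A) (h : baseAut g (a : K) ∈ A), ρ ⟨_, h⟩ = ρ a)
    (τ : k → A) (hτ : ∀ a, ρ (τ a) = a) (hτ0 : τ 0 = 0)
    (hτfix : ∀ g ∈ G, ∀ a, baseAut g (τ a : K) = τ a)
    (hB : ∀ g ∈ G, g • Θ.B = Θ.B) (hBdeg : 0 < Divisor.degree Θ.B) :
    ∃ P : Frame Θ M, P.cls = cls ∧ (∀ g ∈ G, g • P.O = P.O) ∧ (∀ g ∈ G, g • P.D = P.D) ∧
      ∀ g ∈ G, ∀ m i e, baseAut g ((P.C m).wt i e : K) = (P.C m).wt i e := by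
  classical
  set B := Θ.B
  obtain ⟨c1, hc1⟩ := exists_isThreshold (K := K) (F := F)
  obtain ⟨c2, hc2⟩ := exists_isThreshold (K := k) (F := Fb)
  set c := max c1 c2
  have hcK : IsThreshold K F c :=
    ⟨hc1.1.trans (le_max_left _ _), fun D hD => hc1.2 D ((le_max_left _ _).trans hD)⟩
  have hck : IsThreshold k Fb c :=
    ⟨hc2.1.trans (le_max_right _ _), fun D hD => hc2.2 D ((le_max_right _ _).trans hD)⟩
  have hgg := S.rGenus_eq hgen
  set g0 := rGenus K F
  have hbig : ∀ a : ℤ, ∃ N : ℕ, a ≤ Divisor.degree (N • B) := fun a => ⟨a.toNat, by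
    rw [map_nsmul, nsmul_eq_mul]
    exact (Int.self_le_toNat a).trans (le_mul_of_one_le_right (Int.natCast_nonneg _) hBdeg)⟩
  -- the origin
  choose rep hrep using fun x => Pic0.mk_surjective (cls x)
  obtain ⟨N, hN⟩ := hbig (c + |g0|)
  set b := Divisor.degree (N • B)
  have hbg : g0 ≤ b := by have := hck.1; have := le_abs_self g0; omega
  have := Jac.infinite_places (K := k) (F := Fb)
  obtain ⟨pts, hlen, -, hdim⟩ := exists_generic_points hck
    (fun x => Finsupp.mapDomain S.r ((rep x : Divisor K F) + N • B)) b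
    (fun x => by
      rw [S.degree_mapDomain, map_add, show Divisor.degree (rep x : Divisor K F) = 0 from (rep x).2,
        zero_add])
    (by have := abs_nonneg g0; omega) Set.infinite_univ (b - g0).toNat (by rw [hgg]; omega)
  choose lift hlift hliftfix using exists_fixed_place Θ hgen G hG hA hρ τ hτ hτ0 hτfix hB hBdeg
  set O : Divisor K F := N • B - ((pts.map lift).map fun P => Finsupp.single P (1 : ℤ)).sum with hO
  have hOdeg : Divisor.degree O = g0 := by
    rw [hO, map_sub, degree_sum_single, List.length_map, hlen]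
    omega
  have hOfix : ∀ g ∈ G, g • O = O := fun g hg => by
    rw [hO, smul_sub, smul_comm g, hB g hg, smul_sum_single]
    intro P hP
    obtain ⟨Q, -, rfl⟩ := List.mem_map.1 hP
    exact hliftfix Q g hg
  have hrO : Finsupp.mapDomain S.r O = Finsupp.mapDomain S.r (N • B) -
      (pts.map fun P => Finsupp.single P (1 : ℤ)).sum := by
    rw [hO, Finsupp.mapDomain_sub, mapDomain_sum_single,
      show (pts.map lift).map S.r = pts by
        rw [List.map_map, show S.r ∘ lift = id from funext hlift, List.map_id]]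
  have hexactO : ∀ (x : M) (D : Divisor.degZero (K := K) (F := F)), Pic0.mk D = cls x →
      rrDim (Finsupp.mapDomain S.r ((D : Divisor K F) + O)) = 1 := fun x D hD => by
    have h1 := hdim x
    rw [Finsupp.mapDomain_add, add_sub_assoc, ← hrO, ← Finsupp.mapDomain_add, hgg] at h1
    have h2 : rrDim (Finsupp.mapDomain S.r ((rep x : Divisor K F) + O)) = 1 := by omega
    rw [← h2]
    refine rrDim_eq_of_isPrincipal ?_
    rw [← Finsupp.mapDomain_sub, add_sub_add_right_eq_sub]
    exact isPrincipal_mapDomain S (Jac.pic0_mk_eq_iff.1 (hD.trans (hrep x).symm))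
  -- the auxiliary divisor and the functionals
  obtain ⟨N', hN'⟩ := hbig (c + 1 + 3 * |g0| + |g0|)
  set D := N' • B + O with hDdef
  have hDdeg : c + 1 + 3 * |g0| ≤ Divisor.degree D := by
    rw [hDdef, map_add, hOdeg]
    have := neg_abs_le g0
    linarith
  have hlowO : Θ.Low O := ⟨N, fun v => by
    have h : (0 : Divisor K F) ≤ ((pts.map lift).map fun P => Finsupp.single P (1 : ℤ)).sum := by
      refine List.sum_nonneg fun x hx => ?_
      obtain ⟨P, -, rfl⟩ := List.mem_map.1 hx
      exact Finsupp.single_nonneg.2 zero_le_one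
    have := h v
    simp only [hO, Finsupp.sub_apply, Finsupp.zero_apply] at *
    linarith⟩
  have hlowD : Θ.Low D := Coef.Low.add ⟨N', le_rfl⟩ hlowO
  have hlowU : Θ.Low (3 • D - 3 • O) := ⟨3 * N', by
    rw [hDdef, smul_add, add_sub_cancel_right, mul_smul]⟩
  have hone : ∀ (x : M) (D : Divisor.degZero (K := K) (F := F)), Pic0.mk D = cls x →
      rrDim ((D : Divisor K F) + O) = 1 := fun x D hD =>
    le_antisymm ((S.rrDim_le _).trans (hexactO x D hD).le) (one_le_rrDim (by
      rw [map_add, hOdeg, show Divisor.degree (D : Divisor K F) = 0 from D.2, zero_add]))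
  have hpt : ∀ x, ∃ E : Divisor K F, 0 ≤ E ∧ Divisor.degree E = g0 ∧ ∀ E', 0 ≤ E' →
      (∃ h : Divisor.degree (E' - O) = 0, Pic0.mk ⟨E' - O, h⟩ = cls x) → E' = E := fun x =>
    hOdeg ▸ exists_effective_unique (hrep x) (hone x)
  choose E hE0 hEdeg hEuniq using hpt
  have hlowfam : ∀ (m : Fin 2) (x : M), Θ.Low (((m : ℕ) + 1) • D - E x) := fun m x =>
    (hlowD.nsmul ((m : ℕ) + 1)).mono fun v => by
      have := hE0 x v
      simp only [Finsupp.sub_apply, Finsupp.zero_apply] at *
      linarith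
  have hC : ∀ m : Fin 2, ∃ C : Funl A (bigDim (((m : ℕ) + 1) * Divisor.degree D - g0) g0),
      (∀ x, C.Bij Θ (((m : ℕ) + 1) • D - E x)) ∧ ∀ i e, C.wt i e ∈ Set.range τ := fun m => by
    refine exists_funl Θ (fun x => ((m : ℕ) + 1) • D - E x) (fun x => ?_) τ hτ hτ0
    have hd : Divisor.degree (((m : ℕ) + 1) • D - E x) =
        ((m : ℕ) + 1) * Divisor.degree D - g0 := by
      rw [map_sub, map_nsmul, hEdeg, nsmul_eq_mul]; push_cast; ring
    have hge : c ≤ ((m : ℕ) + 1) * Divisor.degree D - g0 := by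
      have h0 : (0 : ℤ) ≤ (m : ℕ) * Divisor.degree D := mul_nonneg (Int.natCast_nonneg _)
        (by have := hck.1; have := abs_nonneg g0; linarith)
      have := le_abs_self g0; have := abs_nonneg g0
      linarith
    have h1 := hcK.2 _ (hd ▸ hge)
    have h2 := hck.2 (Finsupp.mapDomain S.r (((m : ℕ) + 1) • D - E x))
      (by rw [S.degree_mapDomain, hd]; exact hge)
    rw [S.degree_mapDomain, hgg, hd] at h2
    rw [hd] at h1
    exact ⟨by simp only [bigDim]; omega, by simp only [bigDim]; omega, hlowfam m x⟩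
  choose C hCbij hCτ using hC
  refine ⟨⟨c, hcK, hck, hgen, cls, hcls, O, hOdeg, hexactO, D, hDdeg, hlowO, hlowD, hlowU, C,
    fun m x E' hE' he => ?_⟩,
    rfl, hOfix, fun g hg => ?_, fun g hg m i e => ?_⟩
  · rw [hEuniq x E' hE' he]; exact hCbij m x
  · show g • (N' • B + O) = N' • B + O
    rw [smul_add, smul_comm g, hB g hg, hOfix g hg]
  · obtain ⟨a, ha⟩ := hCτ m i e
    show baseAut g ((C m).wt i e : K) = (C m).wt i e
    rw [← ha]; exact hτfix g hg a

end FermatAgent.Flat
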