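import Fermat.Agent.Curve.Jac.Generic
import Mathlib.GroupTheory.CosetCover
import Mathlib.FieldTheory.IsAlgClosed.Basic

/-!
# Multiplication of Riemann–Roch spaces of large degree; generic points
-/

set_option autoImplicit false

noncomputable section

open AlgebraicCurve Module FermatAgent.Curve FermatAgent.Curve.Jac

namespace FermatAgent.Flat

variable {K F : Type*} [Field K] [Field F] [Algebra K F] [IsFF K F] [IsAlgClosed K]

variable (K F) in
/-- Riemann's theorem holds from this degree on. -/
def IsThreshold (c : ℤ) : Prop :=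
  0 ≤ c ∧ ∀ D : Divisor K F, c ≤ Divisor.degree D →
    (rrDim D : ℤ) = Divisor.degree D + 1 - rGenus K F

omit [IsAlgClosed K] in
/-- A threshold exists. -/
theorem exists_isThreshold : ∃ c : ℤ, IsThreshold K F c := by
  obtain ⟨c, hc⟩ := exists_rrDim_eq (K := K) (F := F)
  exact ⟨max c 0, le_max_right _ _, fun D hD => hc D ((le_max_left _ _).trans hD)⟩

/-- Removing a point lowers the degree by one. -/
theorem degree_sub_single (G : Divisor K F) (P : Place K F) :
    Divisor.degree (G - Finsupp.single P 1) = Divisor.degree G - 1 := by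
  rw [map_sub, Divisor.degree_single, deg_eq_one P]; norm_num

omit [IsAlgClosed K] in
/-- Two sections without common zeros give many products. -/
theorem rrDim_pencil_le {G G' : Divisor K F} {s t : F} (hs0 : s ≠ 0)
    (hst : ∀ P : Place K F, P.ord s = -G P ∨ (t ≠ 0 ∧ P.ord t = -G P))
    {V : Submodule K F} [Module.Finite K V] (hsV : ∀ a ∈ riemannRochSpace G', s * a ∈ V)
    (htV : ∀ a ∈ riemannRochSpace G', t * a ∈ V) :
    2 * rrDim G' ≤ finrank K V + rrDim (G' - G) := by
  let φ : riemannRochSpace G' × riemannRochSpace G' →ₗ[K] F :=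
    (LinearMap.mulLeft K s).comp ((riemannRochSpace G').subtype.comp (LinearMap.fst K _ _)) +
      (LinearMap.mulLeft K t).comp ((riemannRochSpace G').subtype.comp (LinearMap.snd K _ _))
  have hφ : ∀ a, φ a = s * (a.1 : F) + t * (a.2 : F) := fun a => rfl
  have hle : LinearMap.range φ ≤ V := by
    rintro _ ⟨a, rfl⟩
    rw [hφ]
    exact add_mem (hsV _ a.1.2) (htV _ a.2.2)
  have hker : finrank K (LinearMap.ker φ) ≤ rrDim (G' - G) := by
    have hmem : ∀ a : LinearMap.ker φ,
        -((a : riemannRochSpace G' × riemannRochSpace G').2 : F) / s ∈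
          riemannRochSpace (G' - G) := by
      rintro ⟨a, ha⟩
      rw [LinearMap.mem_ker, hφ] at ha
      by_cases h0 : -(a.2 : F) / s = 0
      · rw [h0]; exact zero_mem _
      rw [mem_riemannRochSpace_iff_ne_zero h0]
      intro P
      have ha2 : (a.2 : F) ≠ 0 := fun h => h0 (by rw [h, neg_zero, zero_div])
      rw [Finsupp.sub_apply, ord_div (neg_ne_zero.2 ha2) hs0, ord_neg_eq]
      have h2 := (mem_riemannRochSpace_iff_ne_zero ha2).1 a.2.2 P
      rcases hst P with h | ⟨ht0, h⟩
      · omega
      · have ha1 : (a.1 : F) ≠ 0 := fun h1 => by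
          rw [h1, mul_zero, zero_add] at ha
          exact mul_ne_zero ht0 ha2 ha
        have h1 := (mem_riemannRochSpace_iff_ne_zero ha1).1 a.1.2 P
        have h3 : P.ord (s * (a.1 : F)) = P.ord (t * (a.2 : F)) := by
          rw [eq_neg_of_add_eq_zero_left ha, ord_neg_eq]
        rw [Place.ord_mul P hs0 ha1, Place.ord_mul P ht0 ha2] at h3
        omega
    let ψ : LinearMap.ker φ →ₗ[K] riemannRochSpace (G' - G) :=
      { toFun := fun a => ⟨_, hmem a⟩
        map_add' := fun a b => Subtype.ext (by simp [neg_div, add_div]; ring)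
        map_smul' := fun r a => Subtype.ext (by
          simp [Algebra.smul_def, neg_div, mul_div_assoc]) }
    refine LinearMap.finrank_le_finrank_of_injective (f := ψ) fun a b hab => ?_
    have h2 : ((a : riemannRochSpace G' × riemannRochSpace G').2 : F) =
        ((b : riemannRochSpace G' × riemannRochSpace G').2 : F) := by
      have h := congrArg Subtype.val hab
      exact neg_injective ((div_left_inj' hs0).1 h)
    refine Subtype.ext (Prod.ext (Subtype.ext ?_) (Subtype.ext h2))
    have ha := a.2
    have hb := b.2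
    rw [LinearMap.mem_ker, hφ] at ha hb
    refine mul_left_cancel₀ hs0 ?_
    rw [h2] at ha
    linear_combination ha - hb
  have hrank := φ.finrank_range_add_finrank_ker
  rw [Module.finrank_prod] at hrank
  have hV := Submodule.finrank_mono hle
  simp only [rrDim] at hker ⊢
  omega

variable {c : ℤ} (hc : IsThreshold K F c)
include hc

/-- Above the threshold some function attains the bound at a given point. -/
theorem exists_ord_eq_neg {G : Divisor K F} (hG : c + 1 ≤ Divisor.degree G) (P : Place K F) :
    ∃ f ∈ riemannRochSpace G, f ≠ 0 ∧ P.ord f = -G P := by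
  obtain ⟨f, hf, hf0, h⟩ := exists_exact hc.2 (D := G) (by omega) fun _ : Unit => P
  exact ⟨f, hf, hf0, h ()⟩

/-- Spaces of large degree determine the divisor. -/
theorem le_of_riemannRochSpace_le {G G' : Divisor K F} (hG : c + 1 ≤ Divisor.degree G)
    (h : riemannRochSpace G ≤ riemannRochSpace G') : G ≤ G' := fun P => by
  obtain ⟨f, hf, hf0, he⟩ := exists_ord_eq_neg hc hG P
  have := (mem_riemannRochSpace_iff_ne_zero hf0).1 (h hf) P
  omega

/-- Colon by a space without base points. -/
theorem mem_of_mul_mem_all {G W V : Divisor K F} (hG : c + 1 ≤ Divisor.degree G)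
    (hWV : V ≤ W + G) {z : F}
    (h : ∀ g ∈ riemannRochSpace G, z * g ∈ riemannRochSpace V) : z ∈ riemannRochSpace W := by
  by_cases hz : z = 0
  · rw [hz]; exact zero_mem _
  rw [mem_riemannRochSpace_iff_ne_zero hz]
  intro P
  obtain ⟨f, hf, hf0, he⟩ := exists_ord_eq_neg hc hG P
  have h1 := (mem_riemannRochSpace_iff_ne_zero (mul_ne_zero hz hf0)).1 (h f hf) P
  have h2 := hWV P
  rw [Place.ord_mul P hz hf0, he] at h1
  simp only [Finsupp.add_apply] at h2
  omega

theorem exists_pencil {G : Divisor K F} (hG : c + 1 ≤ Divisor.degree G) :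
    ∃ s ∈ riemannRochSpace G, ∃ t ∈ riemannRochSpace G, s ≠ 0 ∧
      ∀ P : Place K F, P.ord s = -G P ∨ (t ≠ 0 ∧ P.ord t = -G P) := by
  classical
  have : Infinite K := IsAlgClosed.instInfinite
  obtain ⟨P₀⟩ := exists_place (K := K) (F := F)
  obtain ⟨s, hs, hs0, -⟩ := exists_ord_eq_neg hc hG P₀
  set bad := (divisorOf (K := K) s).support ∪ G.support
  obtain ⟨t, ht, ht0, htP⟩ :=
    exists_exact hc.2 (D := G) (by omega) fun P : Option bad => P.elim P₀ Subtype.val
  refine ⟨s, hs, t, ht, hs0, fun P => ?_⟩
  by_cases hP : P ∈ bad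
  · exact Or.inr ⟨ht0, htP (some ⟨P, hP⟩)⟩
  · simp only [bad, Finset.mem_union, Finsupp.mem_support_iff, not_or, not_not,
      divisorOf_apply] at hP
    exact Or.inl (by rw [hP.1, hP.2, neg_zero])

/-- Products of two spaces span. -/
theorem span_mul_eq {G G' : Divisor K F} (hG : c + 1 ≤ Divisor.degree G)
    (hd : c ≤ Divisor.degree G' - Divisor.degree G) :
    riemannRochSpace (G + G') ≤ Submodule.span K
      (Set.image2 (· * ·) (riemannRochSpace G : Set F) (riemannRochSpace G' : Set F)) := by
  classical
  obtain ⟨s, hs, t, ht, hs0, hst⟩ := exists_pencil hc hG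
  set V := Submodule.span K
    (Set.image2 (· * ·) (riemannRochSpace G : Set F) (riemannRochSpace G' : Set F))
  have hV : V ≤ riemannRochSpace (G + G') := by
    refine Submodule.span_le.2 ?_
    rintro _ ⟨u, hu, v, hv, rfl⟩
    exact mul_mem_riemannRochSpace hu hv
  have : Module.Finite K V :=
    Module.Finite.of_injective _ (Submodule.inclusion_injective hV)
  have h := rrDim_pencil_le (V := V) hs0 hst
    (fun a ha => Submodule.subset_span ⟨s, hs, a, ha, rfl⟩)
    fun a ha => Submodule.subset_span ⟨t, ht, a, ha, rfl⟩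
  have h1 := hc.2 G' (by have := hc.1; omega)
  have h2 := hc.2 (G' - G) (by rw [map_sub]; exact hd)
  have h3 := hc.2 (G + G') (by rw [map_add]; have := hc.1; omega)
  rw [map_sub] at h2
  rw [map_add] at h3
  refine (Submodule.eq_of_le_of_finrank_le hV ?_).ge
  simp only [rrDim] at h h1 h2 h3 ⊢
  omega

omit hc in
/-- Removing a point outside the support of a section drops the dimension by one. -/
theorem rrDim_sub_single_of_notMem {D : Divisor K F} {f : F} (hf0 : f ≠ 0)
    (hf : f ∈ riemannRochSpace D) {P : Place K F} (h1 : P.ord f = 0) (h2 : D P = 0) :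
    rrDim D = rrDim (D - Finsupp.single P 1) + 1 := by
  classical
  have hle : D - Finsupp.single P 1 ≤ D := fun v => by
    simp only [Finsupp.sub_apply, Finsupp.single_apply]; split_ifs <;> omega
  have hlt : riemannRochSpace (D - Finsupp.single P 1) < riemannRochSpace D := by
    refine lt_of_le_of_ne (riemannRochSpace_le_of_le hle) fun e => ?_
    rw [← e, mem_riemannRochSpace_iff_ne_zero hf0] at hf
    have := hf P
    simp only [Finsupp.sub_apply, Finsupp.single_eq_same] at this
    omega
  have h3 : rrDim (D - Finsupp.single P 1) < rrDim D := Submodule.finrank_lt_finrank_of_lt hlt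
  have h4 := rrDim_le_add hle
  rw [sub_sub_cancel, Divisor.degree_single, deg_eq_one P] at h4
  omega

/-- Generic points lower the dimension as far as Riemann's bound allows. -/
theorem exists_generic_points {Y : Type*} [Finite Y] (D : Y → Divisor K F) (d : ℤ)
    (hd : ∀ y, Divisor.degree (D y) = d) (hcd : c ≤ d) {T : Set (Place K F)} (hT : T.Infinite) :
    ∀ j : ℕ, (j : ℤ) ≤ d - rGenus K F → ∃ pts : List (Place K F), pts.length = j ∧
      (∀ P ∈ pts, P ∈ T) ∧
      ∀ y, (rrDim (D y - (pts.map fun P => Finsupp.single P 1).sum) : ℤ) =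
        d - j + 1 - rGenus K F := by
  classical
  have := Fintype.ofFinite Y
  intro j
  induction j with
  | zero =>
    exact fun _ => ⟨[], rfl, by simp, fun y => by
      simp [hc.2 (D y) ((hd y).symm ▸ hcd), hd]⟩
  | succ j ih =>
    intro hj
    push_cast at hj
    obtain ⟨pts, hlen, hmem, hdim⟩ := ih (by omega)
    set E := fun y => D y - (pts.map fun P => Finsupp.single P 1).sum
    have hex : ∀ y, ∃ f : F, f ≠ 0 ∧ f ∈ riemannRochSpace (E y) := fun y => by
      have h1 : 0 < rrDim (E y) := by
        have h0 : (rrDim (E y) : ℤ) = d - j + 1 - rGenus K F := hdim y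
        omega
      obtain ⟨f, hf⟩ := Module.finrank_pos_iff_exists_ne_zero.1 h1
      exact ⟨f, fun h => hf (Subtype.ext h), f.2⟩
    choose f hf0 hf using hex
    obtain ⟨P, hPT, hP⟩ := hT.exists_notMem_finset
      (Finset.univ.biUnion fun y => (divisorOf (K := K) (f y)).support ∪ (E y).support)
    refine ⟨P :: pts, by simp [hlen], fun Q hQ => ?_, fun y => ?_⟩
    · rcases List.mem_cons.1 hQ with rfl | h
      · exact hPT
      · exact hmem Q h
    · simp only [Finset.mem_biUnion, Finset.mem_univ, true_and, Finset.mem_union,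
        Finsupp.mem_support_iff, not_exists, not_or, not_not, divisorOf_apply] at hP
      have h1 := rrDim_sub_single_of_notMem (hf0 y) (hf y) (hP y).1 (hP y).2
      have h2 : (rrDim (E y) : ℤ) = d - j + 1 - rGenus K F := hdim y
      rw [List.map_cons, List.sum_cons, add_comm, ← sub_sub]
      simp only [E] at h1 h2 ⊢
      push_cast
      omega

end FermatAgent.Flat
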