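import Fermat.Agent.Flat.Colon
import Fermat.Agent.Flat.Pencil
import Fermat.Prelude.Def_AlgebraicCurve_BaseChangeGalois

/-!
# Divisors representing a finite group of classes, and their normalised spaces
-/

set_option autoImplicit false

noncomputable section

open AlgebraicCurve Module FermatAgent.Curve

namespace FermatAgent.Flat

variable {K : Type*} [Field K] {A : ValuationSubring K} {k : Type*} [Field k] {ρ : A →+* k}
  {F Fb : Type*} [Field F] [Algebra K F] [Field Fb] [Algebra k Fb] [IsFF K F] [IsFF k Fb]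

/-- Reduction preserves principal divisors. -/
theorem isPrincipal_mapDomain (S : ConstRed A ρ F Fb) {D : Divisor K F}
    (h : Divisor.IsPrincipal D) : Divisor.IsPrincipal (Finsupp.mapDomain S.r D) := by
  obtain ⟨f, hf, rfl⟩ := isPrincipal_iff.1 h
  obtain ⟨l, g, hl, he, hg⟩ := S.exists_normal hf
  have hg0 : (g : F) ≠ 0 := fun h0 => hf (by rw [he, h0, mul_zero])
  refine isPrincipal_iff.2 ⟨S.red g, hg, ?_⟩
  rw [← S.mapDomain_r g hg, he, divisorOf_mul ((_root_.map_ne_zero _).2 hl) hg0]
  congr 1
  exact Finsupp.ext fun v => by simp [ord_algebraMap hl]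

/-- The dimension of spaces of large degree. -/
def bigDim (a g : ℤ) : ℕ := (a + 1 - g).toNat

/-- The data from which coordinates on a finite group of classes are built. -/
structure Frame {S : ConstRed A ρ F Fb} (Θ : Coef S) (M : Type*) [AddCommGroup M] where
  /-- the threshold -/
  c : ℤ
  thrK : IsThreshold K F c
  thrk : IsThreshold k Fb c
  genus_le : rGenus K F ≤ rGenus k Fb
  /-- the classes -/
  cls : M →+ Pic0 K F
  cls_injective : Function.Injective cls
  /-- the origin -/
  O : Divisor K F
  degO : Divisor.degree O = rGenus K F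
  exactO : ∀ (x : M) (D : Divisor.degZero (K := K) (F := F)), Pic0.mk D = cls x →
    rrDim (Finsupp.mapDomain S.r ((D : Divisor K F) + O)) = 1
  /-- the auxiliary divisor -/
  D : Divisor K F
  degD : c + 1 + 3 * |rGenus K F| ≤ Divisor.degree D
  lowO : Θ.Low O
  lowD : Θ.Low D
  lowU : Θ.Low (3 • D - 3 • O)
  /-- functionals for the two families -/
  C : (m : Fin 2) →
    Funl A (bigDim (((m : ℕ) + 1) * Divisor.degree D - rGenus K F) (rGenus K F))
  bijC : ∀ (m : Fin 2) (x : M) (E : Divisor K F), 0 ≤ E →
    (∃ h : Divisor.degree (E - O) = 0, Pic0.mk ⟨E - O, h⟩ = cls x) →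
    (C m).Bij Θ (((m : ℕ) + 1) • D - E)

namespace Frame

variable {S : ConstRed A ρ F Fb} {Θ : Coef S} {M : Type*} [AddCommGroup M] (P : Frame Θ M)

/-- `E` is the effective divisor attached to `x`. -/
def IsPt (x : M) (E : Divisor K F) : Prop :=
  0 ≤ E ∧ ∃ h : Divisor.degree (E - P.O) = 0, Pic0.mk ⟨E - P.O, h⟩ = P.cls x

variable {P}

/-- The divisor of a point has degree the genus. -/
theorem IsPt.degree {x : M} {E : Divisor K F} (h : P.IsPt x E) :
    Divisor.degree E = rGenus K F := by
  obtain ⟨-, h0, -⟩ := h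
  rw [map_sub, P.degO] at h0
  omega

/-- The translate of the class of a point by the origin has a one-dimensional space. -/
theorem rrDim_add_O {x : M} {D : Divisor.degZero (K := K) (F := F)} (hD : Pic0.mk D = P.cls x) :
    rrDim ((D : Divisor K F) + P.O) = 1 := by
  refine le_antisymm ((S.rrDim_le _).trans (P.exactO x D hD).le) (one_le_rrDim ?_)
  rw [map_add, P.degO, show Divisor.degree (D : Divisor K F) = 0 from D.2, zero_add]

variable (P) in
theorem exists_isPt (x : M) : ∃ E, P.IsPt x E := by
  obtain ⟨D, hD⟩ := Pic0.mk_surjective (P.cls x)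
  obtain ⟨f, hf⟩ := Module.finrank_pos_iff_exists_ne_zero.1
    (show 0 < rrDim ((D : Divisor K F) + P.O) by rw [rrDim_add_O hD]; exact one_pos)
  have hf0 : (f : F) ≠ 0 := fun h => hf (Subtype.ext h)
  refine ⟨divisorOf (f : F) + ((D : Divisor K F) + P.O), fun v => ?_, ?_, ?_⟩
  · have := (mem_riemannRochSpace_iff_ne_zero hf0).1 f.2 v
    simp only [Finsupp.add_apply, Finsupp.zero_apply, divisorOf_apply] at this ⊢
    omega
  · rw [← add_assoc, add_sub_cancel_right, map_add, degree_divisorOf,
      show Divisor.degree (D : Divisor K F) = 0 from D.2, add_zero]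
  · rw [← hD, Jac.pic0_mk_eq_iff]
    refine isPrincipal_iff.2 ⟨(f : F), hf0, ?_⟩
    show divisorOf (f : F) + ((D : Divisor K F) + P.O) - P.O - (D : Divisor K F) = _
    abel

/-- The effective divisor of a point is unique. -/
theorem IsPt.unique {x : M} {E E' : Divisor K F} (h : P.IsPt x E) (h' : P.IsPt x E') : E = E' := by
  obtain ⟨hE, h0, he⟩ := h
  obtain ⟨hE', h0', he'⟩ := h'
  have h1 := rrDim_add_O he'
  simp only [sub_add_cancel] at h1
  refine eq_of_isPrincipal_sub hE hE' h1 ?_
  have h2 := Jac.pic0_mk_eq_iff.1 (he.trans he'.symm)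
  simpa using h2

variable (P) in
/-- The effective divisor attached to a point. -/
def pt (x : M) : Divisor K F := (P.exists_isPt x).choose

variable (P) in
/-- `pt` is the divisor of the point. -/
theorem isPt_pt (x : M) : P.IsPt x (P.pt x) := (P.exists_isPt x).choose_spec

theorem pt_injective : Function.Injective P.pt := fun x y h => P.cls_injective (by
  obtain ⟨-, hx, ex⟩ := P.isPt_pt x
  obtain ⟨-, hy, ey⟩ := P.isPt_pt y
  rw [← ex, ← ey]
  congr 1
  exact Subtype.ext (by simp only [h]))

/-- A frame forces the genus to be non-negative. -/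
theorem genus_nonneg (P : Frame Θ M) : 0 ≤ rGenus K F :=
  (P.isPt_pt 0).degree ▸ degree_nonneg_of_nonneg (P.isPt_pt 0).1

variable (P) in
/-- Low divisors of large degree are exact of the expected dimension. -/
theorem exact_of_degree [IsAlgClosed K] [IsAlgClosed k] {E : Divisor K F} {a : ℤ}
    (hE : Divisor.degree E = a)
    (ha : P.c ≤ a)
    (hlow : Θ.Low E) : Exact Θ E (bigDim a (rGenus K F)) := by
  have h1 := P.thrK.2 E (hE ▸ ha)
  have h2 := P.thrk.2 (Finsupp.mapDomain S.r E) (by rw [S.degree_mapDomain, hE]; exact ha)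
  rw [S.degree_mapDomain, S.rGenus_eq P.genus_le, hE] at h2
  rw [hE] at h1
  exact ⟨by simp only [bigDim]; omega, by simp only [bigDim]; omega, hlow⟩

variable (P) in
/-- The family of divisors of the `m`-th family. -/
def fam (m : Fin 2) (x : M) : Divisor K F := ((m : ℕ) + 1) • P.D - P.pt x

/-- The degrees of the families. -/
theorem degree_fam (m : Fin 2) (x : M) :
    Divisor.degree (P.fam m x) = ((m : ℕ) + 1) * Divisor.degree P.D - rGenus K F := by
  rw [fam, map_sub, map_nsmul, (P.isPt_pt x).degree, nsmul_eq_mul]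
  push_cast
  ring

/-- The families have degree above the threshold. -/
theorem bound_fam (m : Fin 2) :
    P.c + 1 ≤ ((m : ℕ) + 1) * Divisor.degree P.D - rGenus K F := by
  have := P.degD
  have := P.thrK.1
  have := abs_nonneg (rGenus K F)
  have := le_abs_self (rGenus K F)
  have h0 : (0 : ℤ) ≤ (m : ℕ) * Divisor.degree P.D :=
    mul_nonneg (Int.natCast_nonneg _) (by linarith)
  linarith

/-- The families are low. -/
theorem low_fam (m : Fin 2) (x : M) : Θ.Low (P.fam m x) :=
  (P.lowD.nsmul ((m : ℕ) + 1)).mono fun v => by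
    have := (P.isPt_pt x).1 v
    simp only [fam, Finsupp.sub_apply, Finsupp.zero_apply] at *
    linarith

/-- The families are exact. -/
theorem exact_fam [IsAlgClosed K] [IsAlgClosed k] (m : Fin 2) (x : M) : Exact Θ (P.fam m x)
    (bigDim (((m : ℕ) + 1) * Divisor.degree P.D - rGenus K F) (rGenus K F)) :=
  P.exact_of_degree (degree_fam m x) (by have := bound_fam (P := P) m; omega) (low_fam m x)

/-- The functionals are bijective on the families. -/
theorem bij_fam (m : Fin 2) (x : M) : (P.C m).Bij Θ (P.fam m x) :=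
  P.bijC m x _ (P.isPt_pt x).1 (P.isPt_pt x).2

variable [IsAlgClosed K] [IsAlgClosed k]

variable (P) in
/-- The normalised basis. -/
def nb (m : Fin 2) (i : Fin (bigDim (((m : ℕ) + 1) * Divisor.degree P.D - rGenus K F) (rGenus K F)))
    (x : M) : S.O :=
  (exists_normalised Θ (P.exact_fam m x) (P.bij_fam m x)).choose i

/-- The normalised basis lies in the space. -/
theorem nb_mem (m : Fin 2) (i) (x : M) : (P.nb m i x : F) ∈ riemannRochSpace (P.fam m x) :=
  (exists_normalised Θ (P.exact_fam m x) (P.bij_fam m x)).choose_spec.1 i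

/-- The normalised basis is dual to the functionals. -/
theorem nb_delta (m : Fin 2) (i j) (x : M) :
    (P.C m).app Θ j (P.nb m i x : F) = if j = i then 1 else 0 :=
  (exists_normalised Θ (P.exact_fam m x) (P.bij_fam m x)).choose_spec.2 i j

/-- The normalised basis is characterised by the functionals. -/
theorem nb_unique (m : Fin 2) (i) (x : M) {f : F} (hf : f ∈ riemannRochSpace (P.fam m x))
    (h : ∀ j, (P.C m).app Θ j f = if j = i then 1 else 0) : f = (P.nb m i x : F) :=
  sub_eq_zero.1 (eq_zero_of_app Θ (P.exact_fam m x) (P.bij_fam m x)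
    (Submodule.sub_mem _ hf (nb_mem m i x)) fun j => by rw [map_sub, h, nb_delta, sub_self])

variable (P) in
/-- The coordinates. -/
def coords : Set (M → K) :=
  {φ | ∃ (m : Fin 2) (i : Fin (bigDim (((m : ℕ) + 1) * Divisor.degree P.D - rGenus K F)
    (rGenus K F))) (e : ℤ), φ = fun x => Θ.cf e (P.nb m i x : F)}

/-- Coordinates are integral. -/
theorem coords_integral {φ : M → K} (h : φ ∈ P.coords) (x : M) : φ x ∈ A := by
  obtain ⟨m, i, e, rfl⟩ := h
  exact Θ.cf_mem ((low_fam m x).reg (nb_mem m i x)) e

/-- Coordinates separate points. -/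
theorem coords_separated {x y : M} (h : x ≠ y) : ∃ φ ∈ P.coords, φ x ≠ φ y := by
  by_contra hall
  push Not at hall
  refine h (pt_injective (P := P) ?_)
  have key : ∀ u v : M, (∀ φ ∈ P.coords, φ u = φ v) → P.fam 0 u ≤ P.fam 0 v := fun u v huv => by
    refine le_of_riemannRochSpace_le P.thrK ?_ fun f hf => ?_
    · rw [degree_fam]; exact bound_fam 0
    rw [eq_sum_normalised Θ (P.exact_fam 0 u) (P.bij_fam 0 u) (fun i => nb_mem 0 i u)
      (fun i j => nb_delta 0 i j u) hf]
    refine Submodule.sum_mem _ fun i _ => Submodule.smul_mem _ _ ?_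
    rw [show (P.nb 0 i u : F) = (P.nb 0 i v : F) from sub_eq_zero.1 (Θ.eq_zero_of_cf fun e => by
      rw [map_sub, huv _ ⟨0, i, e, rfl⟩, sub_self])]
    exact nb_mem 0 i v
  have h1 := le_antisymm (key x y hall) (key y x fun φ hφ => (hall φ hφ).symm)
  exact (sub_right_inj).1 h1

end Frame

end FermatAgent.Flat
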