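import Fermat.Agent.Flat.Coord

/-!
# The lattice of invariant functions spans the coordinate ring

For a coordinate system `Φ` on a finite Galois module with values in `A` (`IsCoordSystem`) and a
finite Galois level, every element of the algebra generated by `Φ` is an `A`-combination of Galois
invariant elements of it (`adjoin_le_invSpan`). First some nonzero integer multiple of every
integral function is one (`exists_mul_mem`, `exists_mul_mem_invSpan`, by traces); then traces of
multiples of a coordinate by powers of a separator of the places over `ℓ` remove the integer.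
-/

set_option autoImplicit false

noncomputable section

open scoped Pointwise NumberField
open FermatAgent.GaloisBasic

namespace FermatAgent.Flat

variable {M : Type} [AddCommGroup M] [DistribMulAction GQ M]

theorem exists_intCast_mul_isIntegral (z : Qbar) :
    ∃ k : ℤ, k ≠ 0 ∧ IsIntegral ℤ ((k : Qbar) * z) := by
  have hz : IsAlgebraic ℤ z :=
    (IsFractionRing.isAlgebraic_iff ℤ ℚ Qbar).mpr (Algebra.IsAlgebraic.isAlgebraic z)
  obtain ⟨k, hk, h⟩ := hz.exists_integral_multiple
  exact ⟨k, hk, by rwa [zsmul_eq_mul] at h⟩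

theorem isIntegral_mem (A : ValuationSubring Qbar) {z : Qbar} (h : IsIntegral ℤ z) : z ∈ A :=
  zbar_mem A ⟨z, h⟩

variable (A : ValuationSubring Qbar) (Φ : Set (M → Qbar))

/-- The invariant elements of the coordinate ring, as a set. -/
def invSet : Set (M → Qbar) :=
  {f | f ∈ Algebra.adjoin A Φ ∧ ∀ σ : GQ, tw σ f = f}

/-- The span of the invariant elements. -/
def invSpan : Submodule A (M → Qbar) := Submodule.span A (invSet A Φ)

theorem invSpan_le : invSpan A Φ ≤ Subalgebra.toSubmodule (Algebra.adjoin A Φ) :=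
  Submodule.span_le.2 fun _ h => h.1

theorem invSpan_mul {f g : M → Qbar} (hf : f ∈ invSpan A Φ) (hg : g ∈ invSpan A Φ) :
    f * g ∈ invSpan A Φ := by
  have h := Submodule.mul_mem_mul hf hg
  rw [invSpan, Submodule.span_mul_span] at h
  refine Submodule.span_mono ?_ h
  rintro _ ⟨u, hu, v, hv, rfl⟩
  exact ⟨mul_mem hu.1 hv.1, fun σ => by show tw σ (u * v) = u * v; rw [map_mul, hu.2, hv.2]⟩

theorem one_mem_invSpan : (1 : M → Qbar) ∈ invSpan A Φ :=
  Submodule.subset_span ⟨one_mem _, fun _ => map_one _⟩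

omit [AddCommGroup M] [DistribMulAction GQ M] in
theorem mul_smul_mem {S : Submodule A (M → Qbar)} {a : Qbar} (ha : a ∈ A) {f : M → Qbar}
    (hf : f ∈ S) : a • f ∈ S :=
  S.smul_mem ⟨a, ha⟩ hf

theorem fintype_quotient_comap (L : IntermediateField ℚ Qbar) [FiniteDimensional ℚ L]
    [IsGalois ℚ L] (I : Subgroup (L ≃ₐ[ℚ] L)) :
    Nonempty (Fintype (GQ ⧸ I.comap (AlgEquiv.restrictNormalHom (F := ℚ) (K₁ := Qbar) L))) := by
  have : (I.comap (AlgEquiv.restrictNormalHom (F := ℚ) (K₁ := Qbar) L)).FiniteIndex := ⟨by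
    rw [Subgroup.index_comap_of_surjective _
      (AlgEquiv.restrictNormalHom_surjective (F := ℚ) (K₁ := L) Qbar)]
    exact Subgroup.index_ne_zero_of_finite⟩
  exact ⟨Subgroup.fintypeQuotientOfFiniteIndex⟩

variable {A Φ}

/-- Denominators can be cleared in the span of the invariant elements. -/
private lemma exists_intCast_smul_mem_invSpan {v : M → Qbar}
    (hv : v ∈ Submodule.span Qbar (invSet A Φ)) :
    ∃ n : ℤ, n ≠ 0 ∧ (n : Qbar) • v ∈ invSpan A Φ := by
  induction hv using Submodule.span_induction with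
  | mem v hv =>
    exact ⟨1, one_ne_zero, by rw [Int.cast_one, one_smul]; exact Submodule.subset_span hv⟩
  | zero => exact ⟨1, one_ne_zero, by rw [smul_zero]; exact zero_mem _⟩
  | add v w _ _ hv hw =>
    obtain ⟨n, hn, hv⟩ := hv
    obtain ⟨n', hn', hw⟩ := hw
    refine ⟨n * n', mul_ne_zero hn hn', ?_⟩
    rw [Int.cast_mul, smul_add]
    refine add_mem ?_ ?_
    · rw [mul_comm, mul_smul]; exact mul_smul_mem A (intCast_mem A _) hv
    · rw [mul_smul]; exact mul_smul_mem A (intCast_mem A _) hw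
  | smul a v _ hv =>
    obtain ⟨n, hn, hv⟩ := hv
    obtain ⟨k, hk, hka⟩ := exists_intCast_mul_isIntegral a
    refine ⟨k * n, mul_ne_zero hk hn, ?_⟩
    rw [smul_smul, show ((k * n : ℤ) : Qbar) * a = ((k : Qbar) * a) * n by push_cast; ring,
      mul_smul]
    exact mul_smul_mem A (isIntegral_mem A hka) hv

/-- Large powers of an element of the maximal ideal absorb denominators. -/
private lemma exists_pow_mul_div_mem {ℓ : ℕ} [Fact ℓ.Prime] (hA : A.LiesOverPrime ℓ) {s : Qbar}
    (hs : s ∈ A) (hs1 : A.valuation s < 1) {m : ℤ} (hm : m ≠ 0) (z : Qbar) :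
    ∃ N : ℕ, ∀ k, N ≤ k → s ^ k * z / (m : Qbar) ∈ A := by
  obtain ⟨k₀, hk₀, hk₀z⟩ := exists_intCast_mul_isIntegral z
  obtain ⟨N, hN⟩ := Curve.Red.exists_pow_div_mem (c := (k₀ : Qbar) * m) hA hs1
    (mul_mem (intCast_mem A _) (intCast_mem A _))
    (mul_ne_zero (Int.cast_ne_zero.2 hk₀) (Int.cast_ne_zero.2 hm))
  refine ⟨N, fun k hk => ?_⟩
  obtain ⟨d, rfl⟩ := Nat.exists_eq_add_of_le hk
  have hk' : (k₀ : Qbar) ≠ 0 := Int.cast_ne_zero.2 hk₀
  rw [show s ^ (N + d) * z / (m : Qbar) =
    s ^ N / ((k₀ : Qbar) * m) * (s ^ d * ((k₀ : Qbar) * z)) by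
    field_simp; ring]
  exact mul_mem hN (mul_mem (pow_mem hs d) (isIntegral_mem A hk₀z))

/-- Interpolation: from the power sums of `s` to the products `∏ (s q - s e)`. -/
private lemma sum_prod_sub_smul_mem {ι : Type*} [DecidableEq ι] {D : Finset ι} (s : ι → Qbar)
    (v : ι → M → Qbar) (hs : ∀ q, s q ∈ A) {N : ℕ}
    (hsum : ∀ j, ∑ q ∈ D, s q ^ (N + j) • v q ∈ invSpan A Φ) (E : Finset ι) (j : ℕ) :
    ∑ q ∈ D, ((∏ e ∈ E, (s q - s e)) * s q ^ (N + j)) • v q ∈ invSpan A Φ := by
  induction E using Finset.induction_on generalizing j with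
  | empty => simpa using hsum j
  | insert e E he ih =>
    have h1 := sub_mem (ih (j + 1)) (mul_smul_mem (S := invSpan A Φ) A (hs e) (ih j))
    rw [Finset.smul_sum, ← Finset.sum_sub_distrib] at h1
    convert h1 using 2 with q
    rw [Finset.prod_insert he, smul_smul, ← sub_smul, ← add_assoc, pow_succ]
    congr 1
    ring

namespace IsCoordSystem

variable {L : IntermediateField ℚ Qbar} {ℓ : ℕ} (h : IsCoordSystem L A Φ)
include h

/-- The coordinate ring consists of integral functions. -/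
theorem mem_adjoin_integral {f : M → Qbar} (hf : f ∈ Algebra.adjoin A Φ) (x : M) : f x ∈ A := by
  induction hf using Algebra.adjoin_induction with
  | mem φ hφ => exact h.integral φ hφ x
  | algebraMap a => exact a.2
  | add f g _ _ hf hg => exact add_mem hf hg
  | mul f g _ _ hf hg => exact mul_mem hf hg

/-- A multiple of every integral function is in the coordinate ring. -/
theorem exists_mul_mem [Finite M] :
    ∃ m : ℤ, m ≠ 0 ∧ ∀ f : M → Qbar, (∀ x, f x ∈ A) →
      (m : Qbar) • f ∈ Algebra.adjoin A Φ := by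
  classical
  have := Fintype.ofFinite M
  choose φ hφ hφne using h.separated
  have key : ∀ x : M, ∃ k : ℤ, k ≠ 0 ∧
      (k : Qbar) • (Pi.single x 1 : M → Qbar) ∈ Algebra.adjoin A Φ := fun x => by
    let g : M → (M → Qbar) := fun y =>
      if hy : x ≠ y then φ x y hy - (fun _ => φ x y hy y) else 1
    have hg : ∀ y, g y ∈ Algebra.adjoin A Φ := fun y => by
      simp only [g]
      split_ifs with hy
      · exact sub_mem (Algebra.subset_adjoin (hφ x y hy))
          (Subalgebra.algebraMap_mem _ (⟨_, h.integral _ (hφ x y hy) y⟩ : A))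
      · exact one_mem _
    have hgx : ∀ y, g y x ≠ 0 := fun y => by
      simp only [g]
      split_ifs with hy
      · exact sub_ne_zero.2 (hφne x y hy)
      · exact one_ne_zero
    have hgy : ∀ y, x ≠ y → g y y = 0 := fun y hy => by
      simp only [g, dif_pos hy, Pi.sub_apply, sub_self]
    set c := ∏ y, g y x with hc
    have hprod : ∏ y, g y = c • (Pi.single x 1 : M → Qbar) := funext fun y => by
      rw [Finset.prod_apply, Pi.smul_apply]
      rcases eq_or_ne y x with rfl | hy
      · rw [Pi.single_eq_same, smul_eq_mul, mul_one]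
      · rw [Pi.single_eq_of_ne hy, smul_zero]
        exact Finset.prod_eq_zero (Finset.mem_univ y) (hgy y hy.symm)
    obtain ⟨k, hk, hkc⟩ := exists_intCast_mul_isIntegral c⁻¹
    refine ⟨k, hk, ?_⟩
    have h1 : c • (Pi.single x 1 : M → Qbar) ∈ Subalgebra.toSubmodule (Algebra.adjoin A Φ) :=
      hprod ▸ Subalgebra.prod_mem _ fun y _ => hg y
    have h2 := mul_smul_mem A (isIntegral_mem A hkc) h1
    rwa [smul_smul, mul_assoc, inv_mul_cancel₀ (Finset.prod_ne_zero_iff.2 fun y _ => hgx y),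
      mul_one] at h2
  choose k hk hkmem using key
  refine ⟨∏ x, k x, Finset.prod_ne_zero_iff.2 fun x _ => hk x, fun f hf => ?_⟩
  rw [← Finset.univ_sum_single f, Finset.smul_sum]
  refine Subalgebra.sum_mem _ fun x _ => ?_
  rw [← Finset.prod_erase_mul _ k (Finset.mem_univ x), Int.cast_mul, mul_smul,
    show Pi.single x (f x) = f x • (Pi.single x 1 : M → Qbar) by
      rw [← Pi.single_smul, smul_eq_mul, mul_one], smul_comm _ (f x)]
  exact mul_smul_mem (S := Subalgebra.toSubmodule (Algebra.adjoin A Φ)) A (intCast_mem A _)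
    (mul_smul_mem A (hf x) (hkmem x))

/-- The invariant elements span all functions. -/
theorem exists_mul_mem_invSpan [FiniteDimensional ℚ L] [IsGalois ℚ L] [Finite M] :
    ∃ m : ℤ, m ≠ 0 ∧ ∀ f : M → Qbar, (∀ x, f x ∈ A) → (m : Qbar) • f ∈ invSpan A Φ := by
  classical
  have := Fintype.ofFinite M
  obtain ⟨m, hm, hmA⟩ := h.exists_mul_mem
  set π := AlgEquiv.restrictNormalHom (F := ℚ) (K₁ := Qbar) L
  set H := (⊥ : Subgroup (L ≃ₐ[ℚ] L)).comap π
  obtain ⟨hfin⟩ := fintype_quotient_comap L ⊥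
  let : Fintype (GQ ⧸ H) := hfin
  have hH : ∀ σ ∈ H, σ ∈ L.fixingSubgroup := fun σ hσ =>
    (restrictNormalHom_eq_one_iff L σ).1 hσ
  -- traces
  have htr : ∀ (x : M) (ω : L),
      ∑ q : GQ ⧸ H, (q.out (ω : Qbar)) • (Pi.single (q.out • x) 1 : M → Qbar) ∈
        Submodule.span Qbar (invSet A Φ) := fun x ω => by
    obtain ⟨k, hk, hkω⟩ := exists_intCast_mul_isIntegral (ω : Qbar)
    have hf : ∀ σ ∈ H, tw σ (((k : Qbar) * ω) • (Pi.single x 1 : M → Qbar)) =
        ((k : Qbar) * ω) • (Pi.single x 1 : M → Qbar) := fun σ hσ => by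
      have hσL := hH σ hσ
      funext y
      rw [tw_apply, h.fixedM σ⁻¹ (inv_mem hσL), Pi.smul_apply]
      have hω : σ (ω : Qbar) = ω := (IntermediateField.mem_fixingSubgroup_iff L σ).1 hσL _ ω.2
      rcases eq_or_ne y x with rfl | hy
      · rw [Pi.single_eq_same, smul_eq_mul, mul_one, map_mul, map_intCast, hω]
      · rw [Pi.single_eq_of_ne hy, smul_zero, map_zero]
    have htw : ∀ σ : GQ, tw σ (((k : Qbar) * ω) • (Pi.single x 1 : M → Qbar)) =
        ((k : Qbar) * σ ω) • (Pi.single (σ • x) 1 : M → Qbar) := fun σ => by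
      rw [tw_smul, map_mul, map_intCast]
      congr 1
      funext y
      rw [tw_apply]
      rcases eq_or_ne y (σ • x) with rfl | hy
      · rw [inv_smul_smul, Pi.single_eq_same, Pi.single_eq_same, map_one]
      · rw [Pi.single_eq_of_ne hy,
          Pi.single_eq_of_ne fun e => hy (inv_smul_eq_iff.1 e), map_zero]
    set T := ∑ q : GQ ⧸ H, tw q.out (((k : Qbar) * ω) • (Pi.single x 1 : M → Qbar)) with hT
    have hTint : ∀ y, T y ∈ A := fun y => by
      rw [hT, Finset.sum_apply]
      refine sum_mem fun q _ => ?_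
      rw [htw, Pi.smul_apply, smul_eq_mul]
      refine mul_mem ?_ ?_
      · exact isIntegral_mem A (by
          have := hkω.map (q.out.toAlgHom.restrictScalars ℤ)
          simpa using this)
      · by_cases hy : y = q.out • x
        · rw [hy, Pi.single_eq_same]; exact one_mem A
        · rw [Pi.single_eq_of_ne hy]; exact zero_mem A
    have hTS : (m : Qbar) • T ∈ invSet A Φ := ⟨hmA T hTint, fun σ => by
      rw [tw_smul, map_intCast, hT, tw_trace H hf]⟩
    have := Submodule.smul_mem _ ((m : Qbar) * (k : Qbar))⁻¹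
      (Submodule.subset_span (R := Qbar) hTS)
    convert this using 1
    rw [smul_smul, hT, Finset.smul_sum]
    refine Finset.sum_congr rfl fun q _ => ?_
    rw [htw, smul_smul]
    have hmk : (m : Qbar) ≠ 0 ∧ (k : Qbar) ≠ 0 := ⟨Int.cast_ne_zero.2 hm, Int.cast_ne_zero.2 hk⟩
    congr 1
    field_simp [hmk.1, hmk.2]
  -- Dedekind
  have hdelta : ∀ x : M, (Pi.single x 1 : M → Qbar) ∈ Submodule.span Qbar (invSet A Φ) := by
    intro x
    by_contra hx
    obtain ⟨Λ, hΛx, hΛ⟩ := Submodule.exists_dual_map_eq_bot_of_notMem hx inferInstance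
    have hΛ0 : ∀ v ∈ Submodule.span Qbar (invSet A Φ), Λ v = 0 := fun v hv => by
      have h1 : Λ v ∈ (Submodule.span Qbar (invSet A Φ)).map Λ := Submodule.mem_map_of_mem hv
      rwa [hΛ, Submodule.mem_bot] at h1
    let emb : GQ ⧸ H → (L →ₐ[ℚ] Qbar) := fun q => q.out.toAlgHom.comp L.val
    have hemb : Function.Injective emb := fun q q' e => by
      rw [← QuotientGroup.out_eq' q, ← QuotientGroup.out_eq' q']
      refine QuotientGroup.eq.2 ?_
      show π (q.out⁻¹ * q'.out) = 1
      rw [restrictNormalHom_eq_one_iff, IntermediateField.mem_fixingSubgroup_iff]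
      intro z hz
      have e1 : q.out z = q'.out z := AlgHom.congr_fun e ⟨z, hz⟩
      rw [AlgEquiv.mul_apply, ← e1]
      exact q.out.symm_apply_apply z
    have hli : LinearIndependent Qbar fun q => (emb q).toLinearMap :=
      (linearIndependent_toLinearMap ℚ L Qbar).comp emb hemb
    have hzero := Fintype.linearIndependent_iff.1 hli
      (fun q => Λ (Pi.single (q.out • x) 1)) (LinearMap.ext fun ω => by
        have := hΛ0 _ (htr x ω)
        rw [map_sum] at this
        rw [LinearMap.sum_apply, LinearMap.zero_apply]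
        refine Eq.trans (Finset.sum_congr rfl fun q _ => ?_) this
        rw [map_smul]
        simp only [LinearMap.smul_apply, smul_eq_mul, emb, AlgHom.toLinearMap_apply,
          AlgHom.comp_apply]
        exact mul_comm _ _) ((1 : GQ) : GQ ⧸ H)
    refine hΛx ?_
    have h1 : ((1 : GQ) : GQ ⧸ H).out • x = x := by
      refine h.fixedM _ (hH _ ?_) x
      exact (QuotientGroup.eq_one_iff _).1 (Quotient.out_eq _)
    rw [h1] at hzero
    exact hzero
  -- clearing denominators
  choose n hn hnmem using fun x => exists_intCast_smul_mem_invSpan (hdelta x)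
  refine ⟨∏ x, n x, Finset.prod_ne_zero_iff.2 fun x _ => hn x, fun f hf => ?_⟩
  rw [← Finset.univ_sum_single f, Finset.smul_sum]
  refine Submodule.sum_mem _ fun x _ => ?_
  rw [← Finset.prod_erase_mul _ n (Finset.mem_univ x), Int.cast_mul, mul_smul,
    show Pi.single x (f x) = f x • (Pi.single x 1 : M → Qbar) by
      rw [← Pi.single_smul, smul_eq_mul, mul_one], smul_comm _ (f x)]
  exact mul_smul_mem A (intCast_mem A _) (mul_smul_mem A (hf x) (hnmem x))

/-- The invariant elements span the coordinate ring. -/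
theorem adjoin_le_invSpan [FiniteDimensional ℚ L] [IsGalois ℚ L] [Finite M] (hℓ : ℓ.Prime)
    (hA : A.LiesOverPrime ℓ) {f : M → Qbar} (hf : f ∈ Algebra.adjoin A Φ) :
    f ∈ invSpan A Φ := by
  classical
  have : Fact ℓ.Prime := ⟨hℓ⟩
  obtain ⟨m, hm, hmS⟩ := h.exists_mul_mem_invSpan
  obtain ⟨θ, hθI, hθu, hθout, hθsep⟩ := exists_separator L hℓ hA
  set π := AlgEquiv.restrictNormalHom (F := ℚ) (K₁ := Qbar) L
  set P := centerIn L A
  set H := (P.inertia (L ≃ₐ[ℚ] L)).comap π
  obtain ⟨hfin⟩ := fintype_quotient_comap L (P.inertia (L ≃ₐ[ℚ] L))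
  let : Fintype (GQ ⧸ H) := hfin
  let t : Qbar := (ringOfIntegersIncl L θ : Qbar)
  have ht : ∀ σ : GQ, σ t = (ringOfIntegersIncl L (π σ • θ) : Qbar) := fun σ => by
    rw [coe_restrictNormal_smul]; rfl
  suffices hgen : ∀ φ ∈ Φ, φ ∈ invSpan A Φ by
    induction hf using Algebra.adjoin_induction with
    | mem φ hφ => exact hgen φ hφ
    | algebraMap a =>
      rw [Algebra.algebraMap_eq_smul_one]; exact Submodule.smul_mem _ _ (one_mem_invSpan A Φ)
    | add f g _ _ hf hg => exact add_mem hf hg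
    | mul f g _ _ hf hg => exact invSpan_mul A Φ hf hg
  intro φ hφ
  have hHφ : ∀ σ ∈ H, tw σ φ = φ := fun σ hσ => by
    obtain ⟨τ, hτ, hτσ⟩ := exists_mem_inertiaSubgroupIn_restrictNormal_eq L hℓ hA (π σ) hσ
    have hl : τ⁻¹ * σ ∈ L.fixingSubgroup := by
      rw [← restrictNormalHom_eq_one_iff, map_mul, map_inv, hτσ, inv_mul_cancel]
    rw [← mul_inv_cancel_left τ σ, ← tw_tw, h.fixed _ hl φ hφ, h.inertia τ hτ φ hφ]
  have hHt : ∀ σ ∈ H, σ t = t := fun σ hσ => by rw [ht, hθI _ hσ]
  set D := Finset.univ.filter fun q : GQ ⧸ H => π q.out • P = P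
  have hdec : ∀ q ∈ D, tw q.out φ ∈ Algebra.adjoin A Φ := fun q hq => by
    obtain ⟨τ, hτ, hτq⟩ := exists_mem_decomposition_restrictNormal_eq L hℓ hA
      (Finset.mem_filter.1 hq).2
    have hl : τ⁻¹ * q.out ∈ L.fixingSubgroup := by
      rw [← restrictNormalHom_eq_one_iff, map_mul, map_inv, hτq, inv_mul_cancel]
    rw [← mul_inv_cancel_left τ q.out, ← tw_tw, h.fixed _ hl φ hφ]
    exact h.decomposition τ hτ φ hφ
  have hmem : ∀ q : GQ ⧸ H, q.out t ∈ A := fun q => by rw [ht]; exact zbar_mem A _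
  have hout : ∀ q : GQ ⧸ H, q ∉ D → A.valuation (q.out t) < 1 := fun q hq => by
    rw [ht]
    exact mem_center.1 (show π q.out • θ ∈ centerIn L A from
      hθout _ fun e => hq (Finset.mem_filter.2 ⟨Finset.mem_univ _, e⟩))
  -- large powers kill the terms outside the decomposition group
  have hN : ∀ q : GQ ⧸ H, q ∉ D → ∀ x : M, ∃ N : ℕ, ∀ k, N ≤ k →
      q.out t ^ k * tw q.out φ x / (m : Qbar) ∈ A := fun q hq x =>
    exists_pow_mul_div_mem hA (hmem q) (hout q hq) hm _
  have := Fintype.ofFinite M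
  choose! N₀ hN₀ using hN
  set N := Finset.univ.sup fun p : (GQ ⧸ H) × M => N₀ p.1 p.2
  have hsmall : ∀ q : GQ ⧸ H, q ∉ D → ∀ j, q.out t ^ (N + j) • tw q.out φ ∈ invSpan A Φ := by
    intro q hq j
    have h1 := hmS (fun x => q.out t ^ (N + j) * tw q.out φ x / (m : Qbar)) fun x =>
      hN₀ q hq x _ ((Finset.le_sup (f := fun p : (GQ ⧸ H) × M => N₀ p.1 p.2)
        (Finset.mem_univ (q, x))).trans (Nat.le_add_right _ _))
    convert h1 using 1
    funext x
    simp only [Pi.smul_apply, smul_eq_mul]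
    rw [mul_div_cancel₀ _ (Int.cast_ne_zero.2 hm)]
  have hsum : ∀ j : ℕ, ∑ q ∈ D, q.out t ^ (N + j) • tw q.out φ ∈ invSpan A Φ := fun j => by
    have hf : ∀ σ ∈ H, tw σ (t ^ (N + j) • φ) = t ^ (N + j) • φ := fun σ hσ => by
      rw [tw_smul, map_pow, hHt σ hσ, hHφ σ hσ]
    have he : ∑ q : GQ ⧸ H, tw q.out (t ^ (N + j) • φ) =
        (∑ q ∈ D, q.out t ^ (N + j) • tw q.out φ) +
          ∑ q ∈ Dᶜ, q.out t ^ (N + j) • tw q.out φ := by
      rw [Finset.sum_add_sum_compl]
      exact Finset.sum_congr rfl fun q _ => by rw [tw_smul, map_pow]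
    have hS : ∑ q : GQ ⧸ H, tw q.out (t ^ (N + j) • φ) ∈ invSet A Φ := by
      refine ⟨?_, tw_trace H hf⟩
      rw [he]
      refine add_mem (Subalgebra.sum_mem _ fun q hq => ?_) (Subalgebra.sum_mem _ fun q hq => ?_)
      · exact mul_smul_mem (S := Subalgebra.toSubmodule (Algebra.adjoin A Φ)) A
          (pow_mem (hmem q) _) (hdec q hq)
      · exact invSpan_le A Φ (hsmall q (Finset.mem_compl.1 hq) j)
    have h1 := sub_mem (Submodule.subset_span (R := A) hS)
      (Submodule.sum_mem (invSpan A Φ) fun q (hq : q ∈ Dᶜ) => hsmall q (Finset.mem_compl.1 hq) j)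
    rwa [he, add_sub_cancel_right] at h1
  -- interpolation
  set q₀ : GQ ⧸ H := ((1 : GQ) : GQ ⧸ H)
  have hq₀ : q₀.out ∈ H := by
    simpa using QuotientGroup.eq.1 (show (q₀.out : GQ ⧸ H) = ((1 : GQ) : GQ ⧸ H) from
      Quotient.out_eq _)
  have hq₀D : q₀ ∈ D := Finset.mem_filter.2 ⟨Finset.mem_univ _,
    smul_centerIn_eq_of_mem_inertia L hℓ hA hq₀⟩
  have hsep : ∀ q ∈ D.erase q₀, A.valuation (t - q.out t) = 1 := fun q hq => by
    refine le_antisymm ((A.valuation_le_one_iff _).2 (sub_mem (zbar_mem A _) (hmem q))) ?_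
    by_contra hlt
    refine (Finset.ne_of_mem_erase hq) ?_
    have h1 : ringOfIntegersIncl L θ - ringOfIntegersIncl L (π q.out • θ) ∈ center A :=
      mem_center.2 (by
        show A.valuation (t - (ringOfIntegersIncl L (π q.out • θ) : Qbar)) < 1
        rw [← ht]
        exact lt_of_not_ge hlt)
    have h2 : π q.out • θ - θ ∈ centerIn L A := by
      rw [← Ideal.neg_mem_iff, neg_sub]
      rwa [centerIn, Ideal.mem_comap, map_sub]
    have h3 : q.out ∈ H := hθsep _ (Finset.mem_filter.1 (Finset.mem_of_mem_erase hq)).2 h2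
    rw [← QuotientGroup.out_eq' q]
    exact QuotientGroup.eq.2 (by simpa using h3)
  have hfinal := sum_prod_sub_smul_mem (fun q : GQ ⧸ H => q.out t) (fun q => tw q.out φ) hmem
    hsum (D.erase q₀) 0
  rw [Finset.sum_eq_single_of_mem q₀ hq₀D fun q hq hne => by
    rw [Finset.prod_eq_zero (Finset.mem_erase.2 ⟨hne, hq⟩) (sub_self _), zero_mul, zero_smul],
    hHt _ hq₀, hHφ _ hq₀] at hfinal
  set u := (∏ e ∈ D.erase q₀, (t - e.out t)) * t ^ (N + 0)
  have hvt : A.valuation t = 1 :=
    le_antisymm ((A.valuation_le_one_iff _).2 (zbar_mem A _)) (le_of_not_gt fun hlt =>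
      hθu (mem_center.2 hlt))
  have hu : A.valuation u = 1 := by
    rw [map_mul, map_prod, map_pow, hvt, one_pow, mul_one]
    exact Finset.prod_eq_one hsep
  have hu0 : u ≠ 0 := fun e => by rw [e, map_zero] at hu; exact zero_ne_one hu
  have hui : u⁻¹ ∈ A := (A.valuation_le_one_iff _).1 (by rw [map_inv₀, hu, inv_one])
  have := mul_smul_mem A hui hfinal
  rwa [smul_smul, inv_mul_cancel₀ hu0, one_smul] at this

end IsCoordSystem

end FermatAgent.Flat
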