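import Fermat.Agent.Flat.Kummer.Rel
import Fermat.Prelude.Def_ModularCurve_ArithmeticGalois

/-!
# Torsion of the Jacobian of `X₀(N)` over `ℚ̄`
-/

set_option autoImplicit false

noncomputable section

open AlgebraicCurve FermatAgent.Curve FermatAgent.GaloisBasic

namespace FermatAgent.Flat

theorem finite_torsion_of_eq (N : ℕ) [NeZero N] {n : ℕ} (hn : 0 < n)
    (E : IntermediateField Qbar (LaurentSeries Qbar)) (hE : E = jField Qbar N) :
    Finite {c : Pic0 Qbar E // n • c = 0} := by
  subst hE
  let := Mazur.embAlg
  exact Kummer.finite_torsion hn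

/-- The `n`-torsion of `J₀(N)` is finite. -/
theorem finite_jZero_torsion (N : ℕ) [NeZero N] {n : ℕ} (hn : 0 < n) :
    Finite {c : ModularCurve.JZero N // n • c = 0} :=
  finite_torsion_of_eq N hn _ (modularFunctionFieldBar_eq_jField N)

/-- The Galois action on torsion points. -/
@[reducible] def torsionAction (N : ℕ) (a : ℤ) :
    DistribMulAction GQ (Submodule.torsionBy ℤ (ModularCurve.JZero N) a) where
  smul σ x := ⟨σ • (x : ModularCurve.JZero N), by
    rw [Submodule.mem_torsionBy_iff, ← smul_zero (A := ModularCurve.JZero N) σ,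
      ← (Submodule.mem_torsionBy_iff a (x : ModularCurve.JZero N)).1 x.2]
    exact ((DistribSMul.toAddMonoidHom (ModularCurve.JZero N) σ).map_zsmul _ _).symm⟩
  one_smul x := Subtype.ext (one_smul GQ (x : ModularCurve.JZero N))
  mul_smul σ τ x := Subtype.ext (mul_smul σ τ (x : ModularCurve.JZero N))
  smul_zero σ := Subtype.ext (smul_zero σ)
  smul_add σ x y := Subtype.ext (smul_add σ (x : ModularCurve.JZero N) (y : ModularCurve.JZero N))

end FermatAgent.Flat
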