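import Fermat.Agent.Flat.Coord

/-!
# Coordinate systems relative to a group of automorphisms

A finite set of integral functions on a finite module, equivariant for a subgroup, spanning all
functions, whose span over the valuation ring is closed under products and translations.  The
functions in the span factoring through a quotient give such a system on the quotient.
-/

set_option autoImplicit false

noncomputable section

open scoped Classical
open FermatAgent.GaloisBasic

namespace FermatAgent.Flat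

/-- Products of values at two points. -/
def tens {M M' : Type} (s : Finset (M → Qbar)) (s' : Finset (M' → Qbar)) : Finset (M × M' → Qbar) :=
  Finset.image₂ (fun g h => fun q => g q.1 * h q.2) s s'

/-- A coordinate system on a module with an action of `S`. -/
structure Sys (A : ValuationSubring Qbar) (S : Subgroup GQ) {M : Type} [AddCommGroup M]
    (act : GQ → M → M) where
  /-- generators of the coordinate ring -/
  gens : Finset (M → Qbar)
  integral : ∀ g ∈ gens, ∀ x, g x ∈ A
  equiv : ∀ g ∈ gens, ∀ σ ∈ S, ∀ x, g (act σ x) = σ (g x)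
  one : (fun _ => (1 : Qbar)) ∈ Submodule.span A (gens : Set (M → Qbar))
  mul : ∀ f ∈ gens, ∀ g ∈ gens, f * g ∈ Submodule.span A (gens : Set (M → Qbar))
  add : ∀ g ∈ gens, (fun q : M × M => g (q.1 + q.2)) ∈
    Submodule.span A (tens gens gens : Set (M × M → Qbar))
  spans : Submodule.span Qbar (gens : Set (M → Qbar)) = ⊤

variable {A : ValuationSubring Qbar}

/-- Functions with integral values. -/
def intFun (A : ValuationSubring Qbar) (X : Type) : Submodule A (X → Qbar) where
  carrier := {f | ∀ x, f x ∈ A}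
  zero_mem' _ := zero_mem A
  add_mem' ha hb x := add_mem (ha x) (hb x)
  smul_mem' c _ hf x := mul_mem c.2 (hf x)

/-- Composition, linear over the valuation ring. -/
def pullA (A : ValuationSubring Qbar) {X Y : Type} (π : X → Y) :
    (Y → Qbar) →ₗ[A] (X → Qbar) where
  toFun f := f ∘ π
  map_add' _ _ := rfl
  map_smul' _ _ := rfl

/-- Existence of an echelon basis with integral coordinates. -/
theorem exists_echelon {ι : Type} [Fintype ι] (A : ValuationSubring Qbar)
    (V : Submodule Qbar (ι → Qbar)) :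
    ∃ (T : Finset ι) (u : ι → ι → Qbar),
      (∀ s ∈ T, u s ∈ V ∧ (∀ i, u s i ∈ A) ∧ ∀ t ∈ T, u s t = if s = t then 1 else 0) ∧
      ∀ w ∈ V, w = ∑ s ∈ T, w s • u s := by
  induction hn : Module.finrank Qbar V using Nat.strong_induction_on generalizing V with
  | _ n ih =>
  rcases eq_or_ne V ⊥ with hV | hV
  · exact ⟨∅, fun _ => 0, fun s hs => absurd hs (Finset.notMem_empty s), fun w hw => by
      rw [hV, Submodule.mem_bot] at hw; simp [hw]⟩
  obtain ⟨v₀, hv₀, hne⟩ := Submodule.exists_mem_ne_zero_of_ne_bot hV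
  obtain ⟨i₀, hi₀⟩ := Function.ne_iff.mp hne
  obtain ⟨s₀, -, hs₀⟩ := Finset.exists_max_image Finset.univ (fun i => A.valuation (v₀ i))
    ⟨i₀, Finset.mem_univ _⟩
  have hvs : v₀ s₀ ≠ 0 := fun h0 => hi₀ (by
    have := hs₀ i₀ (Finset.mem_univ _)
    rw [h0, map_zero, le_zero_iff, map_eq_zero] at this
    exact this)
  set v := (v₀ s₀)⁻¹ • v₀ with hv
  have hvV : v ∈ V := V.smul_mem _ hv₀
  have hv1 : v s₀ = 1 := inv_mul_cancel₀ hvs
  have hvA : ∀ i, v i ∈ A := fun i => (A.valuation_le_one_iff _).mp (by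
    show A.valuation ((v₀ s₀)⁻¹ * v₀ i) ≤ 1
    rw [map_mul, map_inv₀, inv_mul_le_one₀ (zero_lt_iff.mpr (by simpa using hvs))]
    exact hs₀ i (Finset.mem_univ _))
  set V' := V ⊓ LinearMap.ker (LinearMap.proj (R := Qbar) (φ := fun _ => Qbar) s₀) with hV'
  have hlt : V' < V := lt_of_le_of_ne inf_le_left fun h => by
    have h2 : v s₀ = 0 := (h.symm ▸ hvV : v ∈ V').2
    rw [hv1] at h2
    exact one_ne_zero h2
  obtain ⟨T, u, hu, hspan⟩ := ih _ (hn ▸ Submodule.finrank_lt_finrank_of_lt hlt) V' rfl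
  have hz : ∀ w ∈ V', w s₀ = 0 := fun w hw => hw.2
  have hsT : s₀ ∉ T := fun h => by
    have h1 := (hu s₀ h).2.2 s₀ h
    rw [if_pos rfl, hz _ (hu s₀ h).1] at h1
    exact zero_ne_one h1
  set w₀ := v - ∑ t ∈ T, v t • u t
  have hw₀V : w₀ ∈ V := V.sub_mem hvV (V.sum_mem fun t ht => V.smul_mem _ (hu t ht).1.1)
  have hw₀s : w₀ s₀ = 1 := by
    simp only [w₀, Pi.sub_apply, Finset.sum_apply, Pi.smul_apply, smul_eq_mul]
    rw [hv1, Finset.sum_eq_zero fun t ht => by rw [hz _ (hu t ht).1, mul_zero], sub_zero]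
  have hw₀t : ∀ t ∈ T, w₀ t = 0 := fun t ht => by
    simp only [w₀, Pi.sub_apply, Finset.sum_apply, Pi.smul_apply, smul_eq_mul]
    rw [Finset.sum_eq_single t (fun s hs hst => by rw [(hu s hs).2.2 t ht, if_neg hst, mul_zero])
      (fun h => absurd ht h), (hu t ht).2.2 t ht, if_pos rfl, mul_one, sub_self]
  refine ⟨insert s₀ T, Function.update u s₀ w₀, fun s hs => ?_, fun w hw => ?_⟩
  · rcases Finset.mem_insert.mp hs with hse | hs
    · rw [hse, Function.update_self]
      refine ⟨hw₀V, fun i => ?_, fun t ht => ?_⟩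
      · simp only [w₀, Pi.sub_apply, Finset.sum_apply, Pi.smul_apply, smul_eq_mul]
        exact sub_mem (hvA i) (sum_mem fun t ht => MulMemClass.mul_mem (hvA t) ((hu t ht).2.1 i))
      · rcases Finset.mem_insert.mp ht with hte | ht
        · rw [hte, if_pos rfl, hw₀s]
        · rw [if_neg fun h => hsT (by rwa [h]), hw₀t t ht]
    · have hne' : s ≠ s₀ := fun h => hsT (by rwa [← h])
      rw [Function.update_of_ne hne']
      refine ⟨(hu s hs).1.1, (hu s hs).2.1, fun t ht => ?_⟩
      rcases Finset.mem_insert.mp ht with hte | ht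
      · rw [hte, if_neg hne', hz _ (hu s hs).1]
      · exact (hu s hs).2.2 t ht
  · rw [Finset.sum_insert hsT, Function.update_self,
      Finset.sum_congr rfl (g := fun t => w t • u t) fun t ht => by
        rw [Function.update_of_ne (fun h => hsT (by rwa [← h]))]]
    set w' := w - w s₀ • w₀
    have hw' : w' ∈ V' := ⟨V.sub_mem hw (V.smul_mem _ hw₀V), by
      simp only [LinearMap.mem_ker, LinearMap.proj_apply, w', Pi.sub_apply, Pi.smul_apply,
        smul_eq_mul, hw₀s, mul_one, sub_self, SetLike.mem_coe]⟩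
    have h1 := hspan w' hw'
    rw [Finset.sum_congr rfl (g := fun t => w t • u t) fun t ht => by
      simp only [w', Pi.sub_apply, Pi.smul_apply, smul_eq_mul, hw₀t t ht, mul_zero, sub_zero]] at h1
    rw [← h1]
    simp [w']

namespace Sys

section

variable {S : Subgroup GQ} {M : Type} [AddCommGroup M] {act : GQ → M → M} (Z : Sys A S act)

/-- The span over the valuation ring. -/
abbrev B : Submodule A (M → Qbar) := Submodule.span A (Z.gens : Set (M → Qbar))

/-- Generators lie in the span. -/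
lemma gen_mem {g : M → Qbar} (hg : g ∈ Z.gens) : g ∈ Z.B := Submodule.subset_span hg

/-- Elements of the span have integral values. -/
lemma B_integral {f : M → Qbar} (hf : f ∈ Z.B) (x : M) : f x ∈ A :=
  (Submodule.span_le.mpr (fun g hg => Z.integral g hg) : Z.B ≤ intFun A M) hf x

/-- The span is closed under products. -/
lemma mul_mem {f g : M → Qbar} (hf : f ∈ Z.B) (hg : g ∈ Z.B) : f * g ∈ Z.B := by
  refine Submodule.span_induction ?_ ?_ ?_ ?_ hf (p := fun f _ => f * g ∈ Z.B)
  · intro f hf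
    refine Submodule.span_induction ?_ ?_ ?_ ?_ hg (p := fun g _ => f * g ∈ Z.B)
    · exact fun g hg => Z.mul f hf g hg
    · simp
    · intro a b _ _ ha hb; rw [mul_add]; exact add_mem ha hb
    · intro c a _ ha; rw [mul_smul_comm]; exact Z.B.smul_mem c ha
  · simp
  · intro a b _ _ ha hb; rw [add_mul]; exact add_mem ha hb
  · intro c a _ ha; rw [smul_mul_assoc]; exact Z.B.smul_mem c ha

/-- Translation of the span is spanned by products. -/
lemma add_mem_tens {f : M → Qbar} (hf : f ∈ Z.B) :
    (fun q : M × M => f (q.1 + q.2)) ∈ Submodule.span A (tens Z.gens Z.gens : Set (M × M → Qbar)) :=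
  (Submodule.span_le.mpr (fun g hg => Z.add g hg) :
    Z.B ≤ (Submodule.span A (tens Z.gens Z.gens : Set (M × M → Qbar))).comap
      (pullA A fun q : M × M => q.1 + q.2)) hf

/-- Two points with the same values are equal. -/
lemma eq_of_values {x y : M} (h : ∀ g ∈ Z.gens, g x = g y) : x = y := by
  have h1 : Submodule.span Qbar (Z.gens : Set (M → Qbar)) ≤
      LinearMap.eqLocus (LinearMap.proj (R := Qbar) (φ := fun _ : M => Qbar) x)
        (LinearMap.proj y) := Submodule.span_le.mpr h
  have h2 := h1 (Z.spans ▸ Submodule.mem_top : (fun z => if z = x then (1 : Qbar) else 0) ∈ _)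
  simpa [eq_comm] using h2

variable {M' : Type} [AddCommGroup M'] {act' : GQ → M' → M'}

/-- Linear combinations of the generators. -/
private def comb : (Z.gens → Qbar) →ₗ[Qbar] (M → Qbar) :=
  Fintype.linearCombination Qbar fun g : Z.gens => (g.1 : M → Qbar)

private lemma comb_apply (w : Z.gens → Qbar) (x : M) :
    Z.comb w x = ∑ g : Z.gens, w g * g.1 x := by
  rw [comb, Fintype.linearCombination_apply, Finset.sum_apply]
  rfl

/-- The coefficient vectors of the combinations which are constant on the fibres of `π`. -/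
private def quotCoeff (π : M → M') : Submodule Qbar (Z.gens → Qbar) :=
  Submodule.comap Z.comb
    { carrier := {f | ∀ x y, π x = π y → f x = f y}
      zero_mem' := fun _ _ _ => rfl
      add_mem' := fun hf hg x y e => congrArg₂ (· + ·) (hf x y e) (hg x y e)
      smul_mem' := fun r _ hf x y e => congrArg (fun z => r • z) (hf x y e) }

variable {π : M →+ M'}

/-- An echelon basis of the coefficient vectors constant on fibres is fixed by `S`. -/
private lemma echelon_fixed [Finite M] (hπ : Function.Surjective π)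
    (heq : ∀ σ ∈ S, ∀ x, π (act σ x) = act' σ (π x)) {T : Finset Z.gens}
    {u : Z.gens → Z.gens → Qbar} (hdec : ∀ w ∈ Z.quotCoeff π, w = ∑ s ∈ T, w s • u s)
    {s : Z.gens} (hs : s ∈ T) (hus : u s ∈ Z.quotCoeff π) (hone : u s s = 1)
    (hzero : ∀ t ∈ T, t ≠ s → u s t = 0) {σ : GQ} (hσ : σ ∈ S) (i : Z.gens) :
    σ (u s i) = u s i := by
  have : Finite M' := Finite.of_surjective π hπ
  have hactsurj : Function.Surjective (act σ) := Finite.injective_iff_surjective.mp fun x y h =>
    Z.eq_of_values fun g hg => σ.injective (by rw [← Z.equiv g hg σ hσ, ← Z.equiv g hg σ hσ, h])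
  have hact'inj : Function.Injective (act' σ) := Finite.injective_iff_surjective.mpr fun z' => by
    obtain ⟨z, rfl⟩ := hπ z'
    obtain ⟨z₀, rfl⟩ := hactsurj z
    exact ⟨π z₀, (heq σ hσ z₀).symm⟩
  have hV : (fun i => σ (u s i)) ∈ Z.quotCoeff π := by
    intro x y hxy
    obtain ⟨x₀, rfl⟩ := hactsurj x
    obtain ⟨y₀, rfl⟩ := hactsurj y
    have h0 : π x₀ = π y₀ := hact'inj (by rw [← heq σ hσ, ← heq σ hσ, hxy])
    have h2 : ∀ z, Z.comb (fun i => σ (u s i)) (act σ z) = σ (Z.comb (u s) z) := fun z => by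
      rw [comb_apply, comb_apply, map_sum]
      exact Finset.sum_congr rfl fun g _ => by rw [Z.equiv g.1 g.2 σ hσ, map_mul]
    rw [h2, h2, hus _ _ h0]
  rw [congrFun (hdec _ hV) i, Finset.sum_apply,
    Finset.sum_eq_single s (fun t ht hts => by
      rw [Pi.smul_apply, hzero t ht hts, map_zero, zero_smul])
      (fun h => absurd hs h), Pi.smul_apply, hone, map_one, one_smul]

variable {T : Finset Z.gens} {u : Z.gens → Z.gens → Qbar} {ψ : Z.gens → M' → Qbar}

/-- A function on the quotient is expanded along the echelon basis. -/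
private lemma eq_sum_of_comb_eq (hπ : Function.Surjective π)
    (hψ : ∀ s ∈ T, ψ s ∘ π = Z.comb (u s))
    (hdec : ∀ w ∈ Z.quotCoeff π, w = ∑ s ∈ T, w s • u s) {w : Z.gens → Qbar} {f' : M' → Qbar}
    (hw : Z.comb w = f' ∘ π) : f' = ∑ s ∈ T, w s • ψ s := by
  have hwV : w ∈ Z.quotCoeff π := fun a b hab => by
    rw [hw, Function.comp_apply, Function.comp_apply, hab]
  funext x'
  obtain ⟨x, rfl⟩ := hπ x'
  rw [show f' (π x) = Z.comb w x from (congrFun hw x).symm,
    congrArg (fun v => Z.comb v x) (hdec w hwV), map_sum, Finset.sum_apply, Finset.sum_apply]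
  refine Finset.sum_congr rfl fun s hs => ?_
  rw [map_smul, ← hψ s hs]
  rfl

/-- The elements of the span factoring through the quotient. -/
private lemma mem_span_image_iff (hπ : Function.Surjective π)
    (huA : ∀ s ∈ T, ∀ i, u s i ∈ A) (hψ : ∀ s ∈ T, ψ s ∘ π = Z.comb (u s))
    (hdec : ∀ w ∈ Z.quotCoeff π, w = ∑ s ∈ T, w s • u s) (f' : M' → Qbar) :
    f' ∈ Submodule.span A (T.image ψ : Set (M' → Qbar)) ↔ f' ∘ π ∈ Z.B := by
  constructor
  · refine fun h => (Submodule.span_le.mpr ?_ :
      Submodule.span A (T.image ψ : Set (M' → Qbar)) ≤ Z.B.comap (pullA A π)) h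
    intro g hg
    obtain ⟨s, hs, rfl⟩ := Finset.mem_image.mp (Finset.mem_coe.mp hg)
    show ψ s ∘ π ∈ Z.B
    have e : Z.comb (u s) = ∑ g : Z.gens, (⟨u s g, huA s hs g⟩ : A) • g.1 := funext fun x => by
      rw [comb_apply, Finset.sum_apply]
      rfl
    exact (congrArg (· ∈ Z.B) ((hψ s hs).trans e)).mpr
      (Submodule.sum_mem _ fun g _ => Z.B.smul_mem _ (Z.gen_mem g.2))
  · intro h
    rw [Submodule.mem_span_finset'] at h
    obtain ⟨a, ha⟩ := h
    have hew : Z.comb (fun g => ((a g : A) : Qbar)) = f' ∘ π := funext fun x => by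
      rw [← ha, comb_apply, Finset.sum_apply]
      rfl
    rw [Z.eq_sum_of_comb_eq hπ hψ hdec hew]
    exact Submodule.sum_mem _ fun s hs => Submodule.smul_mem _ (a s : A)
      (Submodule.subset_span (Finset.mem_image_of_mem _ hs))

/-- Translation on the quotient, projecting both variables. -/
private lemma add_mem_tens_image (hπ : Function.Surjective π)
    (hψ : ∀ s ∈ T, ψ s ∘ π = Z.comb (u s))
    (hdec : ∀ w ∈ Z.quotCoeff π, w = ∑ s ∈ T, w s • u s) {f' : M' → Qbar} (hf : f' ∘ π ∈ Z.B) :
    (fun q : M' × M' => f' (q.1 + q.2)) ∈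
      Submodule.span A (tens (T.image ψ) (T.image ψ) : Set (M' × M' → Qbar)) := by
  have hT := Z.add_mem_tens hf
  rw [tens, Finset.coe_image₂] at hT
  have hT' : (fun q : M × M => f' (π (q.1 + q.2))) ∈ Submodule.span A
      (Set.range fun gh : Z.gens × Z.gens => fun q : M × M => gh.1.1 q.1 * gh.2.1 q.2) := by
    refine Submodule.span_mono ?_ hT
    rintro _ ⟨a, ha, b, hb, rfl⟩
    exact ⟨(⟨a, ha⟩, ⟨b, hb⟩), rfl⟩
  rw [Submodule.mem_span_range_iff_exists_fun] at hT'
  obtain ⟨c, hc⟩ := hT'
  have hc' : ∀ x y, f' (π x + π y) =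
      ∑ i : Z.gens, ∑ k : Z.gens, ((c (i, k) : A) : Qbar) * (i.1 x * k.1 y) := fun x y => by
    rw [← map_add, show f' (π (x + y)) = (fun q : M × M => f' (π (q.1 + q.2))) (x, y) from rfl,
      ← hc, Fintype.sum_prod_type, Finset.sum_apply]
    refine Finset.sum_congr rfl fun i _ => ?_
    rw [Finset.sum_apply]
    rfl
  have h1 : ∀ a y, f' (a + π y) =
      ∑ i ∈ T, (∑ k : Z.gens, ((c (i, k) : A) : Qbar) * k.1 y) * ψ i a := fun a y => by
    refine (congrFun (Z.eq_sum_of_comb_eq (f' := fun a => f' (a + π y))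
      (w := fun i => ∑ k : Z.gens, ((c (i, k) : A) : Qbar) * k.1 y) hπ hψ hdec
      (funext fun x => ?_)) a).trans ?_
    · rw [Function.comp_apply, hc', comb_apply]
      simp only [Finset.sum_mul]
      exact Finset.sum_congr rfl fun i _ => Finset.sum_congr rfl fun k _ => by ring
    · rw [Finset.sum_apply]
      rfl
  have h2 : ∀ a b, f' (a + b) =
      ∑ k ∈ T, (∑ i ∈ T, ψ i a * ((c (i, k) : A) : Qbar)) * ψ k b := fun a b => by
    refine (congrFun (Z.eq_sum_of_comb_eq (f' := fun b => f' (a + b))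
      (w := fun k => ∑ i ∈ T, ψ i a * ((c (i, k) : A) : Qbar)) hπ hψ hdec
      (funext fun y => ?_)) b).trans ?_
    · rw [Function.comp_apply, h1, comb_apply]
      simp only [Finset.sum_mul]
      rw [Finset.sum_comm]
      exact Finset.sum_congr rfl fun i _ => Finset.sum_congr rfl fun k _ => by ring
    · rw [Finset.sum_apply]
      rfl
  have e : (fun q : M' × M' => f' (q.1 + q.2)) =
      ∑ i ∈ T, ∑ k ∈ T, (c (i, k) : A) • fun q : M' × M' => ψ i q.1 * ψ k q.2 := by
    funext q
    rw [h2]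
    simp only [Finset.sum_apply, Finset.sum_mul]
    rw [Finset.sum_comm]
    refine Finset.sum_congr rfl fun i _ => Finset.sum_congr rfl fun k _ => ?_
    show _ = ((c (i, k) : A) : Qbar) * (ψ i q.1 * ψ k q.2)
    ring
  rw [e]
  exact Submodule.sum_mem _ fun i hi => Submodule.sum_mem _ fun k hk => Submodule.smul_mem _ _
    (Submodule.subset_span (Finset.mem_image₂.mpr
      ⟨ψ i, Finset.mem_image_of_mem _ hi, ψ k, Finset.mem_image_of_mem _ hk, rfl⟩))

/-- The echelon basis spans all functions on the quotient. -/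
private lemma span_image_eq_top (hπ : Function.Surjective π)
    (hψ : ∀ s ∈ T, ψ s ∘ π = Z.comb (u s))
    (hdec : ∀ w ∈ Z.quotCoeff π, w = ∑ s ∈ T, w s • u s) :
    Submodule.span Qbar (T.image ψ : Set (M' → Qbar)) = ⊤ := by
  rw [eq_top_iff]
  intro f' _
  obtain ⟨w, hw⟩ : f' ∘ π ∈ LinearMap.range Z.comb := by
    have h := (Z.spans ▸ Submodule.mem_top :
      f' ∘ π ∈ Submodule.span Qbar (Z.gens : Set (M → Qbar)))
    rw [comb, Fintype.range_linearCombination]
    convert h using 3
    exact Subtype.range_coe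
  rw [Z.eq_sum_of_comb_eq hπ hψ hdec hw]
  exact Submodule.sum_mem _ fun s hs =>
    Submodule.smul_mem _ _ (Submodule.subset_span (Finset.mem_image_of_mem _ hs))

/-- Quotients. -/
theorem exists_quotient [Finite M] (π : M →+ M') (hπ : Function.Surjective π)
    (heq : ∀ σ ∈ S, ∀ x, π (act σ x) = act' σ (π x)) :
    ∃ Z' : Sys A S act', ∀ f' : M' → Qbar, f' ∈ Z'.B ↔ f' ∘ π ∈ Z.B := by
  obtain ⟨T, u, hu, hdec⟩ := exists_echelon A (Z.quotCoeff π)
  obtain ⟨sec, hsec⟩ := hπ.hasRightInverse
  let ψ : Z.gens → M' → Qbar := fun s x' => Z.comb (u s) (sec x')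
  have hψ : ∀ s ∈ T, ψ s ∘ π = Z.comb (u s) := fun s hs =>
    funext fun x => (hu s hs).1 _ _ (hsec (π x))
  -- elements of the span factoring through the quotient
  have hB := Z.mem_span_image_iff hπ (fun s hs => (hu s hs).2.1) hψ hdec
  have hmemA : ∀ g ∈ T.image ψ, g ∘ π ∈ Z.B := fun g hg =>
    (hB g).mp (Submodule.subset_span (Finset.mem_coe.mpr hg))
  refine ⟨
    { gens := T.image ψ
      integral := fun g hg x' => ?_
      equiv := fun g hg σ hσ x' => ?_
      one := (hB _).mpr Z.one
      mul := fun f hf g hg => (hB _).mpr (Z.mul_mem (hmemA f hf) (hmemA g hg))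
      add := fun g hg => Z.add_mem_tens_image hπ hψ hdec (hmemA g hg)
      spans := Z.span_image_eq_top hπ hψ hdec }, hB⟩
  · obtain ⟨x, rfl⟩ := hπ x'
    exact Z.B_integral (hmemA g hg) x
  · obtain ⟨s, hs, rfl⟩ := Finset.mem_image.mp hg
    obtain ⟨x, rfl⟩ := hπ x'
    rw [← heq σ hσ, show ψ s (π (act σ x)) = Z.comb (u s) (act σ x) from congrFun (hψ s hs) _,
      show ψ s (π x) = Z.comb (u s) x from congrFun (hψ s hs) _, comb_apply, comb_apply, map_sum]
    exact Finset.sum_congr rfl fun g _ => by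
      rw [Z.equiv g.1 g.2 σ hσ, map_mul, Z.echelon_fixed hπ heq hdec hs (hu s hs).1
        (((hu s hs).2.2 s hs).trans (if_pos rfl))
        (fun t ht hts => ((hu s hs).2.2 t ht).trans (if_neg hts.symm)) hσ]

end

end Sys

end FermatAgent.Flat
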