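import Fermat.Agent.Flat.Model
import Fermat.Agent.Flat.Sys

/-!
# Coordinate systems on subobjects, products and quotients
-/

set_option autoImplicit false

noncomputable section

open Module FermatAgent.GaloisBasic

namespace FermatAgent.Flat

variable {M M' : Type} [AddCommGroup M] [DistribMulAction GQ M]
  [AddCommGroup M'] [DistribMulAction GQ M']

theorem tw_pull (π : M → M') (hπ : ∀ (σ : GQ) (x : M), π (σ • x) = σ • π x) (σ : GQ)
    (f : M' → Qbar) : tw σ (f ∘ π) = tw σ f ∘ π := funext fun x => by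
  simp only [tw_apply, Function.comp_apply, hπ]

variable {L : IntermediateField ℚ Qbar} {A : ValuationSubring Qbar}

/-- Pullback maps generated algebras into generated algebras. -/
theorem pullAlg_mem_adjoin {X Y : Type} (π : Y → X) {s : Set (X → Qbar)} {t : Set (Y → Qbar)}
    (hst : ∀ f ∈ s, f ∘ π ∈ Algebra.adjoin A t) {f : X → Qbar} (hf : f ∈ Algebra.adjoin A s) :
    f ∘ π ∈ Algebra.adjoin A t := by
  have h : Algebra.adjoin A s ≤ (Algebra.adjoin A t).comap (pullAlg A Qbar π) :=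
    Algebra.adjoin_le hst
  exact h hf

namespace IsCoordSystem

/-- Functions pulled back from coordinate systems along equivariant maps form one as soon as they
separate. -/
theorem of_pullback {Ψ : Set (M' → Qbar)} (hM : ∀ σ ∈ L.fixingSubgroup, ∀ x : M', σ • x = x)
    (hsep : ∀ x y : M', x ≠ y → ∃ ψ ∈ Ψ, ψ x ≠ ψ y)
    (hpull : ∀ ψ ∈ Ψ, ∃ (N : Type) (_ : AddCommGroup N) (_ : DistribMulAction GQ N)
      (Φ : Set (N → Qbar)) (π : M' →+ N), IsCoordSystem L A Φ ∧
        (∀ (σ : GQ) (x : M'), π (σ • x) = σ • π x) ∧ (∀ φ ∈ Φ, φ ∘ π ∈ Ψ) ∧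
        ∃ φ ∈ Φ, ψ = φ ∘ π) :
    IsCoordSystem L A Ψ := by
  refine ⟨hM, fun σ hσ ψ hψ => ?_, fun ψ hψ x => ?_, hsep, fun σ hσ ψ hψ => ?_,
    fun σ hσ ψ hψ => ?_, fun ψ hψ => ?_⟩ <;>
    obtain ⟨N, _, _, Φ, π, h, heq, hΦ, φ, hφ, rfl⟩ := hpull ψ hψ
  · rw [tw_pull _ heq, h.fixed σ hσ φ hφ]
  · exact h.integral φ hφ _
  · rw [tw_pull _ heq, h.inertia σ hσ φ hφ]
  · rw [tw_pull _ heq]
    exact pullAlg_mem_adjoin _ (fun f hf => Algebra.subset_adjoin (hΦ f hf))
      (h.decomposition σ hσ φ hφ)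
  · rw [show (fun p : M' × M' => (φ ∘ π) (p.1 + p.2)) =
      (fun p : N × N => φ (p.1 + p.2)) ∘ Prod.map π π from
      funext fun p => congrArg φ (map_add π p.1 p.2)]
    refine pullAlg_mem_adjoin _ ?_ (h.add φ hφ)
    rintro _ (⟨a, ha, rfl⟩ | ⟨a, ha, rfl⟩)
    · exact Algebra.subset_adjoin (Or.inl ⟨_, hΦ a ha, rfl⟩)
    · exact Algebra.subset_adjoin (Or.inr ⟨_, hΦ a ha, rfl⟩)

/-- Restriction of a coordinate system to a submodule. -/
theorem restrict {Φ : Set (M → Qbar)} (h : IsCoordSystem L A Φ) (ι : M' →+ M)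
    (hι : Function.Injective ι) (heq : ∀ (σ : GQ) (x : M'), ι (σ • x) = σ • ι x) :
    IsCoordSystem L A ((fun φ : M → Qbar => φ ∘ ι) '' Φ) := by
  refine of_pullback (fun σ hσ x => hι (by rw [heq, h.fixedM σ hσ])) (fun x y hxy => ?_) ?_
  · obtain ⟨φ, hφ, hne⟩ := h.separated _ _ (fun e => hxy (hι e))
    exact ⟨_, ⟨φ, hφ, rfl⟩, hne⟩
  · rintro _ ⟨φ, hφ, rfl⟩
    exact ⟨M, _, _, Φ, ι, h, heq, fun f hf => ⟨f, hf, rfl⟩, φ, hφ, rfl⟩

/-- A coordinate system on a power. -/
theorem pi {ι : Type} {Φ : Set (M → Qbar)} (h : IsCoordSystem L A Φ) :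
    IsCoordSystem L A {f : (ι → M) → Qbar | ∃ i, ∃ φ ∈ Φ, f = φ ∘ fun x => x i} := by
  refine of_pullback (fun σ hσ x => funext fun i => h.fixedM σ hσ (x i)) (fun x y hxy => ?_) ?_
  · obtain ⟨i, hi⟩ := Function.ne_iff.1 hxy
    obtain ⟨φ, hφ, hne⟩ := h.separated _ _ hi
    exact ⟨_, ⟨i, φ, hφ, rfl⟩, hne⟩
  · rintro _ ⟨i, φ, hφ, rfl⟩
    exact ⟨M, _, _, Φ, Pi.evalAddMonoidHom (fun _ : ι => M) i, h, fun _ _ => rfl,
      fun f hf => ⟨i, f, hf, rfl⟩, φ, hφ, rfl⟩

/-- Enlarging the field keeps a coordinate system. -/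
theorem mono {L' : IntermediateField ℚ Qbar} {Φ : Set (M → Qbar)} (h : IsCoordSystem L A Φ)
    (hL : L ≤ L') : IsCoordSystem L' A Φ :=
  { h with
    fixedM := fun σ hσ => h.fixedM σ (IntermediateField.fixingSubgroup_antitone hL hσ)
    fixed := fun σ hσ => h.fixed σ (IntermediateField.fixingSubgroup_antitone hL hσ) }

end IsCoordSystem

namespace IsCoordSystem

variable {ℓ : ℕ} [Fact ℓ.Prime] [FiniteDimensional ℚ L] [IsGalois ℚ L] [Finite M]

open scoped Classical in
/-- A coordinate system gives one relative to the whole group: a basis of invariant functions. -/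
theorem exists_sys (hA : A.LiesOverPrime ℓ) {Φ : Set (M → Qbar)} (h : IsCoordSystem L A Φ) :
    Nonempty (Sys A ⊤ fun (σ : GQ) (x : M) => σ • x) := by
  obtain ⟨n, b, hli, hn⟩ := exists_invAlg_basis hA h
  let f : Fin n → M → Qbar := fun i => (b i : M → Qbar)
  have hB : ∀ g ∈ Algebra.adjoin A Φ,
      g ∈ Submodule.span A ((Finset.univ.image f : Finset (M → Qbar)) : Set (M → Qbar)) :=
    fun g hg => by
      rw [Finset.coe_image, Finset.coe_univ, Set.image_univ]
      exact mem_span_basis hA h b hg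
  refine ⟨{ gens := Finset.univ.image f, integral := ?_, equiv := ?_, one := hB _ (one_mem _)
            mul := ?_, add := ?_, spans := ?_ }⟩
  · intro g hg x
    obtain ⟨i, -, rfl⟩ := Finset.mem_image.mp hg
    exact h.mem_adjoin_integral (b i).2.1 x
  · intro g hg σ _ x
    obtain ⟨i, -, rfl⟩ := Finset.mem_image.mp hg
    have h1 := congrFun ((b i).2.2 σ) (σ • x)
    rw [tw_apply, inv_smul_smul] at h1
    exact h1.symm
  · intro g hg g' hg'
    obtain ⟨i, -, rfl⟩ := Finset.mem_image.mp hg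
    obtain ⟨j, -, rfl⟩ := Finset.mem_image.mp hg'
    exact hB _ (MulMemClass.mul_mem (b i).2.1 (b j).2.1)
  · intro g hg
    obtain ⟨i, -, rfl⟩ := Finset.mem_image.mp hg
    obtain ⟨c, hc⟩ := exists_add_eq hA h b (b i).2.1
    rw [show (fun q : M × M => f i (q.1 + q.2)) =
        ∑ l : Fin n × Fin n, c l • fun q : M × M => f l.1 q.1 * f l.2 q.2 from funext fun q => by
      refine (hc q.1 q.2).trans ?_
      rw [Finset.sum_apply]
      rfl]
    exact Submodule.sum_mem _ fun l _ => Submodule.smul_mem _ _ (Submodule.subset_span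
      (Finset.mem_image₂.mpr ⟨_, Finset.mem_image_of_mem _ (Finset.mem_univ l.1), _,
        Finset.mem_image_of_mem _ (Finset.mem_univ l.2), rfl⟩))
  · rw [Finset.coe_image, Finset.coe_univ, Set.image_univ]
    let : Fintype M := Fintype.ofFinite _
    exact hli.span_eq_top_of_card_eq_finrank' (by
      rw [Fintype.card_fin, hn, Module.finrank_pi, Nat.card_eq_fintype_card])

end IsCoordSystem

open scoped Classical in
/-- Generators of a coordinate system relative to the whole group form one in the present sense. -/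
theorem Sys.isCoordSystem (Z : Sys A ⊤ fun (σ : GQ) (x : M) => σ • x)
    (hfix : ∀ σ ∈ L.fixingSubgroup, ∀ x : M, σ • x = x) :
    IsCoordSystem L A (Z.gens : Set (M → Qbar)) := by
  have htw : ∀ σ : GQ, ∀ g ∈ Z.gens, tw σ g = g := fun σ g hg => funext fun x => by
    rw [tw_apply, ← Z.equiv g hg σ trivial, smul_inv_smul]
  refine ⟨hfix, fun σ _ => htw σ, Z.integral, fun x y hxy => ?_, fun σ _ => htw σ,
    fun σ _ g hg => by rw [htw σ g hg]; exact Algebra.subset_adjoin hg, fun g hg => ?_⟩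
  · by_contra hall
    push Not at hall
    exact hxy (Z.eq_of_values hall)
  · rw [← Subalgebra.mem_toSubmodule]
    refine Submodule.span_le.mpr ?_ (Z.add g hg)
    intro Q hQ
    obtain ⟨a, ha, b, hb, rfl⟩ := Finset.mem_image₂.mp hQ
    rw [SetLike.mem_coe, Subalgebra.mem_toSubmodule]
    exact MulMemClass.mul_mem (Algebra.subset_adjoin (Or.inl ⟨a, ha, rfl⟩))
      (Algebra.subset_adjoin (Or.inr ⟨b, hb, rfl⟩))

namespace IsCoordSystem

variable {ℓ : ℕ} [Fact ℓ.Prime] [FiniteDimensional ℚ L] [IsGalois ℚ L] [Finite M]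

/-- A coordinate system on a quotient. -/
theorem quotient (hA : A.LiesOverPrime ℓ) {Φ : Set (M → Qbar)} (h : IsCoordSystem L A Φ)
    (π : M →+ M') (hπ : Function.Surjective π) (heq : ∀ (σ : GQ) (x : M), π (σ • x) = σ • π x) :
    ∃ Ψ : Set (M' → Qbar), IsCoordSystem L A Ψ := by
  obtain ⟨Z⟩ := h.exists_sys hA
  obtain ⟨Z', -⟩ := Z.exists_quotient (act' := fun σ x => σ • x) π hπ fun σ _ x => heq σ x
  refine ⟨_, Z'.isCoordSystem fun σ hσ x' => ?_⟩
  obtain ⟨x, rfl⟩ := hπ x'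
  rw [← heq, h.fixedM σ hσ]

end IsCoordSystem

end FermatAgent.Flat
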